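/-
Programme MP (row 38), chapter T3 (helper2, architect): **configurations on a two-component semistable
datum** — the vocabulary of the rigidity lemma.

* `TwoComp 𝔻 v0 v1` : the graph has exactly the two vertices `v0 ≠ v1`, every edge goes from `v0` to `v1`.
* `ASystem 𝔻 g` : an `A`-system = a non-special system `S0` of `ORD/KERN/KerDefs9` of which only the
  centres `i ∈ I` are kept, plus a finite set `A` of edges carrying ONE annulus place each, with the
  `A`-NS property (tuple form): a tuple `(f v)` (zero components allowed) with poles bounded by the kept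
  reduced centres, regular at all branches and MATCHED ONLY AT THE NODES `e ∉ A`, is a constant tuple.
* `Config S` : a point configuration = coordinates `t i ∈ m_A` of the smooth points (in the discs of the
  kept centres) and annulus places `Pe e ∈ ann e` (`e ∈ A`); `Config.div` its divisor
  `Σ_{i ∈ I} pt i (t i) + Σ_{e ∈ A} Pe e`; `Config.Matched` : equal radii on every `e ∈ A`.
* `absv 𝔻 z` : the absolute value `|z|` of `z : L` (valuation of `𝔻.B.A`).
-/
import Mathlib
import Fermat.Agent.ORD.KERN.KerGalN9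
import Fermat.Agent.ORD.ANN.InertialPic3

set_option autoImplicit false
set_option linter.unusedSectionVars false
set_option linter.style.longLine false

namespace Fermat.Agent.MP.T3.Config2

open AlgebraicCurve Fermat.Agent.X0.FF Fermat.Agent.RR.LSpace Fermat.Agent.MW.EMB.Value6
open Fermat.Agent.ORD.ANN.Side3 Fermat.Agent.ORD.ANN.Node3
open Fermat.Agent.ORD.SEMIRED.SemiRedDatum9
open Fermat.Agent.ORD.KERN.KerDefs9 Fermat.Agent.ORD.KERN.KerN9

noncomputable section

variable {L F k Ft : Type*} [Field L] [Field F] [Algebra L F] [Field k] [Field Ft] [Algebra k Ft]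
variable {ι E : Type*}

/-- the absolute value of the base. -/
abbrev absv (𝔻 : SemiRedDatum L F k Ft ι E) (z : L) : 𝔻.B.A.ValueGroup := 𝔻.B.A.valuation z

/-- the annulus coordinate `a_P = x_e(P)` of a place. -/
abbrev acoord (𝔻 : SemiRedDatum L F k Ft ι E) (e : E) (P : Place L F) : L := (𝔻.node e).a P

/-- **Two components**: vertices `v0 ≠ v1`, all edges from `v0` to `v1`. -/
structure TwoComp (𝔻 : SemiRedDatum L F k Ft ι E) (v0 v1 : ι) : Prop where
  ne : v0 ≠ v1
  all : ∀ v, v = v0 ∨ v = v1
  src : ∀ e, 𝔻.src e = v0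
  tgt : ∀ e, 𝔻.tgt e = v1

/-- the reduced divisor of the kept centres. -/
def redDivI {g : ℕ} (c : Fin g → ι) (Q : Fin g → Place k Ft) (I : Finset (Fin g)) :
    Pts ι E k Ft →₀ ℤ :=
  ∑ i ∈ I, Finsupp.single (Sum.inl (c i, Q i)) (1 : ℤ)

/-- An **`A`-system**: a non-special system of which the centres `i ∈ I` are kept, a finite set `A` of
edges, and the `A`-NS property. -/
structure ASystem (𝔻 : SemiRedDatum L F k Ft ι E) (g : ℕ) where
  /-- the ambient non-special system (supplies discs, centres, good uniformizers) -/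
  S0 : NSSystemN 𝔻 g
  /-- the kept centres -/
  I : Finset (Fin g)
  /-- the edges carrying an annulus place -/
  A : Finset E
  /-- `A`-NS, tuple form -/
  ans : ∀ f : ι → Ft,
    (∀ v, f v ≠ 0 → ∀ Q' : Place k Ft,
      -(redDivI (E := E) S0.c S0.Q I (Sum.inl (v, Q'))) ≤ Q'.ord (f v)) →
    (∀ e, e ∉ A → valF 𝔻.Hk (𝔻.Qs e) (f (𝔻.src e)) = valF 𝔻.Hk (𝔻.Qt e) (f (𝔻.tgt e))) →
    ∃ a : k, ∀ v, f v = algebraMap k Ft a

variable {𝔻 : SemiRedDatum L F k Ft ι E} {g : ℕ}

/-- A **point configuration** on an `A`-system. -/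
structure Config (S : ASystem 𝔻 g) where
  /-- coordinates of the smooth points (only `i ∈ I` matters) -/
  t : Fin g → mA 𝔻
  /-- the annulus places (only `e ∈ A` matters) -/
  Pe : E → Place L F
  hPe : ∀ e ∈ S.A, 𝔻.r (Pe e) = Sum.inr e

namespace Config

variable {S : ASystem 𝔻 g}

/-- the divisor of a configuration. -/
def div (C : Config S) : Divisor L F :=
  ∑ i ∈ S.I, Finsupp.single (S.S0.pt i (C.t i)) (1 : ℤ) + ∑ e ∈ S.A, Finsupp.single (C.Pe e) (1 : ℤ)

/-- equal radii on the edges of `A`. -/
def Matched (C C' : Config S) : Prop :=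
  ∀ e ∈ S.A, absv 𝔻 (acoord 𝔻 e (C.Pe e)) = absv 𝔻 (acoord 𝔻 e (C'.Pe e))

theorem Matched.symm {C C' : Config S} (h : Matched C C') : Matched C' C :=
  fun e he => (h e he).symm

theorem Matched.refl (C : Config S) : Matched C C := fun _ _ => rfl

theorem Matched.trans {C C' C'' : Config S} (h : Matched C C') (h' : Matched C' C'') :
    Matched C C'' := fun e he => (h e he).trans (h' e he)

theorem degree_div (C : Config S) : Divisor.degree C.div = S.I.card + S.A.card := by
  rw [div, map_add, map_sum, map_sum]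
  simp [degree_single 𝔻.HL]

theorem mem_ann (C : Config S) {e : E} (he : e ∈ S.A) : C.Pe e ∈ (𝔻.node e).ann :=
  (𝔻.r_ann e _).mpr (C.hPe e he)

end Config

end

end Fermat.Agent.MP.T3.Config2
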