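/-
Programme MP (row 38), chapter T3 (helper2, architect): **INTERFACE of the chapter** — statements only
(`def … : Prop`), each to be replaced by a theorem of the same shape in the file named in its
docstring; and the consumer theorem `t3_of_pieces`.

(T3) on a two-component semistable datum `𝔻` with an inertia-type group `Γ` (= `Γ_L`, the inertia
elements fixing `ζ_p`):  if `y ∈ J[p]`, `γ • y − y = χ(γ) • ℓ0` with `ℓ0 ∈ kerRed`, `Γ`-fixed, and the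
character `χ` is the Kummer character of a UNIT, then the slopes `ord_{Qs e} nred_{v0}(f)` of the Kummer
generator `f` (`div f = p D`, `[D] = y`) are all congruent mod `p`.

Pieces:
* `RigidityStmt`   (MP/T3/Rigid2)    : the rigidity lemma for matched configurations;
* `ExistsASysStmt` (MP/T3/ANS2)      : `A`-NS systems from NS systems (linear algebra);
* `GenKapStmt`     (MP/T3/GenKap2)   : the generalised `kap` is onto `kerRed`;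
* `RigidRepStmt`   (MP/T3/RigidRep2) : every class has a rigid representative `[C0.div − F1]` mod `kerRed`;
* `GeoStmt`        (MP/T3/Geo2)      : (GEO) the element `ξ` of fractional valuation moved little by `Γ`;
* `BreakStmt`      (MP/T3/Break7, helper7) : (BR) the ramification break of a peu ramifié Kummer extension.
-/
import Mathlib
import Fermat.Agent.MP.T3.Config2

set_option autoImplicit false
set_option linter.unusedSectionVars false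
set_option linter.style.longLine false

namespace Fermat.Agent.MP.T3.Iface2

open AlgebraicCurve Fermat.Agent.X0.FF Fermat.Agent.RR.LSpace Fermat.Agent.MW.EMB.Value6
open Fermat.Agent.ORD.ANN.Side3 Fermat.Agent.ORD.ANN.Node3 Fermat.Agent.ORD.ANN.Inertial3
open Fermat.Agent.ORD.SEMIRED.SemiRedDatum9 Fermat.Agent.ORD.SEMIRED.ToSemiRed9
open Fermat.Agent.ORD.KERN.KerDefs9 Fermat.Agent.ORD.KERN.KerN9 Fermat.Agent.ORD.KERN.KerGalN9
open Fermat.Agent.MP.T3.Config2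

noncomputable section

variable {L F k Ft : Type*} [Field L] [Field F] [Algebra L F] [Field k] [Field Ft] [Algebra k Ft]
variable {ι E : Type*}

/-! ### 1. rigidity -/

/-- **RIGIDITY LEMMA** (file `Rigid2`).  Two matched configurations `C'`, `C''` of one `A`-system
(some edge `e0 ∉ A`), an honest non-special system `S1` whose discs avoid the kept discs of `S` and the
auxiliary point of `S.S0`, and `T ∈ m_A^{g1}` with `|T j| ≤ |m|`.  If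
`C'.div − C''.div ∼ E_{S1}(T) − E_{S1}(0)` then every displacement between `C'` and `C''` is `≤ |m|`. -/
def RigidityStmt (𝔻 : SemiRedDatum L F k Ft ι E) : Prop :=
  ∀ (v0 v1 : ι), TwoComp 𝔻 v0 v1 → ∀ (g : ℕ) (S : ASystem 𝔻 g), (∃ e0, e0 ∉ S.A) →
  ∀ (C' C'' : Config S), C'.Matched C'' →
  ∀ (g1 : ℕ) (S1 : NSSystemN 𝔻 g1),
    (∀ i ∈ S.I, ∀ j, (S.S0.c i, S.S0.Q i) ≠ (S1.c j, S1.Q j)) →
    (∀ j, (S1.c j, S1.Q j) ≠ (S.S0.c0, S.S0.Q0)) →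
  ∀ (T : Fin g1 → mA 𝔻) (m : L), (∀ j, absv 𝔻 ((T j : 𝔻.B.A) : L) ≤ absv 𝔻 m) →
  ∀ h : F, h ≠ 0 →
    (∀ P : Place L F, P.ord h = C'.div P - C''.div P - (S1.Ediv T P - S1.D0 P)) →
    (∀ i ∈ S.I, absv 𝔻 (((C'.t i : 𝔻.B.A) : L) - ((C''.t i : 𝔻.B.A) : L)) ≤ absv 𝔻 m) ∧
    ∀ e ∈ S.A, absv 𝔻 (acoord 𝔻 e (C'.Pe e) / acoord 𝔻 e (C''.Pe e) - 1) ≤ absv 𝔻 m

/-! ### 2. `A`-NS systems -/

/-- **`A`-NS systems from NS systems** (file `ANS2`, linear algebra).  Deleting at most `#A` centres of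
a non-special system gives an `A`-system (same ambient system, hence same discs, centres, uniformizers). -/
def ExistsASysStmt (𝔻 : SemiRedDatum L F k Ft ι E) : Prop :=
  ∀ (v0 v1 : ι), TwoComp 𝔻 v0 v1 → ∀ (g : ℕ) (S0 : NSSystemN 𝔻 g) (A : Finset E),
    (∃ e0, e0 ∉ A) →
    ∃ S : ASystem 𝔻 g, S.S0 = S0 ∧ S.A = A ∧ g ≤ S.I.card + A.card

/-! ### 3. the generalised `kap` -/

/-- **The generalised `kap` is onto the kernel of reduction** (file `GenKap2`): for a base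
configuration `C0` of an `A`-system of total degree `≥ g'` (`hRR` = Riemann's inequality from degree
`g'` on), every `z ∈ kerRed` is `[C'.div − C0.div]` for a configuration `C'` matched with `C0`. -/
def GenKapStmt (𝔻 : SemiRedDatum L F k Ft ι E) : Prop :=
  ∀ (v0 v1 : ι), TwoComp 𝔻 v0 v1 → ∀ (g : ℕ) (S : ASystem 𝔻 g), (∃ e0, e0 ∉ S.A) →
  ∀ (C0 : Config S),
    (∀ D : Divisor L F, Divisor.degree D = (S.I.card + S.A.card : ℕ) →
      ∃ f : F, f ≠ 0 ∧ ∀ P, -(D P) ≤ P.ord f) →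
  ∀ (Z : Divisor.degZero (K := L) (F := F)), Pic0.mk Z ∈ kerRed 𝔻 →
    ∃ (C' : Config S) (φ : F), φ ≠ 0 ∧ C'.Matched C0 ∧
      ∀ P : Place L F, P.ord φ = C'.div P - C0.div P - (Z : Divisor L F) P

/-! ### 4. the Galois setting -/

/-- **The setting of (T3)**: an inertia-type group `Γ` acting on `𝔻`, the element `λ = ζ_p − 1`, the
value group of the fixed field, Teichmüller lifts, the exact thickness (TH), `Γ`-fixed node functions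
(R1'), and the supply of `Γ`-fixed non-special systems and smooth places. -/
structure T3Setting (𝔻 : SemiRedDatum L F k Ft ι E) (Γ : Type*) [Group Γ] (p gen : ℕ) where
  ρ : Γ →* SemilinearAut L F
  inert : ∀ γ, Inertial (toSemiRed 𝔻) (ρ γ)
  triv : ∀ (γ : Γ) (P : Place L F), 𝔻.r (ρ γ • P) = 𝔻.r P
  /-- `λ = ζ_p − 1` -/
  lam : L
  lam_ne : lam ≠ 0
  lam_lt : absv 𝔻 lam < 1
  lam_fix : ∀ γ, SemilinearAut.baseAut (ρ γ) lam = lam
  /-- the fixed field has value group `|λ|^ℤ` -/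
  small : ∀ c : L, (∀ γ, SemilinearAut.baseAut (ρ γ) c = c) → absv 𝔻 c < 1 → absv 𝔻 c ≤ absv 𝔻 lam
  /-- `Γ`-fixed lifts of residues -/
  teich : ∀ c : k, ∃ a : 𝔻.B.A, 𝔻.B.res a = c ∧ ∀ γ, SemilinearAut.baseAut (ρ γ) (a : L) = (a : L)
  p_eq : absv 𝔻 (p : L) = absv 𝔻 lam ^ (p - 1)
  /-- (TH) exact thickness -/
  thick : ∀ e, absv 𝔻 (𝔻.π e) = absv 𝔻 (p : L)
  /-- (R1') `Γ`-fixed node functions `Φ e = x e * (node unit)` -/
  Φ : E → F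
  Φ_fix : ∀ γ e, ρ γ • Φ e = Φ e
  Φ_ann : ∀ e (P : Place L F), 𝔻.r P = Sum.inr e → P.ord (Φ e) = 0
  Φ_mem : ∀ e, Φ e ∈ 𝔻.G (𝔻.src e)
  Φ_ord : ∀ e, (𝔻.Qs e).ord (𝔻.red (𝔻.src e) ⟨Φ e, Φ_mem e⟩) = 1
  /-- `Γ`-fixed non-special systems of `gen` centres avoiding any finite set of smooth points -/
  adm : ∀ Bad : Set (ι × Place k Ft), Bad.Finite →
    ∃ S : NSSystemN 𝔻 gen, (∀ γ, FixesN S (ρ γ)) ∧ (∀ i, (S.c i, S.Q i) ∉ Bad) ∧ (S.c0, S.Q0) ∉ Bad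
  /-- `Γ`-fixed smooth places off a finite set -/
  Bad0 : Set (ι × Place k Ft)
  Bad0_fin : Bad0.Finite
  fixedPlace : ∀ v Q, 𝔻.IsSm v Q → (v, Q) ∉ Bad0 →
    ∃ P : Place L F, 𝔻.r P = Sum.inl (v, Q) ∧ ∀ γ, ρ γ • P = P
  /-- Riemann's inequality from degree `gen` on -/
  hRR : ∀ D : Divisor L F, (gen : ℤ) ≤ Divisor.degree D → ∃ f : F, f ≠ 0 ∧ ∀ P, -(D P) ≤ P.ord f

/-- a divisor fixed by every `γ`. -/
def DivFixed {𝔻 : SemiRedDatum L F k Ft ι E} {Γ : Type*} [Group Γ] {p gen : ℕ}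
    (G : T3Setting 𝔻 Γ p gen) (D : Divisor L F) : Prop := ∀ γ, G.ρ γ • D = D

/-! ### 5. rigid representatives -/

/-- **Rigid representatives** (file `RigidRep2`).  `y = [D]`, `div f = p D`, the slopes
`s e = ord_{Qs e} nred_{v0}(c f)`, `e0` a fixed edge, `A = {e | s e ≢ s e0 mod p}`.  There are a `Γ`-fixed
ambient system, an `A`-system on it with `S.A = A` and total degree `≥ gen`, a base configuration `C0`
and a `Γ`-fixed divisor `F1` of the same degree such that `y − [C0.div − F1] ∈ kerRed`, and the radii of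
`C0` on `A` are fractional: `|a(C0.Pe e)|^p = |λ|^j` with `p ∤ j`.  The discs of `S` avoid a prescribed
finite set. -/
def RigidRepStmt (𝔻 : SemiRedDatum L F k Ft ι E) : Prop :=
  ∀ (v0 v1 : ι), TwoComp 𝔻 v0 v1 → ∀ (Γ : Type) [Group Γ] (p gen : ℕ), p.Prime → 5 ≤ p →
  ∀ (G : T3Setting 𝔻 Γ p gen) (D : Divisor.degZero (K := L) (F := F)) (f : F), f ≠ 0 →
    (∀ P : Place L F, P.ord f = p * (D : Divisor L F) P) →
  ∀ (c : L), (𝔻.side v0).IsNorm c f → ∀ (e0 : E) (A : Finset E),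
    (∀ e, e ∈ A ↔ ¬ (p : ℤ) ∣ (𝔻.Qs e).ord ((𝔻.side v0).nred c f) -
      (𝔻.Qs e0).ord ((𝔻.side v0).nred c f)) →
  ∀ Bad : Set (ι × Place k Ft), Bad.Finite →
    ∃ (S : ASystem 𝔻 gen) (C0 : Config S) (F1 : Divisor L F) (Z : Divisor.degZero (K := L) (F := F)),
      (∀ γ, FixesN S.S0 (G.ρ γ)) ∧ S.A = A ∧ gen ≤ S.I.card + S.A.card ∧
      (∀ i, (S.S0.c i, S.S0.Q i) ∉ Bad) ∧ (S.S0.c0, S.S0.Q0) ∉ Bad ∧
      DivFixed G F1 ∧
      (Z : Divisor L F) = (D : Divisor L F) - (C0.div - F1) ∧ Pic0.mk Z ∈ kerRed 𝔻 ∧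
      ∀ e ∈ A, ∃ j : ℤ, ¬ (p : ℤ) ∣ j ∧
        absv 𝔻 (acoord 𝔻 e (C0.Pe e)) ^ p = absv 𝔻 G.lam ^ j

/-! ### 6. (GEO) -/

/-- **(GEO)** (file `Geo2`).  If the slopes of the Kummer generator at `e` and `e0` are not congruent
mod `p`, there is `ξ ∈ Lˣ`, fixed by the stabiliser of `y`, moved by at most `|λ|` (relatively) by every
`γ`, whose absolute value is not in the value group `|λ|^ℤ` of the fixed field. -/
def GeoStmt (𝔻 : SemiRedDatum L F k Ft ι E) : Prop :=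
  ∀ (v0 v1 : ι), TwoComp 𝔻 v0 v1 → ∀ (Γ : Type) [Group Γ] (p gen : ℕ), p.Prime → 5 ≤ p →
  ∀ (G : T3Setting 𝔻 Γ p gen) (y ℓ0 : Pic0 L F), ℓ0 ∈ kerRed 𝔻 → (∀ γ, G.ρ γ • ℓ0 = ℓ0) →
  ∀ (χ : Γ → ℤ), (∀ γ, G.ρ γ • y - y = χ γ • ℓ0) →
  ∀ (D : Divisor.degZero (K := L) (F := F)), Pic0.mk D = y → ∀ f : F, f ≠ 0 →
    (∀ P : Place L F, P.ord f = p * (D : Divisor L F) P) →
  ∀ (c : L), (𝔻.side v0).IsNorm c f → ∀ (e e0 : E),
    ¬ (p : ℤ) ∣ (𝔻.Qs e).ord ((𝔻.side v0).nred c f) - (𝔻.Qs e0).ord ((𝔻.side v0).nred c f) →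
    ∃ ξ : L, ξ ≠ 0 ∧
      (∀ γ, G.ρ γ • y = y → SemilinearAut.baseAut (G.ρ γ) ξ = ξ) ∧
      (∀ γ, absv 𝔻 (SemilinearAut.baseAut (G.ρ γ) ξ / ξ - 1) ≤ absv 𝔻 G.lam) ∧
      ∃ j : ℤ, ¬ (p : ℤ) ∣ j ∧ absv 𝔻 ξ ^ p = absv 𝔻 G.lam ^ j

/-! ### 7. (BR) and the consumer -/

/-- **(BR)** (file `Break7`, helper7): in a peu ramifié Kummer extension every element of fractional
valuation is moved by MORE than `|λ|`.  `ζ` a primitive `p`-th root of unity, `λ = ζ − 1`, `u` a unit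
with `γ u = ζ^{χ γ} u` (so `u^p` is `Γ`-fixed); `ξ` fixed by the stabiliser of `u`, `|ξ|^p = |λ|^j`,
`p ∤ j`.  Then some `γ` has `|γ ξ / ξ − 1| > |λ|`. -/
def BreakStmt (𝔻 : SemiRedDatum L F k Ft ι E) : Prop :=
  ∀ (Γ : Type) [Group Γ] (p gen : ℕ), p.Prime → 5 ≤ p → ∀ (G : T3Setting 𝔻 Γ p gen)
    (ζ u : L) (χ : Γ → ℤ), ζ ^ p = 1 → ζ ≠ 1 → G.lam = ζ - 1 → absv 𝔻 u = 1 →
    (∀ γ, SemilinearAut.baseAut (G.ρ γ) u = ζ ^ (χ γ) * u) →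
  ∀ ξ : L, ξ ≠ 0 → (∀ γ, (p : ℤ) ∣ χ γ → SemilinearAut.baseAut (G.ρ γ) ξ = ξ) →
    (∃ j : ℤ, ¬ (p : ℤ) ∣ j ∧ absv 𝔻 ξ ^ p = absv 𝔻 G.lam ^ j) →
    ∃ γ, absv 𝔻 G.lam < absv 𝔻 (SemilinearAut.baseAut (G.ρ γ) ξ / ξ - 1)

/-- **(T3) from (GEO) and (BR).** -/
theorem t3_of_pieces {𝔻 : SemiRedDatum L F k Ft ι E} (hgeo : GeoStmt 𝔻) (hbr : BreakStmt 𝔻)
    {v0 v1 : ι} (tc : TwoComp 𝔻 v0 v1) {Γ : Type} [Group Γ] {p gen : ℕ} (hp : p.Prime) (hp5 : 5 ≤ p)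
    (G : T3Setting 𝔻 Γ p gen) (y ℓ0 : Pic0 L F) (hℓ0 : ℓ0 ∈ kerRed 𝔻) (hpℓ0 : p • ℓ0 = 0)
    (hfix : ∀ γ, G.ρ γ • ℓ0 = ℓ0) (χ : Γ → ℤ) (hχ : ∀ γ, G.ρ γ • y - y = χ γ • ℓ0)
    (ζ u : L) (hζ : ζ ^ p = 1) (hζ1 : ζ ≠ 1) (hlam : G.lam = ζ - 1) (hu : absv 𝔻 u = 1)
    (hκ : ∀ γ, SemilinearAut.baseAut (G.ρ γ) u = ζ ^ (χ γ) * u)
    (D : Divisor.degZero (K := L) (F := F)) (hD : Pic0.mk D = y) (f : F) (hf : f ≠ 0)
    (hdiv : ∀ P : Place L F, P.ord f = p * (D : Divisor L F) P)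
    (c : L) (hc : (𝔻.side v0).IsNorm c f) (e e0 : E) :
    (p : ℤ) ∣ (𝔻.Qs e).ord ((𝔻.side v0).nred c f) - (𝔻.Qs e0).ord ((𝔻.side v0).nred c f) := by
  by_contra hne
  obtain ⟨ξ, hξ0, hξfix, hξmove, hξval⟩ :=
    hgeo v0 v1 tc Γ p gen hp hp5 G y ℓ0 hℓ0 hfix χ hχ D hD f hf hdiv c hc e e0 hne
  have hstab : ∀ γ, (p : ℤ) ∣ χ γ → SemilinearAut.baseAut (G.ρ γ) ξ = ξ := by
    intro γ hγ
    apply hξfix γ
    obtain ⟨m, hm⟩ := hγ
    have h1 := hχ γ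
    have h2 : χ γ • ℓ0 = 0 := by
      rw [hm, mul_comm, mul_smul]
      have : (p : ℤ) • ℓ0 = 0 := by
        rw [natCast_zsmul]; exact hpℓ0
      rw [this, smul_zero]
    rw [h2, sub_eq_zero] at h1
    exact h1
  obtain ⟨γ, hγ⟩ := hbr Γ p gen hp hp5 G ζ u χ hζ hζ1 hlam hu hκ ξ hξ0 hstab hξval
  exact absurd (hξmove γ) (not_le.mpr hγ)

end

end Fermat.Agent.MP.T3.Iface2
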