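/-
Programme MP (row 38), chapter T3 (helper6, against helper2's `Iface2`): **`A`-NS systems from NS
systems** — `Iface2.ExistsASysStmt 𝔻` for every two-component datum.

For a non-special system `S0` with `g` centres, `I ⊆ Fin g` and a finite set `B` of edges let
`M(I, B)` be the set of tuples `(f v)` (zero components allowed) with poles bounded by the reduced
centres `i ∈ I`, matched at the nodes `e ∉ B`.  (NS) says `M(univ, ∅) = k`.  Adding one edge `e` to
`B` enlarges `M` by at most one dimension (the mismatch at `e` is a linear form with kernel the old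
space); a non-constant tuple has a pole at some kept centre `i₀` (two components joined by an edge
`e₀ ∉ B`), and deleting `i₀` from `I` brings the space back to `k`.  By induction on `B`:
`∃ I, M(I, B) = k ∧ g ≤ #I + #B`.

* `InM S0 I B f`, `Triv S0 I B`;
* `InM.sub_smul`, `mismatch_sub_smul` (linearity);
* `exists_kept` (the induction);
* **`existsASys : ExistsASysStmt 𝔻`**.
-/
import Mathlib
import Fermat.Agent.MP.T3.Iface2

set_option autoImplicit false
set_option linter.unusedSectionVars false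
set_option linter.style.longLine false

namespace Fermat.Agent.MP.T3.ANS6

open AlgebraicCurve Fermat.Agent.X0.FF Fermat.Agent.RR.LSpace Fermat.Agent.MW.EMB.Value6
open Fermat.Agent.ORD.ANN.Side3 Fermat.Agent.ORD.ANN.Node3
open Fermat.Agent.ORD.SEMIRED.SemiRedDatum9
open Fermat.Agent.ORD.KERN.KerDefs9 Fermat.Agent.ORD.KERN.KerN9
open Fermat.Agent.MP.T3.Config2 Fermat.Agent.MP.T3.Iface2

noncomputable section

variable {L F k Ft : Type*} [Field L] [Field F] [Algebra L F] [Field k] [Field Ft] [Algebra k Ft]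
variable {ι E : Type*}

/-! ### the reduced divisor of the kept centres -/

section RedDivI

variable {g : ℕ} (c : Fin g → ι) (Q : Fin g → Place k Ft)

theorem redDivI_apply (I : Finset (Fin g)) (x : Pts ι E k Ft) :
    redDivI (E := E) c Q I x = ∑ i ∈ I, (Finsupp.single (Sum.inl (c i, Q i)) (1 : ℤ)) x := by
  rw [redDivI, Finsupp.finsetSum_apply]

theorem redDivI_nonneg (I : Finset (Fin g)) (x : Pts ι E k Ft) :
    0 ≤ redDivI (E := E) c Q I x := by
  classical
  rw [redDivI_apply]
  refine Finset.sum_nonneg fun i _ => ?_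
  rw [Finsupp.single_apply]
  split_ifs <;> simp

theorem redDivI_mono {I I' : Finset (Fin g)} (h : I ⊆ I') (x : Pts ι E k Ft) :
    redDivI (E := E) c Q I x ≤ redDivI (E := E) c Q I' x := by
  classical
  rw [redDivI_apply, redDivI_apply]
  refine Finset.sum_le_sum_of_subset_of_nonneg h fun i _ _ => ?_
  rw [Finsupp.single_apply]
  split_ifs <;> simp

theorem redDivI_eq_zero {I : Finset (Fin g)} {x : Pts ι E k Ft}
    (h : ∀ i ∈ I, Sum.inl (c i, Q i) ≠ x) : redDivI (E := E) c Q I x = 0 := by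
  classical
  rw [redDivI_apply]
  refine Finset.sum_eq_zero fun i hi => ?_
  rw [Finsupp.single_apply, if_neg (h i hi)]

theorem redDivI_univ : redDivI (E := E) c Q Finset.univ = redDivOf (E := E) c Q := rfl

end RedDivI

/-! ### the spaces `M(I, B)` -/

variable {𝔻 : SemiRedDatum L F k Ft ι E} {g : ℕ} (S0 : NSSystemN 𝔻 g)

/-- the tuple `f` has poles bounded by the kept centres `i ∈ I` and is matched at the nodes `e ∉ B`. -/
def InM (I : Finset (Fin g)) (B : Finset E) (f : ι → Ft) : Prop :=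
  (∀ v, f v ≠ 0 → ∀ Q' : Place k Ft,
    -(redDivI (E := E) S0.c S0.Q I (Sum.inl (v, Q'))) ≤ Q'.ord (f v)) ∧
  ∀ e, e ∉ B → valF 𝔻.Hk (𝔻.Qs e) (f (𝔻.src e)) = valF 𝔻.Hk (𝔻.Qt e) (f (𝔻.tgt e))

/-- `M(I, B) = k`. -/
def Triv (I : Finset (Fin g)) (B : Finset E) : Prop :=
  ∀ f : ι → Ft, InM S0 I B f → ∃ a : k, ∀ v, f v = algebraMap k Ft a

/-- the mismatch of a tuple at the node `e`. -/
def mismatch (𝔻 : SemiRedDatum L F k Ft ι E) (e : E) (f : ι → Ft) : k :=
  valF 𝔻.Hk (𝔻.Qs e) (f (𝔻.src e)) - valF 𝔻.Hk (𝔻.Qt e) (f (𝔻.tgt e))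

variable {S0}

theorem InM.mono {I I' : Finset (Fin g)} {B B' : Finset E} (hI : I ⊆ I') (hB : B ⊆ B')
    {f : ι → Ft} (h : InM S0 I B f) : InM S0 I' B' f := by
  refine ⟨fun v hv Q' => ?_, fun e he => h.2 e fun hb => he (hB hb)⟩
  have h1 := h.1 v hv Q'
  have h2 := redDivI_mono (E := E) S0.c S0.Q hI (Sum.inl (v, Q'))
  omega

/-- the kept centres are not branches: the bound at a branch is `0`. -/
theorem redDivI_branch (I : Finset (Fin g)) {v : ι} {Q' : Place k Ft} (hb : 𝔻.IsBranch v Q') :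
    redDivI (E := E) S0.c S0.Q I (Sum.inl (v, Q')) = 0 := by
  refine redDivI_eq_zero S0.c S0.Q fun i _ hi => ?_
  have h1 := Sum.inl.inj hi
  have hv : S0.c i = v := congrArg Prod.fst h1
  have hQ : S0.Q i = Q' := congrArg Prod.snd h1
  exact S0.isSm_Q i (by rw [hv, hQ]; exact hb)

/-- a tuple of `M(I, B)` is regular at the source branches … -/
theorem InM.mem_Qs {I : Finset (Fin g)} {B : Finset E} {f : ι → Ft} (h : InM S0 I B f) (e : E) :
    f (𝔻.src e) ∈ (𝔻.Qs e).toValuationSubring := by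
  by_cases h0 : f (𝔻.src e) = 0
  · rw [h0]; exact zero_mem _
  apply ffp_mem_of_ord_nonneg
  have h1 := h.1 _ h0 (𝔻.Qs e)
  rw [redDivI_branch I (Or.inl ⟨e, rfl, rfl⟩)] at h1
  simpa using h1

/-- … and at the target branches. -/
theorem InM.mem_Qt {I : Finset (Fin g)} {B : Finset E} {f : ι → Ft} (h : InM S0 I B f) (e : E) :
    f (𝔻.tgt e) ∈ (𝔻.Qt e).toValuationSubring := by
  by_cases h0 : f (𝔻.tgt e) = 0
  · rw [h0]; exact zero_mem _
  apply ffp_mem_of_ord_nonneg
  have h1 := h.1 _ h0 (𝔻.Qt e)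
  rw [redDivI_branch I (Or.inr ⟨e, rfl, rfl⟩)] at h1
  simpa using h1

/-- lower bounds for orders are stable under `a - c • b`. -/
theorem le_ord_sub_smul (Q' : Place k Ft) {a b : Ft} (c : k) {n : ℤ}
    (ha : a ≠ 0 → -n ≤ Q'.ord a) (hb : b ≠ 0 → -n ≤ Q'.ord b)
    (hne : a - algebraMap k Ft c * b ≠ 0) : -n ≤ Q'.ord (a - algebraMap k Ft c * b) := by
  by_cases hc : c = 0
  · rw [hc, map_zero, zero_mul, sub_zero] at hne ⊢
    exact ha hne
  by_cases hb0 : b = 0
  · rw [hb0, mul_zero, sub_zero] at hne ⊢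
    exact ha hne
  have hcb : algebraMap k Ft c * b ≠ 0 :=
    mul_ne_zero (by rwa [Ne, map_eq_zero_iff _ (algebraMap k Ft).injective]) hb0
  have hordcb : Q'.ord (-(algebraMap k Ft c * b)) = Q'.ord b := by
    rw [ffp_ord_neg, Q'.ord_mul (by rwa [Ne, map_eq_zero_iff _ (algebraMap k Ft).injective]) hb0,
      ffp_ord_algebraMap, zero_add]
  by_cases ha0 : a = 0
  · rw [ha0, zero_sub, hordcb]
    exact hb hb0
  rw [sub_eq_add_neg] at hne ⊢
  exact ffp_le_ord_add Q' (ha ha0) (by rw [hordcb]; exact hb hb0) hne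

/-- `M(I, B)` is stable under `h - c • f`. -/
theorem InM.sub_smul {I : Finset (Fin g)} {B : Finset E} {h f : ι → Ft}
    (hh : InM S0 I B h) (hf : InM S0 I B f) (c : k) :
    InM S0 I B (fun v => h v - algebraMap k Ft c * f v) := by
  refine ⟨fun v hv Q' => ?_, fun e he => ?_⟩
  · exact le_ord_sub_smul Q' c (fun h0 => hh.1 v h0 Q')
      (fun h0 => hf.1 v h0 Q') hv
  · have hc1 : algebraMap k Ft c ∈ (𝔻.Qs e).toValuationSubring := (𝔻.Qs e).algebraMap_mem' c
    have hc2 : algebraMap k Ft c ∈ (𝔻.Qt e).toValuationSubring := (𝔻.Qt e).algebraMap_mem' c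
    show valF 𝔻.Hk (𝔻.Qs e) (h (𝔻.src e) - algebraMap k Ft c * f (𝔻.src e)) =
      valF 𝔻.Hk (𝔻.Qt e) (h (𝔻.tgt e) - algebraMap k Ft c * f (𝔻.tgt e))
    rw [valF_sub 𝔻.Hk _ (hh.mem_Qs e) (mul_mem hc1 (hf.mem_Qs e)),
      valF_sub 𝔻.Hk _ (hh.mem_Qt e) (mul_mem hc2 (hf.mem_Qt e)),
      valF_mul 𝔻.Hk _ hc1 (hf.mem_Qs e), valF_mul 𝔻.Hk _ hc2 (hf.mem_Qt e),
      valF_algebraMap, valF_algebraMap, hh.2 e he, hf.2 e he]

/-- the mismatch is linear. -/
theorem mismatch_sub_smul {I : Finset (Fin g)} {B : Finset E} {h f : ι → Ft}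
    (hh : InM S0 I B h) (hf : InM S0 I B f) (c : k) (e : E) :
    mismatch 𝔻 e (fun v => h v - algebraMap k Ft c * f v) =
      mismatch 𝔻 e h - c * mismatch 𝔻 e f := by
  have hc1 : algebraMap k Ft c ∈ (𝔻.Qs e).toValuationSubring := (𝔻.Qs e).algebraMap_mem' c
  have hc2 : algebraMap k Ft c ∈ (𝔻.Qt e).toValuationSubring := (𝔻.Qt e).algebraMap_mem' c
  unfold mismatch
  rw [valF_sub 𝔻.Hk _ (hh.mem_Qs e) (mul_mem hc1 (hf.mem_Qs e)),
    valF_sub 𝔻.Hk _ (hh.mem_Qt e) (mul_mem hc2 (hf.mem_Qt e)),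
    valF_mul 𝔻.Hk _ hc1 (hf.mem_Qs e), valF_mul 𝔻.Hk _ hc2 (hf.mem_Qt e),
    valF_algebraMap, valF_algebraMap]
  ring

/-- a tuple of `M(I, insert e B)` without mismatch at `e` lies in `M(I, B)`. -/
theorem InM.of_mismatch_eq_zero [DecidableEq E] {I : Finset (Fin g)} {B : Finset E} {e : E}
    {f : ι → Ft} (h : InM S0 I (insert e B) f) (h0 : mismatch 𝔻 e f = 0) : InM S0 I B f := by
  refine ⟨h.1, fun e' he' => ?_⟩
  by_cases hee : e' = e
  · subst hee
    exact sub_eq_zero.mp h0
  · exact h.2 e' (by rw [Finset.mem_insert, not_or]; exact ⟨hee, he'⟩)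

/-- on a two-component datum with an edge `e0 ∉ B`, a tuple of `M(I, B)` without poles at the kept
centres is a constant tuple. -/
theorem const_of_no_pole {v0 v1 : ι} (tc : TwoComp 𝔻 v0 v1) {I : Finset (Fin g)} {B : Finset E}
    {e0 : E} (he0 : e0 ∉ B) {f : ι → Ft} (h : InM S0 I B f)
    (hreg : ∀ i ∈ I, f (S0.c i) ≠ 0 → 0 ≤ (S0.Q i).ord (f (S0.c i))) :
    ∃ a : k, ∀ v, f v = algebraMap k Ft a := by
  classical
  have hnn : ∀ v (Q' : Place k Ft), 0 ≤ Q'.ord (f v) := by
    intro v Q'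
    by_cases h0 : f v = 0
    · rw [h0, Place.ord_zero]
    by_cases hex : ∃ i ∈ I, Sum.inl (S0.c i, S0.Q i) = (Sum.inl (v, Q') : Pts ι E k Ft)
    · obtain ⟨i, hi, hiv⟩ := hex
      have h1 := Sum.inl.inj hiv
      have hv : S0.c i = v := congrArg Prod.fst h1
      have hQ : S0.Q i = Q' := congrArg Prod.snd h1
      subst hv
      subst hQ
      exact hreg i hi h0
    · push Not at hex
      have h1 := h.1 v h0 Q'
      rw [redDivI_eq_zero S0.c S0.Q hex] at h1
      simpa using h1
  have hconst : ∀ v, ∃ a : k, f v = algebraMap k Ft a :=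
    fun v => eq_algebraMap_of_forall_ord_nonneg 𝔻.Hk (hnn v)
  choose a ha using hconst
  have hm := h.2 e0 he0
  rw [ha (𝔻.src e0), ha (𝔻.tgt e0), valF_algebraMap, valF_algebraMap, tc.src e0, tc.tgt e0] at hm
  refine ⟨a v0, fun v => ?_⟩
  rcases tc.all v with rfl | rfl
  · exact ha _
  · rw [ha _, hm]

/-- **the induction**: for every finite set `B` of edges missing some edge there is a set `I` of kept
centres with `M(I, B) = k` and `g ≤ #I + #B`. -/
theorem exists_kept {v0 v1 : ι} (tc : TwoComp 𝔻 v0 v1) (S0 : NSSystemN 𝔻 g) (B : Finset E)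
    (hB : ∃ e0, e0 ∉ B) : ∃ I : Finset (Fin g), Triv S0 I B ∧ g ≤ I.card + B.card := by
  classical
  induction B using Finset.induction_on with
  | empty =>
    refine ⟨Finset.univ, fun f hf => ?_, by simp⟩
    exact S0.const_of_sec f hf.1 fun e => hf.2 e (Finset.notMem_empty e)
  | insert e B' he ih =>
    obtain ⟨e0, he0⟩ := hB
    have he0' : e0 ∉ B' := fun h => he0 (Finset.mem_insert_of_mem h)
    obtain ⟨I', hT', hcard'⟩ := ih ⟨e0, he0'⟩
    have hcardB : (insert e B').card = B'.card + 1 := Finset.card_insert_of_notMem he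
    by_cases hT : Triv S0 I' (insert e B')
    · exact ⟨I', hT, by omega⟩
    · unfold Triv at hT
      push Not at hT
      obtain ⟨f, hf, hfc⟩ := hT
      -- the mismatch of `f` at `e` does not vanish
      have hme : mismatch 𝔻 e f ≠ 0 := fun h0 => by
        obtain ⟨a, ha⟩ := hT' f (hf.of_mismatch_eq_zero h0)
        obtain ⟨v, hv⟩ := hfc a
        exact hv (ha v)
      -- `f` has a pole at some kept centre
      have hpole : ∃ i0 ∈ I', f (S0.c i0) ≠ 0 ∧ (S0.Q i0).ord (f (S0.c i0)) < 0 := by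
        by_contra hno
        push Not at hno
        obtain ⟨a, ha⟩ := const_of_no_pole tc he0 hf hno
        obtain ⟨v, hv⟩ := hfc a
        exact hv (ha v)
      obtain ⟨i0, hi0, hfi0, hord⟩ := hpole
      refine ⟨I'.erase i0, fun h hh => ?_, ?_⟩
      · have hh' : InM S0 I' (insert e B') h := hh.mono (Finset.erase_subset _ _) (le_refl _)
        set lam : k := mismatch 𝔻 e h / mismatch 𝔻 e f with hlam
        have h1 := hh'.sub_smul hf lam
        have h2 : mismatch 𝔻 e (fun v => h v - algebraMap k Ft lam * f v) = 0 := by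
          rw [mismatch_sub_smul hh' hf, hlam, div_mul_cancel₀ _ hme, sub_self]
        obtain ⟨a, ha⟩ := hT' _ (h1.of_mismatch_eq_zero h2)
        by_cases hl0 : lam = 0
        · refine ⟨a, fun v => ?_⟩
          have := ha v
          rwa [hl0, map_zero, zero_mul, sub_zero] at this
        · exfalso
          have hlF : algebraMap k Ft lam ≠ 0 := by
            rwa [Ne, map_eq_zero_iff _ (algebraMap k Ft).injective]
          have hlf : algebraMap k Ft lam * f (S0.c i0) ≠ 0 := mul_ne_zero hlF hfi0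
          have hordlf : (S0.Q i0).ord (algebraMap k Ft lam * f (S0.c i0)) =
              (S0.Q i0).ord (f (S0.c i0)) := by
            rw [(S0.Q i0).ord_mul hlF hfi0, ffp_ord_algebraMap, zero_add]
          have heq : h (S0.c i0) = algebraMap k Ft lam * f (S0.c i0) + algebraMap k Ft a := by
            have := ha (S0.c i0)
            rw [← this]
            ring
          have hordh : (S0.Q i0).ord (h (S0.c i0)) = (S0.Q i0).ord (f (S0.c i0)) := by
            rw [heq, ffp_ord_add_eq_of_lt (S0.Q i0) hlf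
              (by rw [hordlf, ffp_ord_algebraMap]; exact hord), hordlf]
          have hh0 : h (S0.c i0) ≠ 0 := by
            intro h0
            rw [h0, Place.ord_zero] at hordh
            omega
          have h3 := hh.1 _ hh0 (S0.Q i0)
          rw [redDivI_eq_zero S0.c S0.Q (fun i hi hii => by
            have hne : i ≠ i0 := (Finset.mem_erase.mp hi).1
            exact hne (S0.inj (Sum.inl.inj hii)))] at h3
          omega
      · have : (I'.erase i0).card = I'.card - 1 := Finset.card_erase_of_mem hi0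
        have hpos : 0 < I'.card := Finset.card_pos.mpr ⟨i0, hi0⟩
        omega

/-- **`A`-NS systems from NS systems.** -/
theorem existsASys (𝔻 : SemiRedDatum L F k Ft ι E) : ExistsASysStmt 𝔻 := by
  intro v0 v1 tc g S0 A hA
  obtain ⟨I, hT, hcard⟩ := exists_kept tc S0 A hA
  exact ⟨⟨S0, I, A, fun f h1 h2 => hT f ⟨h1, h2⟩⟩, rfl, rfl, hcard⟩

end

end Fermat.Agent.MP.T3.ANS6
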