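/-
Programme MP (row 38), chapter T3 (helper2): **algebra of the annulus sums and torus coordinates**
`(toSemiRed 𝔻).annSum Z e`, `(toSemiRed 𝔻).annProd Z e`, and the degree of a divisor from its
specialisation.

* `annSum_add/neg/sub/zero/finsetSum`, `annProd_add/neg/sub/zero/finsetSum`, `annProd_ne_zero`;
* `annSum_single_of_mem`, `annProd_single_of_mem`, `annSum_eq_zero_of`, `annProd_eq_one_of`;
* `mapDomain_r_inr` : `mapDomain r Z (inr e) = annSum Z e`;  `mapDomain_r_eq_zero_of`;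
* `tot`, `degree_eq_tot`, `tot_mapDomain`;
* `degree_eq_zero_of_tuple` (DEG) : a divisor whose specialisation is the divisor of a tuple of
  functions on the components (units at the branches) and which has degree `0` on every annulus has
  degree `0`.
-/
import Mathlib
import Fermat.Agent.MP.TAU.KumCrit3
import Fermat.Agent.MP.T3.Config2

set_option autoImplicit false
set_option linter.unusedSectionVars false
set_option linter.style.longLine false

namespace Fermat.Agent.MP.T3.AnnAlg2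

open AlgebraicCurve Fermat.Agent.X0.FF Fermat.Agent.RR.LSpace Fermat.Agent.MW.EMB.Value6
open Fermat.Agent.ORD.ANN.Side3 Fermat.Agent.ORD.ANN.Node3 Fermat.Agent.ORD.ANN.SemiRed3
open Fermat.Agent.ORD.ANN.TwistedNS2 Fermat.Agent.ORD.ANN.TwistedNSAdapt2
open Fermat.Agent.ORD.SEMIRED.SemiRedDatum9 Fermat.Agent.ORD.SEMIRED.ToSemiRed9
open Fermat.Agent.ORD.KERN.KerDefs9
open Fermat.Agent.MP.TAU.KumCrit3 Fermat.Agent.MP.T3.Config2

noncomputable section

variable {L F k Ft : Type*} [Field L] [Field F] [Algebra L F] [Field k] [Field Ft] [Algebra k Ft]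
variable {ι E : Type*} (𝔻 : SemiRedDatum L F k Ft ι E)

/-! ### dictionary -/

theorem annSum_eq_I (Z : Divisor L F) (e : E) :
    (toSemiRed 𝔻).annSum Z e = (toInput (toSemiRed 𝔻)).annSum e Z := by
  show _ = annSumG (𝔻.node e).ann Z
  rw [annSumG_eq]
  rfl

theorem annProd_eq_I (Z : Divisor L F) (e : E) :
    (toSemiRed 𝔻).annProd Z e = (toInput (toSemiRed 𝔻)).annProd e Z := by
  show _ = annProdG (𝔻.node e).ann (𝔻.node e).a Z
  rw [annProdG_eq]
  rfl

/-! ### additivity -/

theorem annSum_add (Z W : Divisor L F) (e : E) :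
    (toSemiRed 𝔻).annSum (Z + W) e = (toSemiRed 𝔻).annSum Z e + (toSemiRed 𝔻).annSum W e := by
  rw [annSum_eq_I, annSum_eq_I, annSum_eq_I, Input.annSum_add]

theorem annSum_zero (e : E) : (toSemiRed 𝔻).annSum (0 : Divisor L F) e = 0 := by
  rw [annSum_eq_I, Input.annSum_zero]

theorem annSum_neg (Z : Divisor L F) (e : E) :
    (toSemiRed 𝔻).annSum (-Z) e = -(toSemiRed 𝔻).annSum Z e := by
  rw [annSum_eq_I, annSum_eq_I, Input.annSum_neg]

theorem annSum_sub (Z W : Divisor L F) (e : E) :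
    (toSemiRed 𝔻).annSum (Z - W) e = (toSemiRed 𝔻).annSum Z e - (toSemiRed 𝔻).annSum W e := by
  rw [annSum_eq_I, annSum_eq_I, annSum_eq_I, Input.annSum_sub]

theorem annSum_finsetSum {α : Type*} (s : Finset α) (Z : α → Divisor L F) (e : E) :
    (toSemiRed 𝔻).annSum (∑ i ∈ s, Z i) e = ∑ i ∈ s, (toSemiRed 𝔻).annSum (Z i) e := by
  classical
  induction s using Finset.induction_on with
  | empty => rw [Finset.sum_empty, Finset.sum_empty, annSum_zero]
  | insert a s ha ih => rw [Finset.sum_insert ha, Finset.sum_insert ha, annSum_add, ih]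

theorem annProd_add (Z W : Divisor L F) (e : E) :
    (toSemiRed 𝔻).annProd (Z + W) e = (toSemiRed 𝔻).annProd Z e * (toSemiRed 𝔻).annProd W e := by
  rw [annProd_eq_I, annProd_eq_I, annProd_eq_I, Input.annProd_add]

theorem annProd_zero (e : E) : (toSemiRed 𝔻).annProd (0 : Divisor L F) e = 1 := by
  rw [annProd_eq_I, Input.annProd_zero]

theorem annProd_ne_zero (Z : Divisor L F) (e : E) : (toSemiRed 𝔻).annProd Z e ≠ 0 := by
  rw [annProd_eq_I]
  exact Input.annProd_ne_zero _ e Z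

theorem annProd_neg (Z : Divisor L F) (e : E) :
    (toSemiRed 𝔻).annProd (-Z) e = ((toSemiRed 𝔻).annProd Z e)⁻¹ := by
  rw [annProd_eq_I, annProd_eq_I, Input.annProd_neg]

theorem annProd_sub (Z W : Divisor L F) (e : E) :
    (toSemiRed 𝔻).annProd (Z - W) e = (toSemiRed 𝔻).annProd Z e / (toSemiRed 𝔻).annProd W e := by
  rw [annProd_eq_I, annProd_eq_I, annProd_eq_I, Input.annProd_sub]

theorem annProd_finsetSum {α : Type*} (s : Finset α) (Z : α → Divisor L F) (e : E) :
    (toSemiRed 𝔻).annProd (∑ i ∈ s, Z i) e = ∏ i ∈ s, (toSemiRed 𝔻).annProd (Z i) e := by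
  classical
  induction s using Finset.induction_on with
  | empty => rw [Finset.sum_empty, Finset.prod_empty, annProd_zero]
  | insert a s ha ih => rw [Finset.sum_insert ha, Finset.prod_insert ha, annProd_add, ih]

/-! ### single places, divisors off the annulus -/

theorem annSum_eq_zero_of (Z : Divisor L F) (e : E) (h : ∀ P, Z P ≠ 0 → 𝔻.r P ≠ Sum.inr e) :
    (toSemiRed 𝔻).annSum Z e = 0 := by
  rw [annSum_eq_I]
  refine Input.annSum_eq_zero_of _ e Z fun P hP => ?_
  by_contra hne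
  exact h P hne ((𝔻.r_ann e P).mp hP)

theorem annProd_eq_one_of (Z : Divisor L F) (e : E) (h : ∀ P, Z P ≠ 0 → 𝔻.r P ≠ Sum.inr e) :
    (toSemiRed 𝔻).annProd Z e = 1 := by
  rw [annProd_eq_I]
  refine Input.annProd_eq_one_of _ e Z fun P hP => ?_
  by_contra hne
  exact h P hne ((𝔻.r_ann e P).mp hP)

theorem annSum_single_of_mem {P : Place L F} {e : E} (hP : 𝔻.r P = Sum.inr e) (n : ℤ) :
    (toSemiRed 𝔻).annSum (Finsupp.single P n) e = n := by
  classical
  have hP' : P ∈ (𝔻.node e).ann := (𝔻.r_ann e P).mpr hP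
  rw [annSum_eq_sum 𝔻 _ e {P} Finsupp.support_single_subset]
  have : ({P} : Finset (Place L F)).filter (fun P => P ∈ (𝔻.node e).ann) = {P} := by
    rw [Finset.filter_eq_self]
    intro x hx
    rw [Finset.mem_singleton] at hx
    rw [hx]; exact hP'
  rw [this, Finset.sum_singleton, Finsupp.single_eq_same]

theorem annProd_single_of_mem {P : Place L F} {e : E} (hP : 𝔻.r P = Sum.inr e) (n : ℤ) :
    (toSemiRed 𝔻).annProd (Finsupp.single P n) e = acoord 𝔻 e P ^ n := by
  classical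
  have hP' : P ∈ (𝔻.node e).ann := (𝔻.r_ann e P).mpr hP
  rw [annProd_eq_prod 𝔻 _ e {P} Finsupp.support_single_subset]
  have : ({P} : Finset (Place L F)).filter (fun P => P ∈ (𝔻.node e).ann) = {P} := by
    rw [Finset.filter_eq_self]
    intro x hx
    rw [Finset.mem_singleton] at hx
    rw [hx]; exact hP'
  rw [this, Finset.prod_singleton, Finsupp.single_eq_same]

theorem annSum_single_of_ne {P : Place L F} {e : E} (hP : 𝔻.r P ≠ Sum.inr e) (n : ℤ) :
    (toSemiRed 𝔻).annSum (Finsupp.single P n) e = 0 := by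
  classical
  refine annSum_eq_zero_of 𝔻 _ e fun P' hP' => ?_
  rw [Finsupp.single_apply] at hP'
  by_cases h : P = P'
  · rw [← h]; exact hP
  · rw [if_neg h] at hP'; exact absurd rfl hP'

theorem annProd_single_of_ne {P : Place L F} {e : E} (hP : 𝔻.r P ≠ Sum.inr e) (n : ℤ) :
    (toSemiRed 𝔻).annProd (Finsupp.single P n) e = 1 := by
  classical
  refine annProd_eq_one_of 𝔻 _ e fun P' hP' => ?_
  rw [Finsupp.single_apply] at hP'
  by_cases h : P = P'
  · rw [← h]; exact hP
  · rw [if_neg h] at hP'; exact absurd rfl hP'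

/-! ### the specialisation of a divisor -/

open Classical in
theorem mapDomain_r_inr (Z : Divisor L F) (e : E) :
    Finsupp.mapDomain 𝔻.r Z (Sum.inr e) = (toSemiRed 𝔻).annSum Z e := by
  rw [CompDatum.mapDomain_apply_eq_sum]
  unfold SemiRed.annSum
  refine Finset.sum_congr ?_ fun _ _ => rfl
  ext P
  simp only [Finset.mem_filter]
  exact and_congr_right fun _ => (𝔻.r_ann e P).symm

open Classical in
theorem mapDomain_r_eq_zero_of (Z : Divisor L F) (x : Pts ι E k Ft)
    (h : ∀ P, Z P ≠ 0 → 𝔻.r P ≠ x) : Finsupp.mapDomain 𝔻.r Z x = 0 := by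
  rw [CompDatum.mapDomain_apply_eq_sum]
  refine Finset.sum_eq_zero fun P hP => ?_
  simp only [Finset.mem_filter, Finsupp.mem_support_iff] at hP
  exact absurd hP.2 (h P hP.1)

/-! ### total degree -/

/-- the total of an integer valued finitely supported function. -/
def tot {α : Type*} (T : α →₀ ℤ) : ℤ := T.sum fun _ n => n

theorem tot_add {α : Type*} (T T' : α →₀ ℤ) : tot (T + T') = tot T + tot T' :=
  Finsupp.sum_add_index' (fun _ => rfl) (fun _ _ _ => rfl)

theorem tot_zero {α : Type*} : tot (0 : α →₀ ℤ) = 0 := Finsupp.sum_zero_index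

theorem tot_finsetSum {α β : Type*} (s : Finset β) (T : β → α →₀ ℤ) :
    tot (∑ i ∈ s, T i) = ∑ i ∈ s, tot (T i) := by
  classical
  induction s using Finset.induction_on with
  | empty => rw [Finset.sum_empty, Finset.sum_empty, tot_zero]
  | insert a s ha ih => rw [Finset.sum_insert ha, Finset.sum_insert ha, tot_add, ih]

theorem tot_mapDomain {α β : Type*} (f : α → β) (T : α →₀ ℤ) : tot (Finsupp.mapDomain f T) = tot T :=
  Finsupp.sum_mapDomain_index (fun _ => rfl) (fun _ _ _ => rfl)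

theorem degree_eq_tot {K F' : Type*} [Field K] [Field F'] [Algebra K F'] (H : LHyp K F')
    (D : Divisor K F') : Divisor.degree D = tot D := by
  rw [degree_eq_sum H, tot, Finsupp.sum]

/-! ### the divisor of a tuple of functions on the components -/

/-- the divisor of a tuple `h` of nonzero functions on the components, on the points of the special
fibre. -/
def tupleDiv [Fintype ι] (h : ι → Ft) (hh0 : ∀ v, h v ≠ 0) : Pts ι E k Ft →₀ ℤ :=
  ∑ v : ι, Finsupp.mapDomain (fun Q : Place k Ft => (Sum.inl (v, Q) : Pts ι E k Ft))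
    (divOf 𝔻.Hk (hh0 v))

theorem tupleDiv_inl [Fintype ι] (h : ι → Ft) (hh0 : ∀ v, h v ≠ 0) (v : ι) (Q : Place k Ft) :
    tupleDiv 𝔻 h hh0 (Sum.inl (v, Q)) = Q.ord (h v) := by
  classical
  have hinj : Function.Injective (fun Q : Place k Ft => (Sum.inl (v, Q) : Pts ι E k Ft)) :=
    fun Q Q' hQ => congrArg Prod.snd (Sum.inl.inj hQ)
  rw [tupleDiv, Finsupp.finsetSum_apply, Finset.sum_eq_single_of_mem v (Finset.mem_univ v)]
  · rw [Finsupp.mapDomain_apply hinj, divOf_apply]
  · intro v' _ hne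
    refine Finsupp.mapDomain_of_notMem_range _ _ ?_
    rintro ⟨Q', hQ'⟩
    exact hne (congrArg Prod.fst (Sum.inl.inj hQ'))

theorem tupleDiv_inr [Fintype ι] (h : ι → Ft) (hh0 : ∀ v, h v ≠ 0) (e : E) :
    tupleDiv 𝔻 h hh0 (Sum.inr e) = 0 := by
  classical
  rw [tupleDiv, Finsupp.finsetSum_apply]
  refine Finset.sum_eq_zero fun v _ => ?_
  refine Finsupp.mapDomain_of_notMem_range _ _ ?_
  rintro ⟨Q', hQ'⟩
  exact absurd hQ' (by simp)

theorem tot_tupleDiv [Fintype ι] (h : ι → Ft) (hh0 : ∀ v, h v ≠ 0) :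
    tot (tupleDiv 𝔻 h hh0) = 0 := by
  rw [tupleDiv, tot_finsetSum]
  refine Finset.sum_eq_zero fun v _ => ?_
  rw [tot_mapDomain, ← degree_eq_tot 𝔻.Hk, degree_divOf]

/-- **(DEG)** -/
theorem degree_eq_zero_of_tuple [Finite ι] (W : Divisor L F) (h : ι → Ft) (hh0 : ∀ v, h v ≠ 0)
    (hbs : ∀ e, (𝔻.Qs e).ord (h (𝔻.src e)) = 0) (hbt : ∀ e, (𝔻.Qt e).ord (h (𝔻.tgt e)) = 0)
    (ha : ∀ v Q, 𝔻.IsSm v Q → Finsupp.mapDomain 𝔻.r W (Sum.inl (v, Q)) = Q.ord (h v))
    (hb1 : ∀ e, (toSemiRed 𝔻).annSum W e = 0) : Divisor.degree W = 0 := by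
  classical
  have : Fintype ι := Fintype.ofFinite ι
  have hmd : Finsupp.mapDomain 𝔻.r W = tupleDiv 𝔻 h hh0 := by
    ext x
    rcases x with ⟨v, Q⟩ | e
    · rw [tupleDiv_inl]
      by_cases hsm : 𝔻.IsSm v Q
      · exact ha v Q hsm
      · rw [mapDomain_r_eq_zero_of 𝔻 W _ fun P _ hP => hsm (𝔻.isSm_of_r hP)]
        have hbr : 𝔻.IsBranch v Q := not_not.mp hsm
        rcases hbr with ⟨e, rfl, rfl⟩ | ⟨e, rfl, rfl⟩
        · exact (hbs e).symm
        · exact (hbt e).symm
    · rw [tupleDiv_inr, mapDomain_r_inr, hb1]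
  rw [degree_eq_tot 𝔻.HL, ← tot_mapDomain 𝔻.r, hmd, tot_tupleDiv]

end

end Fermat.Agent.MP.T3.AnnAlg2
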