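/-
Programme MP (row 38), chapter T3 (helper2): **local lemmas of the rigidity argument**.

* `disc_local` : on the residue disc of a smooth point `Q` with good uniformizer `u`, a function `h`
  with one simple zero `P'` and one simple pole `P''` on the disc (and nothing else there), a constant
  `cs` with `G = cs (h − 1)` integral and `cs (u(P') − u(P''))` integral:  `N = G (u − u(P''))` has no
  pole on the disc and `(red G · red u)(Q) = − res (cs (u(P') − u(P'')))`.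
* `NodeChart.max_principle` (MAX) : an integral function (on both sides) without poles on the annulus
  takes integral values on the annulus.
* `NodeChart.lipschitz` (LIP) : for such `U`, `|U(P₁) − U(P₂)| ≤ |a₁ / a₂ − 1|`.
* `NodeChart.ann_local` : the annulus analogue of `disc_local` (one annulus place moved).
-/
import Mathlib
import Fermat.Agent.MP.T3.Config2
import Fermat.Agent.ORD.ANN.MatchedDatum3

set_option autoImplicit false
set_option linter.unusedSectionVars false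
set_option linter.style.longLine false

namespace Fermat.Agent.MP.T3.Local2

open AlgebraicCurve Fermat.Agent.X0.FF Fermat.Agent.RR.LSpace Fermat.Agent.MW.EMB.Value6
open Fermat.Agent.ORD.ANN.Side3 Fermat.Agent.ORD.ANN.Node3 Fermat.Agent.ORD.ANN.Matched3
open Fermat.Agent.ORD.SEMIRED.SemiRedDatum9 Fermat.Agent.ORD.REDN.DiscC9

noncomputable section

variable {L F k Ft : Type*} [Field L] [Field F] [Algebra L F] [Field k] [Field Ft] [Algebra k Ft]

/-! ### the disc lemma -/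

section Disc

variable (D : CompDatum L F k Ft) {P0 : Place L F} {Q : Place k Ft} {u : D.G}

open Classical in
/-- **Disc lemma.** -/
theorem disc_local (hu : D.IsGoodUnif P0 Q u) {P' P'' : Place L F} (hP' : D.r P' = some Q)
    (hP'' : D.r P'' = some Q) {h : F} (hh : h ≠ 0)
    (hord : ∀ P : Place L F, D.r P = some Q →
      P.ord h = (if P = P' then 1 else 0) - (if P = P'' then 1 else 0))
    {cs : L} (hG : algebraMap L F cs * (h - 1) ∈ D.G)
    (hcd : cs * (valF D.HL P' (u : F) - valF D.HL P'' (u : F)) ∈ D.A) :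
    D.PoleFree (((⟨_, hG⟩ : D.G) * (u - D.const (valA D u hu.poleFree hP'')) : D.G) : F) Q ∧
    valF D.Hk Q (D.red (⟨_, hG⟩ : D.G) * D.red u) = - D.res ⟨_, hcd⟩ := by
  set t'' : D.A := valA D u hu.poleFree hP'' with ht''
  set w : F := (u : F) - algebraMap L F (valF D.HL P'' (u : F)) with hw
  have hwcoe : ((u - D.const t'' : D.G) : F) = w := rfl
  have hcoe : (((⟨_, hG⟩ : D.G) * (u - D.const t'') : D.G) : F) =
      algebraMap L F cs * (h * w - w) := by
    show algebraMap L F cs * (h - 1) * w = _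
    ring
  -- `w` is regular on the disc, a uniformizer at `P''`
  have hwpf : D.PoleFree w Q := hu.poleFree_sub_const t''
  have hw1 : P''.ord w = 1 := hu.ord_sub_valF hP''
  have hw0 : w ≠ 0 := by
    intro h0
    rw [h0, Place.ord_zero] at hw1
    exact zero_ne_one hw1
  -- `h w` is regular on the disc
  have hhw : ∀ P : Place L F, D.r P = some Q → h * w ∈ P.toValuationSubring := by
    intro P hP
    apply ffp_mem_of_ord_nonneg
    rw [P.ord_mul hh hw0, hord P hP]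
    by_cases hPP : P = P''
    · subst hPP
      rw [hw1]
      split_ifs <;> omega
    · have := hwpf P hP
      rw [if_neg hPP]
      split_ifs <;> omega
  have hpf : D.PoleFree (((⟨_, hG⟩ : D.G) * (u - D.const t'') : D.G) : F) Q := by
    rw [hcoe]
    exact poleFree_of_mem D fun P hP => P.toValuationSubring.mul_mem _ _ (P.algebraMap_mem' _)
      (sub_mem (hhw P hP) (poleFree_mem D hwpf hP))
  refine ⟨hpf, ?_⟩
  -- evaluate at `P'`
  have hval := res_valF D ((⟨_, hG⟩ : D.G) * (u - D.const t'')) hpf hP'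
  have hredmul : D.red ((⟨_, hG⟩ : D.G) * (u - D.const t'')) = D.red (⟨_, hG⟩ : D.G) * D.red u := by
    rw [map_mul, CompDatum.red_sub_const' u (hu.valA_not_isUnit hP'')]
  rw [hredmul] at hval
  rw [← hval]
  -- the value of `N` at `P'`
  have hhmem : h ∈ P'.toValuationSubring := by
    apply ffp_mem_of_ord_nonneg
    rw [hord P' hP', if_pos rfl]
    split_ifs <;> omega
  have humem : (u : F) ∈ P'.toValuationSubring := poleFree_mem D hu.poleFree hP'
  have hwmem : w ∈ P'.toValuationSubring := poleFree_mem D hwpf hP'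
  have hwval : valF D.HL P' w = valF D.HL P' (u : F) - valF D.HL P'' (u : F) := by
    rw [hw, valF_sub D.HL P' humem (P'.algebraMap_mem' _), valF_algebraMap]
  have hNval : valF D.HL P' (algebraMap L F cs * (h * w - w)) =
      cs * ((valF D.HL P' h - 1) * (valF D.HL P' (u : F) - valF D.HL P'' (u : F))) := by
    rw [valF_mul D.HL P' (P'.algebraMap_mem' _) (sub_mem (hhw P' hP') hwmem), valF_algebraMap,
      valF_sub D.HL P' (hhw P' hP') hwmem, valF_mul D.HL P' hhmem hwmem, hwval]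
    ring
  have hkey : (valF D.HL P' h - 1) * (valF D.HL P' (u : F) - valF D.HL P'' (u : F)) =
      -(valF D.HL P' (u : F) - valF D.HL P'' (u : F)) := by
    by_cases hPP : P' = P''
    · rw [hPP, sub_self, mul_zero, neg_zero]
    · have h1 : valF D.HL P' h = 0 := by
        rw [valF_eq_zero_iff D.HL P' hhmem]
        right
        rw [hord P' hP', if_pos rfl, if_neg hPP]
        norm_num
      rw [h1, zero_sub, neg_one_mul]
  have hA : valA D ((⟨_, hG⟩ : D.G) * (u - D.const t'')) hpf hP' = -(⟨_, hcd⟩ : D.A) := by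
    apply Subtype.ext
    show valF D.HL P' (((⟨_, hG⟩ : D.G) * (u - D.const t'') : D.G) : F) = _
    rw [hcoe, hNval, hkey]
    push_cast
    ring
  rw [hA, map_neg]

open Classical in
/-- **Disc lemma, consequences**: the reduction of `G` has at most a simple pole at `Q`, no pole at all
if `cs (u(P') − u(P''))` has zero residue, and `(red G · red u)(Q) = − res (cs (u(P') − u(P'')))`. -/
theorem disc_local' (hu : D.IsGoodUnif P0 Q u) {P' P'' : Place L F} (hP' : D.r P' = some Q)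
    (hP'' : D.r P'' = some Q) {h : F} (hh : h ≠ 0)
    (hord : ∀ P : Place L F, D.r P = some Q →
      P.ord h = (if P = P' then 1 else 0) - (if P = P'' then 1 else 0))
    {cs : L} (hG : algebraMap L F cs * (h - 1) ∈ D.G)
    (hcd : cs * (valF D.HL P' (u : F) - valF D.HL P'' (u : F)) ∈ D.A) :
    (D.red (⟨_, hG⟩ : D.G) ≠ 0 → -1 ≤ Q.ord (D.red (⟨_, hG⟩ : D.G))) ∧
    (D.red (⟨_, hG⟩ : D.G) ≠ 0 → D.res ⟨_, hcd⟩ = 0 → 0 ≤ Q.ord (D.red (⟨_, hG⟩ : D.G))) ∧
    valF D.Hk Q (D.red (⟨_, hG⟩ : D.G) * D.red u) = - D.res ⟨_, hcd⟩ := by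
  obtain ⟨hpf, hval⟩ := disc_local D hu hP' hP'' hh hord hG hcd
  have hredmul : D.red ((⟨_, hG⟩ : D.G) * (u - D.const (valA D u hu.poleFree hP''))) =
      D.red (⟨_, hG⟩ : D.G) * D.red u := by
    rw [map_mul, CompDatum.red_sub_const' u (hu.valA_not_isUnit hP'')]
  have hreg : D.red (⟨_, hG⟩ : D.G) ≠ 0 → 0 ≤ Q.ord (D.red (⟨_, hG⟩ : D.G) * D.red u) := by
    intro hne
    have h1 := D.ord_red_nonneg (g := (⟨_, hG⟩ : D.G) * (u - D.const (valA D u hu.poleFree hP'')))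
      (by rw [hredmul]; exact mul_ne_zero hne hu.red_ne_zero) hu.sm hpf
    rwa [hredmul] at h1
  refine ⟨fun hne => ?_, fun hne h0 => ?_, hval⟩
  · have h1 := hreg hne
    rw [Q.ord_mul hne hu.red_ne_zero, hu.ord_red] at h1
    omega
  · have h1 := hreg hne
    rw [h0, neg_zero] at hval
    rcases (valF_eq_zero_iff D.Hk Q (ffp_mem_of_ord_nonneg Q h1)).mp hval with h2 | h2
    · exact absurd h2 (mul_ne_zero hne hu.red_ne_zero)
    · rw [Q.ord_mul hne hu.red_ne_zero, hu.ord_red] at h2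
      omega

end Disc

/-! ### the node chart: (MAX), (LIP) -/

section Node

variable {Ft' : Type*} [Field Ft'] [Algebra k Ft']
variable {B : Base L k} {HL : LHyp L F} {S : Side B F Ft} {S' : Side B F Ft'}
  {Hk : LHyp k Ft} {Hk' : LHyp k Ft'} (N : NodeChart B HL S S' Hk Hk')

/-- a function which is a unit at `P` : the value of the inverse. -/
theorem valF_inv_of_ord_eq_zero {K E : Type*} [Field K] [Field E] [Algebra K E] (H : LHyp K E)
    (v : Place K E) {f : E} (hf0 : f ≠ 0) (hf : v.ord f = 0) :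
    valF H v f⁻¹ = (valF H v f)⁻¹ := by
  have hmem : f ∈ v.toValuationSubring := ffp_mem_of_ord_nonneg v (by omega)
  have hmem' : f⁻¹ ∈ v.toValuationSubring :=
    ffp_mem_of_ord_nonneg v (by rw [Place.ord_inv, hf, neg_zero])
  have h := valF_mul H v hmem hmem'
  rw [mul_inv_cancel₀ hf0, valF_one] at h
  exact eq_inv_of_mul_eq_one_right h.symm

/-- **(MAX)** an integral function without poles on the annulus has integral values there. -/
theorem max_principle {g : F} (hs : g ∈ S.G) (ht : g ∈ S'.G) (hpf : ∀ P ∈ N.ann, 0 ≤ P.ord g)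
    {P0 : Place L F} (hP0 : P0 ∈ N.ann) : valF HL P0 g ∈ B.A := by
  by_contra hc
  set b : L := valF HL P0 g with hb
  have hb0 : b ≠ 0 := fun h0 => hc (h0 ▸ B.A.zero_mem)
  have hinv : b⁻¹ ∈ B.A := (B.A.mem_or_inv_mem b).resolve_left hc
  have hm : B.IsM b⁻¹ := by
    rw [Base.IsM]
    rcases lt_or_eq_of_le ((B.A.valuation_le_one_iff b⁻¹).mpr hinv) with h | h
    · exact h
    · exfalso
      apply hc
      have hu : B.IsU b⁻¹ := h
      have := hu.inv.mem
      rwa [inv_inv] at this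
  have h0 : B.res ⟨b⁻¹, hinv⟩ = 0 := (B.res_eq_zero_iff _).mpr hm.not_isUnit
  -- the function `b⁻¹ g − 1`
  set g' : F := algebraMap L F b⁻¹ * g - 1 with hg'
  have hs' : g' ∈ S.G := S.G.sub_mem (S.G.mul_mem (S.const_mem ⟨_, hinv⟩) hs) S.G.one_mem
  have ht' : g' ∈ S'.G := S'.G.sub_mem (S'.G.mul_mem (S'.const_mem ⟨_, hinv⟩) ht) S'.G.one_mem
  have hred : S.red ⟨g', hs'⟩ = -1 := by
    have e : (⟨g', hs'⟩ : S.G) = S.const ⟨_, hinv⟩ * ⟨g, hs⟩ - 1 := Subtype.ext rfl
    rw [e, map_sub, map_mul, map_one, S.red_const', h0, map_zero, zero_mul, zero_sub]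
  have hg'0 : g' ≠ 0 := by
    intro h
    have e : (⟨g', hs'⟩ : S.G) = 0 := Subtype.ext h
    rw [e, map_zero] at hred
    exact one_ne_zero (neg_eq_zero.mp hred.symm)
  have hgmem : ∀ P ∈ N.ann, g ∈ P.toValuationSubring := fun P hP => ffp_mem_of_ord_nonneg P (hpf P hP)
  have hg'mem : ∀ P ∈ N.ann, g' ∈ P.toValuationSubring := fun P hP =>
    sub_mem (P.toValuationSubring.mul_mem _ _ (P.algebraMap_mem' _) (hgmem P hP))
      P.toValuationSubring.one_mem
  have hpf' : ∀ P ∈ N.ann, 0 ≤ P.ord g' := fun P hP => ffp_ord_nonneg_of_mem P (hg'mem P hP)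
  have hval : valF HL P0 g' = 0 := by
    rw [hg', valF_sub HL P0 (P0.toValuationSubring.mul_mem _ _ (P0.algebraMap_mem' _) (hgmem P0 hP0))
      P0.toValuationSubring.one_mem, valF_mul HL P0 (P0.algebraMap_mem' _) (hgmem P0 hP0),
      valF_algebraMap, valF_one, ← hb, inv_mul_cancel₀ hb0, sub_self]
  have hpos : 0 < P0.ord g' := by
    rcases (valF_eq_zero_iff HL P0 (hg'mem P0 hP0)).mp hval with h | h
    · exact absurd h hg'0
    · exact h
  have h4 := (NodeChartAux.matched N g' hs' ht' hpf').2.2.2 ⟨P0, hP0, hpos⟩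
  rw [hred] at h4
  have h5 : valF Hk N.Q (-1 : Ft) = -1 := by
    have := valF_algebraMap Hk N.Q (-1 : k)
    simpa using this
  rw [h5] at h4
  exact one_ne_zero (neg_eq_zero.mp h4)

/-- the inverse of a linear factor is integral on `S`. -/
theorem lin_inv_mem {P : Place L F} (hP : P ∈ N.ann) : (N.lin P)⁻¹ ∈ S.G := by
  have := (N.isNorm_lin hP).1.inv.1.mem
  rwa [inv_one, map_one, one_mul] at this

/-- `(−a_P) / (x − a_P)` is integral on `S'`, with reduction `1`. -/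
theorem neg_a_lin_inv {P : Place L F} (hP : P ∈ N.ann) :
    S'.IsNorm (-(N.a P)) (N.lin P)⁻¹ ∧ S'.nred (-(N.a P)) (N.lin P)⁻¹ = 1 := by
  have h := (N.isNorm_lin' hP).1.inv
  rw [inv_inv, (N.isNorm_lin' hP).2, inv_one] at h
  exact h

/-- **(LIP)** an integral function without poles on the annulus is `1`-Lipschitz in `a₁ / a₂`. -/
theorem lipschitz {U : F} (hs : U ∈ S.G) (ht : U ∈ S'.G) (hpf : ∀ P ∈ N.ann, 0 ≤ P.ord U)
    {P1 P2 : Place L F} (hP1 : P1 ∈ N.ann) (hP2 : P2 ∈ N.ann) :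
    B.A.valuation (valF HL P1 U - valF HL P2 U) ≤ B.A.valuation (N.a P1 / N.a P2 - 1) := by
  by_cases hPP : P1 = P2
  · rw [hPP, sub_self, map_zero]
    exact zero_le
  set b2 : L := valF HL P2 U with hb2
  have hb2A : b2 ∈ B.A := max_principle N hs ht hpf hP2
  have ha2 : N.a P2 ∈ B.A := (N.a_lt P2 hP2).mem
  have ha20 : N.a P2 ≠ 0 := N.a_ne P2 hP2
  -- `W = (U − b2) * a2 / (x − a2)`
  set V : F := U - algebraMap L F b2 with hV
  set W : F := V * (algebraMap L F (N.a P2) * (N.lin P2)⁻¹) with hW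
  have hVs : V ∈ S.G := S.G.sub_mem hs (S.const_mem ⟨b2, hb2A⟩)
  have hVt : V ∈ S'.G := S'.G.sub_mem ht (S'.const_mem ⟨b2, hb2A⟩)
  have hWs : W ∈ S.G := S.G.mul_mem hVs (S.G.mul_mem (S.const_mem ⟨_, ha2⟩) (lin_inv_mem N hP2))
  have hWt : W ∈ S'.G := by
    have h1 := (neg_a_lin_inv N hP2).1.mem
    have e : algebraMap L F (N.a P2) * (N.lin P2)⁻¹ =
        -(algebraMap L F (-(N.a P2)) * (N.lin P2)⁻¹) := by
      rw [map_neg]; ring
    rw [hW, e]
    exact S'.G.mul_mem hVt (S'.G.neg_mem h1)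
  have hUmem : ∀ P ∈ N.ann, U ∈ P.toValuationSubring := fun P hP => ffp_mem_of_ord_nonneg P (hpf P hP)
  have hVmem : ∀ P ∈ N.ann, V ∈ P.toValuationSubring := fun P hP =>
    sub_mem (hUmem P hP) (P.algebraMap_mem' _)
  have hlin0 := N.lin_ne_zero hP2
  -- `W` has no pole on the annulus
  have hWpf : ∀ P ∈ N.ann, 0 ≤ P.ord W := by
    intro P hP
    by_cases hV0 : V = 0
    · rw [hW, hV0, zero_mul, Place.ord_zero]
    have hc0 : algebraMap L F (N.a P2) * (N.lin P2)⁻¹ ≠ 0 :=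
      mul_ne_zero ((map_ne_zero _).mpr ha20) (inv_ne_zero hlin0)
    rw [hW, P.ord_mul hV0 hc0, P.ord_mul ((map_ne_zero _).mpr ha20) (inv_ne_zero hlin0),
      ffp_ord_algebraMap, zero_add, Place.ord_inv]
    by_cases hPP2 : P = P2
    · subst hPP2
      rw [N.ord_lin_self hP]
      have : 0 < P.ord V := by
        rw [hV, hb2]
        exact ord_sub_valF_pos HL P (hUmem P hP) (fun h => hV0 (by rw [hV, hb2, ← h, sub_self]))
      omega
    · rw [N.ord_lin_of_ne hP2 hP hPP2]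
      have := ffp_ord_nonneg_of_mem P (hVmem P hP)
      omega
  have hmax := max_principle N hWs hWt hWpf hP1
  -- the value of `W` at `P1`
  have hlinval : valF HL P1 (N.lin P2) = N.a P1 - N.a P2 := by
    rw [NodeChart.lin, valF_sub HL P1 (N.x_mem_place hP1) (P1.algebraMap_mem' _), valF_algebraMap]
    rfl
  have hne : N.a P1 - N.a P2 ≠ 0 := by
    rw [sub_ne_zero]
    intro h
    exact hPP (N.a_inj P1 hP1 P2 hP2 h)
  have hlinord : P1.ord (N.lin P2) = 0 := N.ord_lin_of_ne hP2 hP1 hPP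
  have hlininvmem : (N.lin P2)⁻¹ ∈ P1.toValuationSubring :=
    ffp_mem_of_ord_nonneg P1 (by rw [Place.ord_inv, hlinord, neg_zero])
  have hWval : valF HL P1 W = (valF HL P1 U - b2) * (N.a P2 * (N.a P1 - N.a P2)⁻¹) := by
    rw [hW, valF_mul HL P1 (hVmem P1 hP1)
      (P1.toValuationSubring.mul_mem _ _ (P1.algebraMap_mem' _) hlininvmem),
      valF_mul HL P1 (P1.algebraMap_mem' _) hlininvmem, valF_algebraMap,
      valF_inv_of_ord_eq_zero HL P1 hlin0 hlinord, hlinval, hV,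
      valF_sub HL P1 (hUmem P1 hP1) (P1.algebraMap_mem' _), valF_algebraMap]
  have hle := (B.A.valuation_le_one_iff _).mpr hmax
  rw [hWval, map_mul, map_mul, map_inv₀] at hle
  have e : N.a P1 / N.a P2 - 1 = (N.a P1 - N.a P2) / N.a P2 := by
    field_simp
  rw [e, map_div₀]
  have hv2 : B.A.valuation (N.a P2) ≠ 0 := (Valuation.ne_zero_iff _).mpr ha20
  have hvd : B.A.valuation (N.a P1 - N.a P2) ≠ 0 := (Valuation.ne_zero_iff _).mpr hne
  rw [le_div_iff₀ (zero_lt_iff.mpr hv2)]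
  calc B.A.valuation (valF HL P1 U - b2) * B.A.valuation (N.a P2)
      = (B.A.valuation (valF HL P1 U - b2) * (B.A.valuation (N.a P2) *
          (B.A.valuation (N.a P1 - N.a P2))⁻¹)) * B.A.valuation (N.a P1 - N.a P2) := by
        rw [mul_assoc, mul_assoc, inv_mul_cancel₀ hvd, mul_one]
    _ ≤ 1 * B.A.valuation (N.a P1 - N.a P2) := by gcongr
    _ = B.A.valuation (N.a P1 - N.a P2) := one_mul _

/-! ### the annulus lemma -/

/-- `θ = (x − a') / (x − a'')`. -/
def theta (P' P'' : Place L F) : F := N.lin P' * (N.lin P'')⁻¹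

theorem theta_ne_zero {P' P'' : Place L F} (hP' : P' ∈ N.ann) (hP'' : P'' ∈ N.ann) :
    theta N P' P'' ≠ 0 :=
  mul_ne_zero (N.lin_ne_zero hP') (inv_ne_zero (N.lin_ne_zero hP''))

theorem theta_src {P' P'' : Place L F} (hP' : P' ∈ N.ann) (hP'' : P'' ∈ N.ann) :
    S.IsNorm 1 (theta N P' P'') ∧ S.nred 1 (theta N P' P'') = 1 := by
  have h := (N.isNorm_lin hP').1.mul (N.isNorm_lin hP'').1.inv.1
  rw [(N.isNorm_lin hP').2, (N.isNorm_lin hP'').1.inv.2, (N.isNorm_lin hP'').2, inv_one, mul_one,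
    mul_inv_cancel₀ N.xb_ne_zero] at h
  exact h

theorem theta_tgt {P' P'' : Place L F} (hP' : P' ∈ N.ann) (hP'' : P'' ∈ N.ann) :
    S'.IsNorm (N.a P'' / N.a P') (theta N P' P'') ∧ S'.nred (N.a P'' / N.a P') (theta N P' P'') = 1 := by
  have h := (N.isNorm_lin' hP').1.mul (N.isNorm_lin' hP'').1.inv.1
  rw [(N.isNorm_lin' hP').2, (N.isNorm_lin' hP'').1.inv.2, (N.isNorm_lin' hP'').2, inv_one, mul_one,
    inv_inv] at h
  have e : (-(N.a P'))⁻¹ * -(N.a P'') = N.a P'' / N.a P' := by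
    have := N.a_ne P' hP'
    field_simp
  rw [e] at h
  exact h

open Classical in
theorem ord_theta {P' P'' : Place L F} (hP' : P' ∈ N.ann) (hP'' : P'' ∈ N.ann) {P : Place L F}
    (hP : P ∈ N.ann) :
    P.ord (theta N P' P'') = (if P = P' then 1 else 0) - (if P = P'' then 1 else 0) := by
  rw [theta, P.ord_mul (N.lin_ne_zero hP') (inv_ne_zero (N.lin_ne_zero hP'')), Place.ord_inv,
    N.ord_lin_eq hP' hP, N.ord_lin_eq hP'' hP]
  ring

/-- the support on the annulus of a function without zeros and poles there is empty. -/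
theorem supp_eq_empty {φ : F} (hφ : φ ≠ 0) (h0 : ∀ P ∈ N.ann, P.ord φ = 0) : N.supp hφ = ∅ := by
  classical
  rw [Finset.eq_empty_iff_forall_notMem]
  intro P hP
  have := (N.mem_supp hφ).mp hP
  exact this.1 (h0 P this.2)

open Classical in
/-- **Annulus lemma.**  `h` integral with reduction `1` on both sides, with one simple zero `P'` and one
simple pole `P''` on the annulus.  Then `a' / a''` is a unit of residue `1`; and if `G = cs (h − 1)` is
integral on both sides and `cs (a'/a'' − 1)` is integral, the reductions of `G` are regular at the two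
branches and `G̃'(Q') = G̃(Q) + res (cs (a'/a'' − 1))`. -/
theorem ann_local {P' P'' : Place L F} (hP' : P' ∈ N.ann) (hP'' : P'' ∈ N.ann) {h : F} (hh : h ≠ 0)
    (hord : ∀ P ∈ N.ann, P.ord h = (if P = P' then 1 else 0) - (if P = P'' then 1 else 0))
    (hs : h ∈ S.G) (ht : h ∈ S'.G) (hreds : S.red ⟨h, hs⟩ = 1) (hredt : S'.red ⟨h, ht⟩ = 1) :
    (B.IsU (N.a P' / N.a P'') ∧ B.resL (N.a P' / N.a P'') = 1) ∧
    ∀ (cs : L) (hGs : algebraMap L F cs * (h - 1) ∈ S.G) (hGt : algebraMap L F cs * (h - 1) ∈ S'.G)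
      (hcd : cs * (N.a P' / N.a P'' - 1) ∈ B.A),
      0 ≤ N.Q.ord (S.red ⟨_, hGs⟩) ∧ 0 ≤ N.Q'.ord (S'.red ⟨_, hGt⟩) ∧
      valF Hk' N.Q' (S'.red ⟨_, hGt⟩) = valF Hk N.Q (S.red ⟨_, hGs⟩) + B.res ⟨_, hcd⟩ := by
  have ha' := N.a_ne P' hP'
  have ha'' := N.a_ne P'' hP''
  set θ : F := theta N P' P'' with hθ
  have hθ0 : θ ≠ 0 := theta_ne_zero N hP' hP''
  set U : F := h * θ⁻¹ with hU
  have hU0 : U ≠ 0 := mul_ne_zero hh (inv_ne_zero hθ0)
  have hhθU : h = θ * U := by rw [hU]; field_simp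
  -- `U` has no zero or pole on the annulus
  have hUord : ∀ P ∈ N.ann, P.ord U = 0 := by
    intro P hP
    rw [hU, P.ord_mul hh (inv_ne_zero hθ0), Place.ord_inv, hord P hP, hθ, ord_theta N hP' hP'' hP]
    ring
  have hsupp : N.supp hU0 = ∅ := supp_eq_empty N hU0 hUord
  -- normalisations of `h`
  have hn : S.IsNorm 1 h := S.isNorm_one_of_mem hs (by rw [hreds]; exact one_ne_zero)
  have hnr : S.nred 1 h = 1 := by rw [S.nred_one_of_mem hs, hreds]
  have hn' : S'.IsNorm 1 h := S'.isNorm_one_of_mem ht (by rw [hredt]; exact one_ne_zero)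
  have hnr' : S'.nred 1 h = 1 := by rw [S'.nred_one_of_mem ht, hredt]
  -- normalisations of `U`
  have hUn := hn.mul (theta_src N hP' hP'').1.inv.1
  rw [hnr, (theta_src N hP' hP'').1.inv.2, (theta_src N hP' hP'').2, inv_one, mul_one, inv_one,
    mul_one] at hUn
  have hUn' := hn'.mul (theta_tgt N hP' hP'').1.inv.1
  rw [hnr', (theta_tgt N hP' hP'').1.inv.2, (theta_tgt N hP' hP'').2, inv_one, mul_one, one_mul,
    inv_div] at hUn'
  -- (N3)
  have hj := N.lead_jump hU0 hUn.1 hUn'.1 (by rw [hUn.2, Place.ord_one]) (by rw [hUn'.2, Place.ord_one])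
  rw [hsupp, Finset.prod_empty, mul_one, div_one, hUn.2, hUn'.2, valF_one, valF_one, mul_one] at hj
  have hratio : B.IsU (N.a P' / N.a P'') ∧ B.resL (N.a P' / N.a P'') = 1 := ⟨hj.1, hj.2.symm⟩
  refine ⟨hratio, ?_⟩
  intro cs hGs hGt hcd
  -- `U` on `S'`
  have hUt := hUn'.1.of_isU_mul hratio.1.inv
  rw [inv_mul_cancel₀ hratio.1.ne_zero, hUn'.2, mul_one, hratio.1.resL_inv, hratio.2, inv_one,
    map_one] at hUt
  have hUs : U ∈ S.G := by
    have := hUn.1.mem
    rwa [map_one, one_mul] at this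
  have hUt' : U ∈ S'.G := by
    have := hUt.1.mem
    rwa [map_one, one_mul] at this
  have hUreds : S.red ⟨U, hUs⟩ = 1 := by rw [← S.nred_one_of_mem hUs, hUn.2]
  have hUredt : S'.red ⟨U, hUt'⟩ = 1 := by rw [← S'.nred_one_of_mem hUt', hUt.2]
  -- `Θ = cs (θ − 1) = (cs δ) * ((−a'') / (x − a''))`
  set δ : L := N.a P' / N.a P'' - 1 with hδ
  set Y : F := algebraMap L F (-(N.a P'')) * (N.lin P'')⁻¹ with hY
  set Θ : F := algebraMap L F (cs * δ) * Y with hΘ
  have hΘeq : Θ = algebraMap L F cs * (θ - 1) := by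
    have hl := N.lin_ne_zero hP''
    have e1 : θ - 1 = (algebraMap L F (N.a P'') - algebraMap L F (N.a P')) * (N.lin P'')⁻¹ := by
      rw [hθ, theta, NodeChart.lin, NodeChart.lin]
      have hl' : N.x - algebraMap L F (N.a P'') ≠ 0 := hl
      field_simp
      ring
    rw [hΘ, hY, e1, hδ, map_mul, map_sub, map_div₀, map_one, map_neg]
    have : algebraMap L F (N.a P'') ≠ 0 := (map_ne_zero _).mpr ha''
    field_simp
    ring
  have hYs : Y ∈ S.G :=
    S.G.mul_mem (S.const_mem ⟨_, B.A.neg_mem _ (N.a_lt P'' hP'').mem⟩) (lin_inv_mem N hP'')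
  have hYreds : S.red ⟨Y, hYs⟩ = 0 := by
    have e : (⟨Y, hYs⟩ : S.G) = S.const ⟨_, B.A.neg_mem _ (N.a_lt P'' hP'').mem⟩ *
        ⟨_, lin_inv_mem N hP''⟩ := Subtype.ext rfl
    have h0 : B.res ⟨-(N.a P''), B.A.neg_mem _ (N.a_lt P'' hP'').mem⟩ = 0 := by
      rw [B.res_eq_zero_iff]
      have hm : B.IsM (-(N.a P'')) := by
        rw [Base.IsM, Valuation.map_neg]; exact N.a_lt P'' hP''
      exact hm.not_isUnit
    rw [e, map_mul, S.red_const']
    have h1 : algebraMap k Ft (B.res ⟨-(N.a P''), B.A.neg_mem _ (N.a_lt P'' hP'').mem⟩) = 0 := by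
      rw [h0, map_zero]
    exact mul_eq_zero_of_left h1 _
  have hYt : Y ∈ S'.G := (neg_a_lin_inv N hP'').1.mem
  have hYredt : S'.red ⟨Y, hYt⟩ = 1 := by
    rw [← (neg_a_lin_inv N hP'').1.nred_eq, (neg_a_lin_inv N hP'').2]
  have hΘs : Θ ∈ S.G := S.G.mul_mem (S.const_mem ⟨_, hcd⟩) hYs
  have hΘt : Θ ∈ S'.G := S'.G.mul_mem (S'.const_mem ⟨_, hcd⟩) hYt
  have hΘreds : S.red ⟨Θ, hΘs⟩ = 0 := by
    have e : (⟨Θ, hΘs⟩ : S.G) = S.const ⟨_, hcd⟩ * ⟨Y, hYs⟩ := Subtype.ext rfl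
    rw [e, map_mul, hYreds, mul_zero]
  have hΘredt : S'.red ⟨Θ, hΘt⟩ = algebraMap k Ft' (B.res ⟨_, hcd⟩) := by
    have e : (⟨Θ, hΘt⟩ : S'.G) = S'.const ⟨_, hcd⟩ * ⟨Y, hYt⟩ := Subtype.ext rfl
    rw [e, map_mul, hYredt, mul_one, S'.red_const']
  -- `M = G − Θ U = cs (U − 1)`
  set G : F := algebraMap L F cs * (h - 1) with hG
  set M : F := G - Θ * U with hM
  have hMeq : M = algebraMap L F cs * (U - 1) := by
    rw [hM, hG, hΘeq, hhθU]
    ring
  have hMs : M ∈ S.G := S.G.sub_mem hGs (S.G.mul_mem hΘs hUs)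
  have hMt : M ∈ S'.G := S'.G.sub_mem hGt (S'.G.mul_mem hΘt hUt')
  have hMreds : S.red ⟨M, hMs⟩ = S.red ⟨G, hGs⟩ := by
    have e : (⟨M, hMs⟩ : S.G) = ⟨G, hGs⟩ - ⟨Θ, hΘs⟩ * ⟨U, hUs⟩ := Subtype.ext rfl
    rw [e, map_sub, map_mul, hΘreds, zero_mul, sub_zero]
  have hMredt : S'.red ⟨M, hMt⟩ = S'.red ⟨G, hGt⟩ - algebraMap k Ft' (B.res ⟨_, hcd⟩) := by
    have e : (⟨M, hMt⟩ : S'.G) = ⟨G, hGt⟩ - ⟨Θ, hΘt⟩ * ⟨U, hUt'⟩ := Subtype.ext rfl
    rw [e, map_sub, map_mul, hΘredt, hUredt, mul_one]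
  have hMpf : ∀ P ∈ N.ann, 0 ≤ P.ord M := by
    intro P hP
    rw [hMeq]
    apply ffp_ord_nonneg_of_mem
    exact P.toValuationSubring.mul_mem _ _ (P.algebraMap_mem' _)
      (sub_mem (ffp_mem_of_ord_nonneg P (le_of_eq (hUord P hP).symm)) P.toValuationSubring.one_mem)
  obtain ⟨m1, m2, m3, -⟩ := NodeChartAux.matched N M hMs hMt hMpf
  rw [hMreds] at m1 m3
  rw [hMredt] at m2 m3
  have hmemM : S'.red ⟨G, hGt⟩ - algebraMap k Ft' (B.res ⟨_, hcd⟩) ∈ N.Q'.toValuationSubring :=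
    ffp_mem_of_ord_nonneg _ m2
  have hmemG : S'.red ⟨G, hGt⟩ ∈ N.Q'.toValuationSubring := by
    have := N.Q'.toValuationSubring.add_mem _ _ hmemM (N.Q'.algebraMap_mem' (B.res ⟨_, hcd⟩))
    rwa [sub_add_cancel] at this
  refine ⟨m1, ffp_ord_nonneg_of_mem _ hmemG, ?_⟩
  rw [valF_sub Hk' N.Q' hmemG (N.Q'.algebraMap_mem' _), valF_algebraMap] at m3
  rw [m3, sub_add_cancel]

open Classical in
/-- an integral function with one simple zero `P'` and one simple pole `P''` of the same radius on the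
annulus has reductions regular at the two branches. -/
theorem ann_regular {P' P'' : Place L F} (hP' : P' ∈ N.ann) (hP'' : P'' ∈ N.ann)
    (hU : B.IsU (N.a P' / N.a P'')) {H : F} (hH : H ≠ 0)
    (hord : ∀ P ∈ N.ann, P.ord H = (if P = P' then 1 else 0) - (if P = P'' then 1 else 0))
    (hs : H ∈ S.G) (ht : H ∈ S'.G) :
    0 ≤ N.Q.ord (S.red ⟨H, hs⟩) ∧ 0 ≤ N.Q'.ord (S'.red ⟨H, ht⟩) := by
  set θ : F := theta N P' P'' with hθ
  have hθ0 : θ ≠ 0 := theta_ne_zero N hP' hP''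
  -- `θ⁻¹` on the two sides
  have h1 := (theta_src N hP' hP'').1.inv
  rw [(theta_src N hP' hP'').2, inv_one, inv_one] at h1
  have hθs : θ⁻¹ ∈ S.G := by
    have := h1.1.mem
    rwa [map_one, one_mul] at this
  have hθreds : S.red ⟨θ⁻¹, hθs⟩ = 1 := by rw [← S.nred_one_of_mem hθs, h1.2]
  have h2 := (theta_tgt N hP' hP'').1.inv
  rw [(theta_tgt N hP' hP'').2, inv_one, inv_div] at h2
  have h3 := h2.1.of_isU_mul hU.inv
  rw [inv_mul_cancel₀ hU.ne_zero, h2.2, mul_one] at h3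
  have hθt : θ⁻¹ ∈ S'.G := by
    have := h3.1.mem
    rwa [map_one, one_mul] at this
  have hθredt : S'.red ⟨θ⁻¹, hθt⟩ = algebraMap k Ft' (B.resL (N.a P' / N.a P'')⁻¹) := by
    rw [← S'.nred_one_of_mem hθt, h3.2]
  -- `V = H θ⁻¹`
  set V : F := H * θ⁻¹ with hV
  have hVs : V ∈ S.G := S.G.mul_mem hs hθs
  have hVt : V ∈ S'.G := S'.G.mul_mem ht hθt
  have hVreds : S.red ⟨V, hVs⟩ = S.red ⟨H, hs⟩ := by
    have e : (⟨V, hVs⟩ : S.G) = ⟨H, hs⟩ * ⟨θ⁻¹, hθs⟩ := Subtype.ext rfl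
    rw [e, map_mul, hθreds, mul_one]
  have hVredt : S'.red ⟨V, hVt⟩ =
      S'.red ⟨H, ht⟩ * algebraMap k Ft' (B.resL (N.a P' / N.a P'')⁻¹) := by
    have e : (⟨V, hVt⟩ : S'.G) = ⟨H, ht⟩ * ⟨θ⁻¹, hθt⟩ := Subtype.ext rfl
    rw [e, map_mul, hθredt]
  have hVpf : ∀ P ∈ N.ann, 0 ≤ P.ord V := by
    intro P hP
    rw [hV, P.ord_mul hH (inv_ne_zero hθ0), Place.ord_inv, hord P hP, hθ, ord_theta N hP' hP'' hP]
    omega
  obtain ⟨m1, m2, -, -⟩ := NodeChartAux.matched N V hVs hVt hVpf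
  rw [hVreds] at m1
  rw [hVredt] at m2
  refine ⟨m1, ?_⟩
  by_cases h0 : S'.red ⟨H, ht⟩ = 0
  · rw [h0, Place.ord_zero]
  · rwa [N.Q'.ord_mul h0 ((map_ne_zero _).mpr hU.inv.resL_ne_zero), ffp_ord_algebraMap,
      add_zero] at m2

end Node

end

end Fermat.Agent.MP.T3.Local2
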