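/-
Programme MP (row 38), chapter T3 (helper6, for helper2's `Geo`): **the maximum principle on a node
annulus and its Lipschitz corollary.**

`N : NodeChart B HL S S' Hk Hk'` (ORD/ANN/Node3), `|z| := B.A.valuation z`, `g(P) := valF HL P g`.

* `val_le_one` **(MAX)** : `g ∈ G_S ∩ G_S'` without poles on the annulus ⟹ `|g(P)| ≤ 1` on the annulus
  [if `|g(P₀)| = |b| > 1`, `g / b − 1` is integral with reduction `−1` on both sides and a zero on the
  annulus, against the 4th clause of `Matched3.matched`];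
* `val_sub_le` **(LIP)** : for such `U` : `|U(P₁) − U(P₂)| ≤ |a₁ / a₂ − 1|`
  [(MAX) for `(U − U(P₂)) · a₂ / (x − a₂)`];
* `exists_decomp` : a function `φ ∈ G_S` without zeros and poles on the annulus whose reduction is a
  uniformizer at the branch `Q` is `c · x · U`, `|c| = 1`, `U` a unit of both Gauss rings;
* `val_eq_val_a` : then `|φ(P)| = |a_P|`;  `val_ratio_sub_one_le` : and
  `|φ(P₁) / φ(P₂) − 1| ≤ |a₁ / a₂ − 1|` as soon as the right hand side is `≤ 1`.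
* `Phi_val`, `Phi_lip` : the same for the node functions `G.Φ e` of an `Iface2.T3Setting`.
-/
import Mathlib
import Fermat.Agent.ORD.ANN.Matched3
import Fermat.Agent.MP.T3.Iface2

set_option autoImplicit false
set_option linter.unusedSectionVars false
set_option linter.style.longLine false

namespace Fermat.Agent.MP.T3.NodeMax6

open AlgebraicCurve Fermat.Agent.X0.FF Fermat.Agent.RR.LSpace Fermat.Agent.MW.EMB.Value6
open Fermat.Agent.ORD.ANN.Side3 Fermat.Agent.ORD.ANN.Node3 Fermat.Agent.ORD.ANN.Matched3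

noncomputable section

variable {L k F Ft Ft' : Type*} [Field L] [Field k] [Field F] [Algebra L F]
  [Field Ft] [Algebra k Ft] [Field Ft'] [Algebra k Ft']

/-! ### values -/

/-- the value of the inverse of a unit at `P`. -/
theorem valF_inv {K E : Type*} [Field K] [Field E] [Algebra K E] (H : LHyp K E) (P : Place K E)
    {f : E} (hf0 : f ≠ 0) (hf : P.ord f = 0) : valF H P f⁻¹ = (valF H P f)⁻¹ := by
  have h1 : f ∈ P.toValuationSubring := ffp_mem_of_ord_nonneg P (le_of_eq hf.symm)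
  have h2 : f⁻¹ ∈ P.toValuationSubring :=
    ffp_mem_of_ord_nonneg P (by rw [P.ord_inv, hf, neg_zero])
  have h3 := valF_mul H P h1 h2
  rw [mul_inv_cancel₀ hf0, valF_one] at h3
  exact eq_inv_of_mul_eq_one_right h3.symm

variable {B : Base L k} {HL : LHyp L F} {S : Side B F Ft} {S' : Side B F Ft'}
  {Hk : LHyp k Ft} {Hk' : LHyp k Ft'} (N : NodeChart B HL S S' Hk Hk')

/-- `c • g - 1` for a constant `c ∈ m_A` and `g ∈ G` has reduction `-1`. -/
theorem red_smul_sub_one (T : Side B F Ft) {c : L} (hc : B.IsM c) {g : F} (hg : g ∈ T.G) :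
    ∃ h : algebraMap L F c * g - 1 ∈ T.G, T.red ⟨_, h⟩ = -1 := by
  have hmem : algebraMap L F c * g - 1 ∈ T.G :=
    T.G.sub_mem (T.G.mul_mem (T.const_mem ⟨c, hc.mem⟩) hg) T.G.one_mem
  refine ⟨hmem, ?_⟩
  have e : (⟨_, hmem⟩ : T.G) = T.const ⟨c, hc.mem⟩ * ⟨g, hg⟩ - 1 := Subtype.ext rfl
  have h0 : B.res ⟨c, hc.mem⟩ = 0 := (B.res_eq_zero_iff _).mpr hc.not_isUnit
  rw [e, map_sub, map_mul, T.red_const', h0, map_zero, zero_mul, map_one, zero_sub]

/-- **(MAX)** : an integral function (on both sides of the node) without poles on the annulus has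
absolute value `≤ 1` at every place of the annulus. -/
theorem val_le_one (g : F) (hs : g ∈ S.G) (ht : g ∈ S'.G) (hpf : ∀ P ∈ N.ann, 0 ≤ P.ord g)
    {P₀ : Place L F} (hP₀ : P₀ ∈ N.ann) : B.A.valuation (valF HL P₀ g) ≤ 1 := by
  by_contra hlt
  rw [not_le] at hlt
  set b : L := valF HL P₀ g with hb
  have hb0 : b ≠ 0 := by
    intro h0
    rw [h0, map_zero] at hlt
    exact absurd hlt (by simp)
  have hm : B.IsM b⁻¹ := by
    rw [Base.IsM, map_inv₀]
    exact inv_lt_one_of_one_lt₀ hlt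
  obtain ⟨h1, hr1⟩ := red_smul_sub_one S hm hs
  obtain ⟨h2, _⟩ := red_smul_sub_one S' hm ht
  set h : F := algebraMap L F b⁻¹ * g - 1 with hh
  have hgP : ∀ P ∈ N.ann, g ∈ P.toValuationSubring := fun P hP => ffp_mem_of_ord_nonneg P (hpf P hP)
  have hhP : ∀ P ∈ N.ann, h ∈ P.toValuationSubring := fun P hP =>
    sub_mem (mul_mem (P.algebraMap_mem' _) (hgP P hP)) (one_mem _)
  have hpf' : ∀ P ∈ N.ann, 0 ≤ P.ord h := fun P hP => ffp_ord_nonneg_of_mem P (hhP P hP)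
  have hne : h ≠ 0 := by
    intro h0
    have : (⟨h, h1⟩ : S.G) = 0 := Subtype.ext h0
    rw [this, map_zero] at hr1
    exact absurd hr1.symm (by simp)
  have hval : valF HL P₀ h = 0 := by
    rw [hh, valF_sub HL P₀ (mul_mem (P₀.algebraMap_mem' _) (hgP P₀ hP₀)) (one_mem _),
      valF_mul HL P₀ (P₀.algebraMap_mem' _) (hgP P₀ hP₀), valF_algebraMap, valF_one, ← hb,
      inv_mul_cancel₀ hb0, sub_self]
  have hpos : 0 < P₀.ord h := by
    rcases (valF_eq_zero_iff HL P₀ (hhP P₀ hP₀)).mp hval with h0 | h0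
    · exact absurd h0 hne
    · exact h0
  have hm4 := (NodeChartAux.matched N h h1 h2 hpf').2.2.2 ⟨P₀, hP₀, hpos⟩
  rw [hr1, valF_neg Hk N.Q (one_mem _), valF_one] at hm4
  exact absurd hm4 (by simp)

/-- **(LIP)** : the values of an integral function without poles on the annulus are Lipschitz in the
annulus coordinate. -/
theorem val_sub_le (U : F) (hs : U ∈ S.G) (ht : U ∈ S'.G) (hpf : ∀ P ∈ N.ann, 0 ≤ P.ord U)
    {P₁ P₂ : Place L F} (h₁ : P₁ ∈ N.ann) (h₂ : P₂ ∈ N.ann) :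
    B.A.valuation (valF HL P₁ U - valF HL P₂ U) ≤ B.A.valuation (N.a P₁ / N.a P₂ - 1) := by
  by_cases hPP : P₁ = P₂
  · subst hPP
    rw [sub_self, map_zero]
    exact zero_le
  set u₂ : L := valF HL P₂ U with hu₂
  have hu₂A : u₂ ∈ B.A := (B.A.valuation_le_one_iff u₂).mp (val_le_one N U hs ht hpf h₂)
  set W : F := U - algebraMap L F u₂ with hW
  have hWs : W ∈ S.G := S.G.sub_mem hs (S.const_mem ⟨u₂, hu₂A⟩)
  have hWt : W ∈ S'.G := S'.G.sub_mem ht (S'.const_mem ⟨u₂, hu₂A⟩)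
  have hUP : ∀ P ∈ N.ann, U ∈ P.toValuationSubring := fun P hP => ffp_mem_of_ord_nonneg P (hpf P hP)
  have hWP : ∀ P ∈ N.ann, W ∈ P.toValuationSubring := fun P hP =>
    sub_mem (hUP P hP) (P.algebraMap_mem' _)
  have hWval : ∀ P ∈ N.ann, valF HL P W = valF HL P U - u₂ := fun P hP => by
    rw [hW, valF_sub HL P (hUP P hP) (P.algebraMap_mem' _), valF_algebraMap]
  -- the linear factor at `P₂`
  have ha₂0 : N.a P₂ ≠ 0 := N.a_ne P₂ h₂
  have ha₂m : B.IsM (N.a P₂) := N.a_lt P₂ h₂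
  obtain ⟨hlin, hlinred⟩ := S.isNorm_one_iff.mp (N.isNorm_lin h₂).1
  have hlin0 : N.lin P₂ ≠ 0 := N.lin_ne_zero h₂
  have hlininv : (N.lin P₂)⁻¹ ∈ S.G := S.inv_mem (g := ⟨_, hlin⟩) hlinred
  obtain ⟨hlin', hlinred'⟩ := (N.isNorm_lin' h₂).1
  have hlininv' : (algebraMap L F (-(N.a P₂))⁻¹ * N.lin P₂)⁻¹ ∈ S'.G :=
    S'.inv_mem (g := ⟨_, hlin'⟩) hlinred'
  set V : F := W * algebraMap L F (N.a P₂) * (N.lin P₂)⁻¹ with hV
  have hVs : V ∈ S.G := S.G.mul_mem (S.G.mul_mem hWs (S.const_mem ⟨_, ha₂m.mem⟩)) hlininv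
  have hVeq : V = -(W * (algebraMap L F (-(N.a P₂))⁻¹ * N.lin P₂)⁻¹) := by
    have haF : algebraMap L F (N.a P₂) ≠ 0 := (map_ne_zero _).mpr ha₂0
    rw [hV, map_inv₀, map_neg, mul_inv, inv_inv]
    ring
  have hVt : V ∈ S'.G := by
    rw [hVeq]
    exact S'.G.neg_mem (S'.G.mul_mem hWt hlininv')
  -- `V` has no pole on the annulus
  have hVpf : ∀ P ∈ N.ann, 0 ≤ P.ord V := by
    intro P hP
    by_cases hW0 : W = 0
    · rw [hV, hW0, zero_mul, zero_mul, Place.ord_zero]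
    have haF : algebraMap L F (N.a P₂) ≠ 0 := (map_ne_zero _).mpr ha₂0
    rw [hV, P.ord_mul (mul_ne_zero hW0 haF) (inv_ne_zero hlin0), P.ord_mul hW0 haF,
      ffp_ord_algebraMap, add_zero, P.ord_inv]
    by_cases hP2 : P = P₂
    · subst hP2
      rw [N.ord_lin_self hP]
      have hv0 : valF HL P W = 0 := by rw [hWval P hP, hu₂, sub_self]
      rcases (valF_eq_zero_iff HL P (hWP P hP)).mp hv0 with h0 | h0
      · exact absurd h0 hW0
      · omega
    · rw [N.ord_lin_of_ne h₂ hP hP2]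
      have := ffp_ord_nonneg_of_mem P (hWP P hP)
      omega
  have hmax := val_le_one N V hVs hVt hVpf h₁
  -- the value of `V` at `P₁`
  have hlinP : N.lin P₂ ∈ P₁.toValuationSubring :=
    sub_mem (N.x_mem_place h₁) (P₁.algebraMap_mem' _)
  have hlinval : valF HL P₁ (N.lin P₂) = N.a P₁ - N.a P₂ := by
    rw [NodeChart.lin, valF_sub HL P₁ (N.x_mem_place h₁) (P₁.algebraMap_mem' _), valF_algebraMap]
    rfl
  have hlinord : P₁.ord (N.lin P₂) = 0 := N.ord_lin_of_ne h₂ h₁ hPP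
  have hlininvP : (N.lin P₂)⁻¹ ∈ P₁.toValuationSubring :=
    ffp_mem_of_ord_nonneg P₁ (by rw [P₁.ord_inv, hlinord, neg_zero])
  have hVval : valF HL P₁ V = (valF HL P₁ U - u₂) / (N.a P₁ / N.a P₂ - 1) := by
    rw [hV, valF_mul HL P₁ (mul_mem (hWP P₁ h₁) (P₁.algebraMap_mem' _)) hlininvP,
      valF_mul HL P₁ (hWP P₁ h₁) (P₁.algebraMap_mem' _), valF_algebraMap,
      valF_inv HL P₁ hlin0 hlinord, hlinval, hWval P₁ h₁]
    have hne : N.a P₁ - N.a P₂ ≠ 0 := by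
      rw [sub_ne_zero]
      intro h
      exact hPP (N.a_inj P₁ h₁ P₂ h₂ h)
    field_simp
  have hz0 : N.a P₁ / N.a P₂ - 1 ≠ 0 := by
    intro h
    have h' : N.a P₁ = N.a P₂ := by
      have := sub_eq_zero.mp h
      rwa [div_eq_one_iff_eq ha₂0] at this
    exact hPP (N.a_inj P₁ h₁ P₂ h₂ h')
  rw [hVval, map_div₀] at hmax
  have hzpos : 0 < B.A.valuation (N.a P₁ / N.a P₂ - 1) :=
    zero_lt_iff.mpr ((Valuation.ne_zero_iff _).mpr hz0)
  exact (div_le_one₀ hzpos).mp hmax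

/-! ### node functions -/

/-- **the shape of a node function** : `φ ∈ G_S` without zeros and poles on the annulus whose
reduction is a uniformizer at the branch `Q` is `c · x · U` with `|c| = 1` and `U` a unit of both
Gauss rings without zeros and poles on the annulus. -/
theorem exists_decomp (φ : F) (hφ : φ ≠ 0) (h0 : ∀ P ∈ N.ann, P.ord φ = 0) (hmem : φ ∈ S.G)
    (hord : N.Q.ord (S.red ⟨φ, hmem⟩) = 1) :
    ∃ (c : L) (U : F), B.IsU c ∧ φ = algebraMap L F c * N.x * U ∧ U ≠ 0 ∧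
      U ∈ S.G ∧ U ∈ S'.G ∧ U⁻¹ ∈ S.G ∧ U⁻¹ ∈ S'.G ∧ ∀ P ∈ N.ann, P.ord U = 0 := by
  obtain ⟨c, n, hc, hU, hU', hr, hr', ho, -, -⟩ := N.unit φ hφ h0
  set U : F := φ / (algebraMap L F c * N.x ^ n) with hUdef
  have hcF : algebraMap L F c ≠ 0 := (map_ne_zero _).mpr hc
  have hxn : N.x ^ n ≠ 0 := zpow_ne_zero _ N.x_ne_zero
  have hφeq : φ = algebraMap L F c * N.x ^ n * U := by
    rw [hUdef]; field_simp
  have hU0 : U ≠ 0 := S.coe_ne_zero_of_red_ne_zero (g := ⟨U, hU⟩) hr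
  -- the two normalisations of `φ` on `S`
  have hred0 : S.red ⟨φ, hmem⟩ ≠ 0 := by
    intro h
    rw [h, Place.ord_zero] at hord
    exact zero_ne_one hord
  have n1 : S.IsNorm 1 φ := S.isNorm_one_of_mem hmem hred0
  have hcu : B.IsU (c⁻¹ * c) := by rw [inv_mul_cancel₀ hc]; exact Base.isU_one
  have a1 := Side.isNorm_const (S := S) hcu
  have a2 := N.isNorm_x.1.zpow n
  have a4 : S.IsNorm 1 U := S.isNorm_one_of_mem hU hr
  have a5 := (a1.1.mul a2.1).1.mul a4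
  rw [← hφeq] at a5
  -- orders at `Q`
  have hordn : N.Q.ord (S.nred (c⁻¹ * (1 : L) ^ n * 1) φ) = n := by
    rw [a5.2, (a1.1.mul a2.1).2, a1.2, a2.2, N.isNorm_x.2, S.nred_one_of_mem hU,
      N.Q.ord_mul (mul_ne_zero ((map_ne_zero _).mpr hcu.resL_ne_zero)
        (zpow_ne_zero _ N.xb_ne_zero)) hr,
      N.Q.ord_mul ((map_ne_zero _).mpr hcu.resL_ne_zero) (zpow_ne_zero _ N.xb_ne_zero),
      ffp_ord_algebraMap, N.Q.ord_zpow, N.ord_xb, ho]
    ring
  have hcmp := n1.compare a5.1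
  have hord1 : N.Q.ord (S.nred (c⁻¹ * (1 : L) ^ n * 1) φ) = 1 := by
    rw [hcmp.2, N.Q.ord_mul ((map_ne_zero _).mpr hcmp.1.resL_ne_zero) n1.nred_ne_zero,
      ffp_ord_algebraMap, zero_add, S.nred_one_of_mem hmem]
    exact hord
  have hn : n = 1 := by rw [← hordn, hord1]
  have hcU : B.IsU c := by
    have h1 := hcmp.1
    rw [one_zpow, mul_one, mul_one, div_one] at h1
    have := h1.inv
    rwa [inv_inv] at this
  refine ⟨c, U, hcU, ?_, hU0, hU, hU', S.inv_mem (g := ⟨U, hU⟩) hr, S'.inv_mem (g := ⟨U, hU'⟩) hr',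
    fun P hP => ?_⟩
  · rw [hφeq, hn, zpow_one]
  · have h1 := h0 P hP
    rw [hφeq, P.ord_mul (mul_ne_zero hcF hxn) hU0, P.ord_mul hcF hxn, ffp_ord_algebraMap,
      P.ord_zpow, N.ord_x_ann hP] at h1
    omega

/-- a unit of both Gauss rings without zeros and poles on the annulus has absolute value `1` on the
annulus. -/
theorem val_eq_one_of_unit (U : F) (hU0 : U ≠ 0) (hs : U ∈ S.G) (ht : U ∈ S'.G) (hsi : U⁻¹ ∈ S.G)
    (hti : U⁻¹ ∈ S'.G) (hord : ∀ P ∈ N.ann, P.ord U = 0) {P : Place L F} (hP : P ∈ N.ann) :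
    B.A.valuation (valF HL P U) = 1 := by
  have h1 := val_le_one N U hs ht (fun P hP => le_of_eq (hord P hP).symm) hP
  have h2 := val_le_one N U⁻¹ hsi hti
    (fun P hP => by rw [P.ord_inv, hord P hP, neg_zero]) hP
  rw [valF_inv HL P hU0 (hord P hP), map_inv₀] at h2
  have hv0 : B.A.valuation (valF HL P U) ≠ 0 := by
    intro h
    rw [h, inv_zero] at h2
    have hUP : U ∈ P.toValuationSubring := ffp_mem_of_ord_nonneg P (le_of_eq (hord P hP).symm)
    rw [Valuation.zero_iff] at h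
    rcases (valF_eq_zero_iff HL P hUP).mp h with h' | h'
    · exact hU0 h'
    · rw [hord P hP] at h'
      exact lt_irrefl _ h'
  have h3 : 1 ≤ B.A.valuation (valF HL P U) := (inv_le_one₀ (zero_lt_iff.mpr hv0)).mp h2
  exact le_antisymm h1 h3

/-- **`|φ(P)| = |a_P|`** for a node function. -/
theorem val_eq_val_a (φ : F) (hφ : φ ≠ 0) (h0 : ∀ P ∈ N.ann, P.ord φ = 0) (hmem : φ ∈ S.G)
    (hord : N.Q.ord (S.red ⟨φ, hmem⟩) = 1) {P : Place L F} (hP : P ∈ N.ann) :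
    B.A.valuation (valF HL P φ) = B.A.valuation (N.a P) := by
  obtain ⟨c, U, hc, hφeq, hU0, hs, ht, hsi, hti, hUord⟩ := exists_decomp N φ hφ h0 hmem hord
  have hUP : U ∈ P.toValuationSubring := ffp_mem_of_ord_nonneg P (le_of_eq (hUord P hP).symm)
  have hxP := N.x_mem_place hP
  rw [hφeq, valF_mul HL P (mul_mem (P.algebraMap_mem' _) hxP) hUP,
    valF_mul HL P (P.algebraMap_mem' _) hxP, valF_algebraMap, map_mul, map_mul,
    val_eq_one_of_unit N U hU0 hs ht hsi hti hUord hP, mul_one]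
  have : B.A.valuation c = 1 := hc
  rw [this, one_mul]
  rfl

/-- **the ratio of the values of a node function is as close to `1` as the ratio of the annulus
coordinates.** -/
theorem val_ratio_sub_one_le (φ : F) (hφ : φ ≠ 0) (h0 : ∀ P ∈ N.ann, P.ord φ = 0) (hmem : φ ∈ S.G)
    (hord : N.Q.ord (S.red ⟨φ, hmem⟩) = 1) {P₁ P₂ : Place L F} (h₁ : P₁ ∈ N.ann) (h₂ : P₂ ∈ N.ann)
    (hle : B.A.valuation (N.a P₁ / N.a P₂ - 1) ≤ 1) :
    B.A.valuation (valF HL P₁ φ / valF HL P₂ φ - 1) ≤ B.A.valuation (N.a P₁ / N.a P₂ - 1) := by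
  obtain ⟨c, U, hc, hφeq, hU0, hs, ht, hsi, hti, hUord⟩ := exists_decomp N φ hφ h0 hmem hord
  have hUP : ∀ P ∈ N.ann, U ∈ P.toValuationSubring := fun P hP =>
    ffp_mem_of_ord_nonneg P (le_of_eq (hUord P hP).symm)
  have hval : ∀ P ∈ N.ann, valF HL P φ = c * N.a P * valF HL P U := fun P hP => by
    rw [hφeq, valF_mul HL P (mul_mem (P.algebraMap_mem' _) (N.x_mem_place hP)) (hUP P hP),
      valF_mul HL P (P.algebraMap_mem' _) (N.x_mem_place hP), valF_algebraMap]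
    rfl
  have hc0 : c ≠ 0 := hc.ne_zero
  have ha₂ : N.a P₂ ≠ 0 := N.a_ne P₂ h₂
  have hU₂1 := val_eq_one_of_unit N U hU0 hs ht hsi hti hUord h₂
  have hU₂0 : valF HL P₂ U ≠ 0 := by
    intro h
    rw [h, map_zero] at hU₂1
    exact zero_ne_one hU₂1
  set z : L := N.a P₁ / N.a P₂ with hz
  have hzle : B.A.valuation z ≤ 1 := by
    have : z = (z - 1) + 1 := by ring
    rw [this]
    exact (Valuation.map_add B.A.valuation _ _).trans (max_le hle (le_of_eq (map_one _)))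
  have hlip := val_sub_le N U hs ht (fun P hP => le_of_eq (hUord P hP).symm) h₁ h₂
  have key : valF HL P₁ φ / valF HL P₂ φ - 1 =
      z * ((valF HL P₁ U - valF HL P₂ U) / valF HL P₂ U) + (z - 1) := by
    rw [hval P₁ h₁, hval P₂ h₂, hz]
    field_simp
    ring
  rw [key]
  refine (Valuation.map_add B.A.valuation _ _).trans (max_le ?_ le_rfl)
  rw [map_mul, map_div₀ B.A.valuation (valF HL P₁ U - valF HL P₂ U) (valF HL P₂ U), hU₂1, div_one]
  calc B.A.valuation z * B.A.valuation (valF HL P₁ U - valF HL P₂ U)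
      ≤ 1 * B.A.valuation (valF HL P₁ U - valF HL P₂ U) := by gcongr
    _ = B.A.valuation (valF HL P₁ U - valF HL P₂ U) := one_mul _
    _ ≤ _ := hlip

end

/-! ### the node functions of a `T3Setting` -/

section Setting

open Fermat.Agent.ORD.SEMIRED.SemiRedDatum9 Fermat.Agent.MP.T3.Config2 Fermat.Agent.MP.T3.Iface2

variable {L F k Ft : Type*} [Field L] [Field F] [Algebra L F] [Field k] [Field Ft] [Algebra k Ft]
variable {ι E : Type*} {𝔻 : SemiRedDatum L F k Ft ι E} {Γ : Type*} [Group Γ] {p gen : ℕ}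

/-- the node functions are nonzero. -/
theorem Phi_ne_zero (G : T3Setting 𝔻 Γ p gen) (e : E) : G.Φ e ≠ 0 := by
  intro h
  have h1 := G.Φ_ord e
  have : (⟨G.Φ e, G.Φ_mem e⟩ : 𝔻.G (𝔻.src e)) = 0 := Subtype.ext h
  rw [this, map_zero, Place.ord_zero] at h1
  exact zero_ne_one h1

/-- **`|Φ_e(P)| = |a_P|`** on the annulus of `e`. -/
theorem Phi_val (G : T3Setting 𝔻 Γ p gen) (e : E) {P : Place L F} (hP : 𝔻.r P = Sum.inr e) :
    absv 𝔻 (valF 𝔻.HL P (G.Φ e)) = absv 𝔻 (acoord 𝔻 e P) :=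
  val_eq_val_a (𝔻.node e) (G.Φ e) (Phi_ne_zero G e)
    (fun P hP => G.Φ_ann e P ((𝔻.r_ann e P).mp hP)) (G.Φ_mem e) (G.Φ_ord e)
    ((𝔻.r_ann e P).mpr hP)

/-- **(LIP) for the node functions.** -/
theorem Phi_lip (G : T3Setting 𝔻 Γ p gen) (e : E) {P₁ P₂ : Place L F}
    (h₁ : 𝔻.r P₁ = Sum.inr e) (h₂ : 𝔻.r P₂ = Sum.inr e)
    (hle : absv 𝔻 (acoord 𝔻 e P₁ / acoord 𝔻 e P₂ - 1) ≤ 1) :
    absv 𝔻 (valF 𝔻.HL P₁ (G.Φ e) / valF 𝔻.HL P₂ (G.Φ e) - 1) ≤
      absv 𝔻 (acoord 𝔻 e P₁ / acoord 𝔻 e P₂ - 1) :=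
  val_ratio_sub_one_le (𝔻.node e) (G.Φ e) (Phi_ne_zero G e)
    (fun P hP => G.Φ_ann e P ((𝔻.r_ann e P).mp hP)) (G.Φ_mem e) (G.Φ_ord e)
    ((𝔻.r_ann e P₁).mpr h₁) ((𝔻.r_ann e P₂).mpr h₂) hle

end Setting

end Fermat.Agent.MP.T3.NodeMax6
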