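/-
Programme MP (row 38), chapter T3 (helper2): **places of a node annulus with a prescribed coordinate**.

`N : NodeChart B HL S S' Hk Hk'`.
* `exists_place_a_eq` (E1) : every `b` with `|π| < |b| < 1` is the coordinate `a_P = x(P)` of a place of
  the annulus ((N1) for `x − b`).
* `resL_valF_eq` (RC) : an integral function without poles on the annulus takes values on the annulus
  whose residue is the common branch value of its reductions.
* for a node function `φ` (`φ ∈ G`, no zero or pole on the annulus, `ord_Q red φ = 1`):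
  `existsUnique_place_eq` (E2) : every `b` with `|π| < |b| < 1` is the value of `φ` at EXACTLY ONE place
  of the annulus;  `exists_ratio_residue` (W) : `a_P / φ(P)` is a unit of `A` whose residue does not
  depend on `P`.
-/
import Mathlib
import Fermat.Agent.MP.T3.Local2
import Fermat.Agent.MP.T3.NodeMax6

set_option autoImplicit false
set_option linter.unusedSectionVars false
set_option linter.style.longLine false

namespace Fermat.Agent.MP.T3.AnnPlace2

open AlgebraicCurve Fermat.Agent.X0.FF Fermat.Agent.RR.LSpace Fermat.Agent.MW.EMB.Value6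
open Fermat.Agent.ORD.ANN.Side3 Fermat.Agent.ORD.ANN.Node3 Fermat.Agent.ORD.ANN.Matched3
open Fermat.Agent.MP.T3.Local2 Fermat.Agent.MP.T3.NodeMax6

noncomputable section

variable {L F k Ft Ft' : Type*} [Field L] [Field F] [Algebra L F] [Field k] [Field Ft] [Algebra k Ft]
  [Field Ft'] [Algebra k Ft']
variable {B : Base L k} {HL : LHyp L F} {S : Side B F Ft} {S' : Side B F Ft'}
  {Hk : LHyp k Ft} {Hk' : LHyp k Ft'} (N : NodeChart B HL S S' Hk Hk')

/-! ### a combinatorial lemma -/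

/-- positive integers summing to `1`: exactly one term. -/
theorem exists_eq_singleton_of_sum_eq_one {α : Type*} (s : Finset α) (m : α → ℤ)
    (hpos : ∀ x ∈ s, 0 < m x) (hsum : ∑ x ∈ s, m x = 1) : ∃ x0, s = {x0} ∧ m x0 = 1 := by
  classical
  have hcard : (s.card : ℤ) ≤ 1 := by
    have h1 : ∑ _x ∈ s, (1 : ℤ) ≤ ∑ x ∈ s, m x :=
      Finset.sum_le_sum fun x hx => by have := hpos x hx; omega
    rw [Finset.sum_const, nsmul_eq_mul, mul_one, hsum] at h1
    exact h1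
  have hne : s.Nonempty := by
    rw [Finset.nonempty_iff_ne_empty]
    rintro rfl
    rw [Finset.sum_empty] at hsum
    exact zero_ne_one hsum
  have hc1 : s.card = 1 := by
    have := Finset.card_pos.mpr hne
    omega
  obtain ⟨x0, hx0⟩ := Finset.card_eq_one.mp hc1
  refine ⟨x0, hx0, ?_⟩
  rw [hx0, Finset.sum_singleton] at hsum
  exact hsum

/-! ### `x − b` -/

theorem isNorm_sub_const {b : L} (hb : B.IsM b) :
    S.IsNorm 1 (N.x - algebraMap L F b) ∧ S.nred 1 (N.x - algebraMap L F b) = N.xb := by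
  have hmem : N.x - algebraMap L F b ∈ S.G := S.G.sub_mem N.x_mem (S.const_mem ⟨b, hb.mem⟩)
  have hred : S.red ⟨_, hmem⟩ = N.xb := by
    have e : (⟨_, hmem⟩ : S.G) = ⟨N.x, N.x_mem⟩ - S.const ⟨b, hb.mem⟩ := Subtype.ext rfl
    have h0 : B.res ⟨b, hb.mem⟩ = 0 := (B.res_eq_zero_iff _).mpr hb.not_isUnit
    rw [e, map_sub, S.red_const', h0, map_zero, sub_zero]
    rfl
  exact ⟨S.isNorm_one_of_mem hmem (by rw [hred]; exact N.xb_ne_zero),
    by rw [S.nred_one_of_mem hmem, hred]⟩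

theorem isNorm_sub_const' {b : L} (hb0 : b ≠ 0) (hq : B.IsM (N.π / b)) :
    S'.IsNorm (-b)⁻¹ (N.x - algebraMap L F b) ∧ S'.nred (-b)⁻¹ (N.x - algebraMap L F b) = 1 := by
  have hyinv : (algebraMap L F N.π * N.x⁻¹)⁻¹ ∈ S'.G :=
    S'.inv_mem (g := ⟨_, N.y_mem⟩) N.yb_ne_zero
  have e : algebraMap L F (-b)⁻¹ * (N.x - algebraMap L F b) =
      1 - algebraMap L F (N.π / b) * (algebraMap L F N.π * N.x⁻¹)⁻¹ := by
    have hπF : algebraMap L F N.π ≠ 0 := (map_ne_zero _).mpr N.π_ne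
    have hbF : algebraMap L F b ≠ 0 := (map_ne_zero _).mpr hb0
    rw [map_inv₀, map_neg, map_div₀, mul_inv, inv_inv]
    field_simp
    ring
  have hmem : algebraMap L F (-b)⁻¹ * (N.x - algebraMap L F b) ∈ S'.G := by
    rw [e]
    exact S'.G.sub_mem S'.G.one_mem (S'.G.mul_mem (S'.const_mem ⟨_, hq.mem⟩) hyinv)
  have hred : S'.red ⟨_, hmem⟩ = 1 := by
    have e' : (⟨_, hmem⟩ : S'.G) = 1 - S'.const ⟨_, hq.mem⟩ * ⟨_, hyinv⟩ := Subtype.ext e
    have h0 : B.res ⟨N.π / b, hq.mem⟩ = 0 := (B.res_eq_zero_iff _).mpr hq.not_isUnit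
    rw [e', map_sub, map_one, map_mul, S'.red_const', h0, map_zero, zero_mul, sub_zero]
  exact ⟨⟨hmem, by rw [hred]; exact one_ne_zero⟩, by rw [S'.nred_of_mem hmem, hred]⟩

/-- **(E1')** for `|π| < |b| < 1` the function `x − b` has exactly one zero on the annulus, a simple
one, at the place of coordinate `b`. -/
theorem exists_place_a_eq' {b : L} (hb0 : b ≠ 0) (hb : B.IsM b) (hq : B.IsM (N.π / b))
    (hψ0 : N.x - algebraMap L F b ≠ 0) :
    ∃ P ∈ N.ann, N.a P = b ∧ N.supp hψ0 = {P} ∧ P.ord (N.x - algebraMap L F b) = 1 := by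
  classical
  have h1 := isNorm_sub_const N hb
  have h2 := isNorm_sub_const' N hb0 hq
  have hsum := N.slope_add hψ0 h1.1 h2.1
  rw [h1.2, h2.2, N.ord_xb, Place.ord_one, add_zero] at hsum
  have hreg : ∀ P ∈ N.ann, N.x - algebraMap L F b ∈ P.toValuationSubring := fun P hP =>
    sub_mem (N.x_mem_place hP) (P.algebraMap_mem' _)
  have hpos : ∀ P ∈ N.supp hψ0, 0 < P.ord (N.x - algebraMap L F b) := by
    intro P hP
    have h3 := (N.mem_supp hψ0).mp hP
    have := ffp_ord_nonneg_of_mem P (hreg P h3.2)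
    omega
  obtain ⟨P0, hs, hm⟩ := exists_eq_singleton_of_sum_eq_one _ _ hpos hsum.symm
  have hP0 : P0 ∈ N.supp hψ0 := by rw [hs]; exact Finset.mem_singleton_self P0
  have hP0ann := N.mem_ann_of_mem_supp hψ0 hP0
  refine ⟨P0, hP0ann, ?_, hs, hm⟩
  have hv : valF HL P0 (N.x - algebraMap L F b) = 0 :=
    (valF_eq_zero_iff HL P0 (hreg P0 hP0ann)).mpr (Or.inr (hpos P0 hP0))
  rw [valF_sub HL P0 (N.x_mem_place hP0ann) (P0.algebraMap_mem' _), valF_algebraMap,
    sub_eq_zero] at hv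
  exact hv

/-- **(E1)** every `b` with `|π| < |b| < 1` is the coordinate of a place of the annulus. -/
theorem exists_place_a_eq {b : L} (hb0 : b ≠ 0) (hb : B.IsM b) (hq : B.IsM (N.π / b)) :
    ∃ P ∈ N.ann, N.a P = b := by
  obtain ⟨P, hP, ha, -, -⟩ := exists_place_a_eq' N hb0 hb hq (isNorm_sub_const N hb).1.ne_zero
  exact ⟨P, hP, ha⟩

/-! ### (RC) -/

/-- **(RC)** the residue of the value at a place of the annulus of an integral function without poles
on the annulus is the branch value of its reduction. -/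
theorem resL_valF_eq {U : F} (hs : U ∈ S.G) (ht : U ∈ S'.G) (hpf : ∀ P ∈ N.ann, 0 ≤ P.ord U)
    {P : Place L F} (hP : P ∈ N.ann) : B.resL (valF HL P U) = valF Hk N.Q (S.red ⟨U, hs⟩) := by
  set u : L := valF HL P U with hu
  have huA : u ∈ B.A := max_principle N hs ht hpf hP
  rw [B.resL_of_mem huA]
  set V : F := U - algebraMap L F u with hV
  have hVs : V ∈ S.G := S.G.sub_mem hs (S.const_mem ⟨u, huA⟩)
  have hVt : V ∈ S'.G := S'.G.sub_mem ht (S'.const_mem ⟨u, huA⟩)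
  have hUmem : ∀ P ∈ N.ann, U ∈ P.toValuationSubring := fun P hP => ffp_mem_of_ord_nonneg P (hpf P hP)
  have hVpf : ∀ P ∈ N.ann, 0 ≤ P.ord V := fun P hP =>
    ffp_ord_nonneg_of_mem P (sub_mem (hUmem P hP) (P.algebraMap_mem' _))
  have hVred : S.red ⟨V, hVs⟩ = S.red ⟨U, hs⟩ - algebraMap k Ft (B.res ⟨u, huA⟩) := by
    have e : (⟨V, hVs⟩ : S.G) = ⟨U, hs⟩ - S.const ⟨u, huA⟩ := Subtype.ext rfl
    rw [e, map_sub, S.red_const']
  have hUreg := (NodeChartAux.matched N U hs ht hpf).1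
  have hUmemQ : S.red ⟨U, hs⟩ ∈ N.Q.toValuationSubring := ffp_mem_of_ord_nonneg _ hUreg
  by_cases hV0 : V = 0
  · have e : (⟨V, hVs⟩ : S.G) = 0 := Subtype.ext hV0
    rw [e, map_zero] at hVred
    rw [sub_eq_zero.mp hVred.symm, valF_algebraMap]
  · have hpos : 0 < P.ord V := by
      rw [hV, hu]
      exact ord_sub_valF_pos HL P (hUmem P hP) (fun h => hV0 (by rw [hV, hu, ← h, sub_self]))
    have h4 := (NodeChartAux.matched N V hVs hVt hVpf).2.2.2 ⟨P, hP, hpos⟩
    rw [hVred, valF_sub Hk N.Q hUmemQ (N.Q.algebraMap_mem' _), valF_algebraMap, sub_eq_zero] at h4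
    exact h4.symm

/-! ### node functions -/

/-- `g − b` with `g ∈ G`, nonzero reduction, `|b| < 1`. -/
theorem isNorm_sub_const_gen (T : Side B F Ft) {g : F} (hg : g ∈ T.G) (hred : T.red ⟨g, hg⟩ ≠ 0)
    {b : L} (hb : B.IsM b) :
    T.IsNorm 1 (g - algebraMap L F b) ∧ T.nred 1 (g - algebraMap L F b) = T.red ⟨g, hg⟩ := by
  have hmem : g - algebraMap L F b ∈ T.G := T.G.sub_mem hg (T.const_mem ⟨b, hb.mem⟩)
  have hr : T.red ⟨_, hmem⟩ = T.red ⟨g, hg⟩ := by
    have e : (⟨_, hmem⟩ : T.G) = ⟨g, hg⟩ - T.const ⟨b, hb.mem⟩ := Subtype.ext rfl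
    have h0 : B.res ⟨b, hb.mem⟩ = 0 := (B.res_eq_zero_iff _).mpr hb.not_isUnit
    rw [e, map_sub, T.red_const', h0, map_zero, sub_zero]
  exact ⟨T.isNorm_one_of_mem hmem (by rw [hr]; exact hred), by rw [T.nred_one_of_mem hmem, hr]⟩

/-- `φ − b` on the far side, for `φ = c x U`. -/
theorem isNorm_phi_sub_const' {c : L} {U : F} (hc : B.IsU c) (hU' : U ∈ S'.G) {b : L} (hb0 : b ≠ 0)
    (hq : B.IsM (N.π / b)) :
    S'.IsNorm (-b)⁻¹ (algebraMap L F c * N.x * U - algebraMap L F b) ∧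
      S'.nred (-b)⁻¹ (algebraMap L F c * N.x * U - algebraMap L F b) = 1 := by
  have hyinv : (algebraMap L F N.π * N.x⁻¹)⁻¹ ∈ S'.G :=
    S'.inv_mem (g := ⟨_, N.y_mem⟩) N.yb_ne_zero
  have hcq : B.IsM (c * (N.π / b)) := by
    have h1 : B.A.valuation (c * (N.π / b)) = B.A.valuation (N.π / b) := by
      rw [map_mul, (hc : B.A.valuation c = 1), one_mul]
    rw [Base.IsM, h1]; exact hq
  have e : algebraMap L F (-b)⁻¹ * (algebraMap L F c * N.x * U - algebraMap L F b) =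
      1 - algebraMap L F (c * (N.π / b)) * (U * (algebraMap L F N.π * N.x⁻¹)⁻¹) := by
    have hπF : algebraMap L F N.π ≠ 0 := (map_ne_zero _).mpr N.π_ne
    have hbF : algebraMap L F b ≠ 0 := (map_ne_zero _).mpr hb0
    have hx : N.x ≠ 0 := N.x_ne_zero
    rw [map_inv₀, map_neg, map_mul, map_div₀, mul_inv, inv_inv]
    field_simp
    ring
  have hmem : algebraMap L F (-b)⁻¹ * (algebraMap L F c * N.x * U - algebraMap L F b) ∈ S'.G := by
    rw [e]
    exact S'.G.sub_mem S'.G.one_mem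
      (S'.G.mul_mem (S'.const_mem ⟨_, hcq.mem⟩) (S'.G.mul_mem hU' hyinv))
  have hred : S'.red ⟨_, hmem⟩ = 1 := by
    have e' : (⟨_, hmem⟩ : S'.G) = 1 - S'.const ⟨_, hcq.mem⟩ * (⟨U, hU'⟩ * ⟨_, hyinv⟩) :=
      Subtype.ext e
    have h0 : B.res ⟨c * (N.π / b), hcq.mem⟩ = 0 := (B.res_eq_zero_iff _).mpr hcq.not_isUnit
    rw [e', map_sub, map_one, map_mul, S'.red_const', h0, map_zero, zero_mul, sub_zero]
  exact ⟨⟨hmem, by rw [hred]; exact one_ne_zero⟩, by rw [S'.nred_of_mem hmem, hred]⟩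

/-- **(E2)** a node function takes every value `b`, `|π| < |b| < 1`, at exactly one place of the
annulus. -/
theorem existsUnique_place_eq (φ : F) (hφ : φ ≠ 0) (h0 : ∀ P ∈ N.ann, P.ord φ = 0) (hmem : φ ∈ S.G)
    (hord : N.Q.ord (S.red ⟨φ, hmem⟩) = 1) {b : L} (hb0 : b ≠ 0) (hb : B.IsM b)
    (hq : B.IsM (N.π / b)) :
    ∃ P ∈ N.ann, valF HL P φ = b ∧ ∀ P' ∈ N.ann, valF HL P' φ = b → P' = P := by
  classical
  obtain ⟨c, U, hc, hφeq, hU0, hs, ht, hsi, hti, hUord⟩ := exists_decomp N φ hφ h0 hmem hord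
  have hred0 : S.red ⟨φ, hmem⟩ ≠ 0 := by
    intro h
    rw [h, Place.ord_zero] at hord
    exact zero_ne_one hord
  set ψ : F := φ - algebraMap L F b with hψ
  have h1 := isNorm_sub_const_gen S hmem hred0 hb
  have h2 := isNorm_phi_sub_const' N hc ht hb0 hq
  rw [← hφeq] at h2
  have hψ0 : ψ ≠ 0 := h1.1.ne_zero
  have hsum := N.slope_add hψ0 h1.1 h2.1
  rw [h1.2, h2.2, hord, Place.ord_one, add_zero] at hsum
  have hφP : ∀ P ∈ N.ann, φ ∈ P.toValuationSubring := fun P hP =>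
    ffp_mem_of_ord_nonneg P (le_of_eq (h0 P hP).symm)
  have hreg : ∀ P ∈ N.ann, ψ ∈ P.toValuationSubring := fun P hP =>
    sub_mem (hφP P hP) (P.algebraMap_mem' _)
  have hpos : ∀ P ∈ N.supp hψ0, 0 < P.ord ψ := by
    intro P hP
    have h3 := (N.mem_supp hψ0).mp hP
    have := ffp_ord_nonneg_of_mem P (hreg P h3.2)
    omega
  obtain ⟨P0, hs0, -⟩ := exists_eq_singleton_of_sum_eq_one _ _ hpos hsum.symm
  have hP0 : P0 ∈ N.supp hψ0 := by rw [hs0]; exact Finset.mem_singleton_self P0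
  have hP0ann := N.mem_ann_of_mem_supp hψ0 hP0
  have hvalψ : ∀ P ∈ N.ann, valF HL P ψ = valF HL P φ - b := fun P hP => by
    rw [hψ, valF_sub HL P (hφP P hP) (P.algebraMap_mem' _), valF_algebraMap]
  refine ⟨P0, hP0ann, ?_, fun P' hP' hv => ?_⟩
  · have hv : valF HL P0 ψ = 0 :=
      (valF_eq_zero_iff HL P0 (hreg P0 hP0ann)).mpr (Or.inr (hpos P0 hP0))
    rw [hvalψ P0 hP0ann, sub_eq_zero] at hv
    exact hv
  · have hv' : valF HL P' ψ = 0 := by rw [hvalψ P' hP', hv, sub_self]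
    rcases (valF_eq_zero_iff HL P' (hreg P' hP')).mp hv' with h | h
    · exact absurd h hψ0
    · have : P' ∈ N.supp hψ0 := (N.mem_supp hψ0).mpr ⟨by omega, hP'⟩
      rw [hs0, Finset.mem_singleton] at this
      exact this

/-- **(W)** the ratio `φ(P) / a_P` of a node function is a unit whose residue does not depend on the
place `P` of the annulus. -/
theorem exists_ratio_residue (φ : F) (hφ : φ ≠ 0) (h0 : ∀ P ∈ N.ann, P.ord φ = 0) (hmem : φ ∈ S.G)
    (hord : N.Q.ord (S.red ⟨φ, hmem⟩) = 1) :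
    ∃ w : k, ∀ P ∈ N.ann, ∃ ω : L, B.IsU ω ∧ B.resL ω = w ∧ valF HL P φ = ω * N.a P := by
  obtain ⟨c, U, hc, hφeq, hU0, hs, ht, hsi, hti, hUord⟩ := exists_decomp N φ hφ h0 hmem hord
  have hpf : ∀ P ∈ N.ann, 0 ≤ P.ord U := fun P hP => le_of_eq (hUord P hP).symm
  have hUP : ∀ P ∈ N.ann, U ∈ P.toValuationSubring := fun P hP => ffp_mem_of_ord_nonneg P (hpf P hP)
  have hunit : ∀ P ∈ N.ann, B.IsU (valF HL P U) := fun P hP =>
    val_eq_one_of_unit N U hU0 hs ht hsi hti hUord hP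
  have hres : ∀ P ∈ N.ann, B.resL (valF HL P U) = valF Hk N.Q (S.red ⟨U, hs⟩) := fun P hP =>
    resL_valF_eq N hs ht hpf hP
  have hval : ∀ P ∈ N.ann, valF HL P φ = c * valF HL P U * N.a P := fun P hP => by
    rw [hφeq, valF_mul HL P (mul_mem (P.algebraMap_mem' _) (N.x_mem_place hP)) (hUP P hP),
      valF_mul HL P (P.algebraMap_mem' _) (N.x_mem_place hP), valF_algebraMap]
    show c * N.a P * valF HL P U = c * valF HL P U * N.a P
    ring
  refine ⟨B.resL c * valF Hk N.Q (S.red ⟨U, hs⟩), fun P hP => ?_⟩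
  refine ⟨c * valF HL P U, hc.mul (hunit P hP), ?_, hval P hP⟩
  rw [B.resL_mul hc.mem (hunit P hP).mem, hres P hP]

end

end Fermat.Agent.MP.T3.AnnPlace2
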