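/-
Programme MP (row 38), chapter T3 (helper2): **`Γ`-fixed divisors on a node annulus with prescribed
degree and torus coordinate**, and the annulus data of a configuration.

`G : T3Setting 𝔻 Γ p gen`, `5 ≤ p`.
* `exists_fixed_place` : for a `Γ`-fixed `b`, `|π_e| < |b| < 1`, the unique place `R` of the annulus
  of `e` with `Φ_e(R) = b` is `Γ`-fixed;
* `exists_edge_div` (EDGE) : for `u M : ℤ` and `ρ ∈ kˣ` there is a `Γ`-fixed divisor `Fe` supported on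
  the annulus of `e` with `annSum Fe e = u` and `annProd Fe e = λ^M ω`, `ω` a unit of residue `ρ`;
* `annSum_config`, `annProd_config` : the annulus sums and torus coordinates of `C.div`.
-/
import Mathlib
import Fermat.Agent.MP.T3.AnnPlace2
import Fermat.Agent.MP.T3.AnnAlg2
import Fermat.Agent.MW.EMB.GalVal1

set_option autoImplicit false
set_option linter.unusedSectionVars false
set_option linter.style.longLine false

namespace Fermat.Agent.MP.T3.EdgeDiv2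

open AlgebraicCurve Fermat.Agent.X0.FF Fermat.Agent.RR.LSpace Fermat.Agent.MW.EMB.Value6
open Fermat.Agent.ORD.ANN.Side3 Fermat.Agent.ORD.ANN.Node3 Fermat.Agent.ORD.ANN.SemiRed3
open Fermat.Agent.ORD.SEMIRED.SemiRedDatum9 Fermat.Agent.ORD.SEMIRED.ToSemiRed9
open Fermat.Agent.ORD.KERN.KerDefs9 Fermat.Agent.ORD.KERN.KerN9
open Fermat.Agent.MP.TAU.KumCrit3 Fermat.Agent.MP.T3.Config2 Fermat.Agent.MP.T3.Iface2
open Fermat.Agent.MP.T3.AnnAlg2 Fermat.Agent.MP.T3.AnnPlace2 Fermat.Agent.MP.T3.NodeMax6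

noncomputable section

variable {L F k Ft : Type*} [Field L] [Field F] [Algebra L F] [Field k] [Field Ft] [Algebra k Ft]
variable {ι E : Type*} {𝔻 : SemiRedDatum L F k Ft ι E}

/-! ### residues of integer powers -/

theorem resL_zpow {B : Base L k} {z : L} (hz : B.IsU z) (n : ℤ) :
    B.resL (z ^ n) = B.resL z ^ n := by
  cases n with
  | ofNat n => rw [Int.ofNat_eq_natCast, zpow_natCast, zpow_natCast, resL_pow hz]
  | negSucc n =>
    rw [zpow_negSucc, zpow_negSucc, ← resL_pow hz]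
    have h1 : B.IsU (z ^ (n + 1)) := by
      have := hz.zpow ((n + 1 : ℕ) : ℤ)
      rwa [zpow_natCast] at this
    exact h1.resL_inv

/-! ### the absolute value -/

theorem absv_mul (x y : L) : absv 𝔻 (x * y) = absv 𝔻 x * absv 𝔻 y := map_mul _ _ _

theorem absv_div (x y : L) : absv 𝔻 (x / y) = absv 𝔻 x / absv 𝔻 y := map_div₀ _ _ _

theorem absv_inv (x : L) : absv 𝔻 x⁻¹ = (absv 𝔻 x)⁻¹ := map_inv₀ _ _

theorem absv_pow (x : L) (n : ℕ) : absv 𝔻 (x ^ n) = absv 𝔻 x ^ n := map_pow _ _ _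

theorem absv_zpow (x : L) (n : ℤ) : absv 𝔻 (x ^ n) = absv 𝔻 x ^ n := map_zpow₀ _ _ _

theorem absv_one : absv 𝔻 (1 : L) = 1 := map_one _

theorem absv_ne_zero {x : L} (hx : x ≠ 0) : absv 𝔻 x ≠ 0 := (Valuation.ne_zero_iff _).mpr hx

theorem absv_of_isU {x : L} (hx : 𝔻.B.IsU x) : absv 𝔻 x = 1 := hx

variable {Γ : Type*} [Group Γ] {p gen : ℕ} (G : T3Setting 𝔻 Γ p gen)

/-! ### the range of the annulus -/

theorem absv_lam_ne_zero : absv 𝔻 G.lam ≠ 0 := (Valuation.ne_zero_iff _).mpr G.lam_ne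

theorem thick' (e : E) : absv 𝔻 (𝔻.π e) = absv 𝔻 G.lam ^ (p - 1) := by
  rw [G.thick e, G.p_eq]

theorem isM_pi_div (hp5 : 5 ≤ p) (e : E) {b : L} {j : ℕ} (hj : j ≤ 2)
    (hb : absv 𝔻 b = absv 𝔻 G.lam ^ j) : 𝔻.B.IsM (𝔻.π e / b) := by
  have hl := absv_lam_ne_zero G
  have hpj : p - 1 = j + (p - 1 - j) := by omega
  show absv 𝔻 (𝔻.π e / b) < 1
  rw [absv_div, thick' G e, hb, hpj, pow_add, mul_div_cancel_left₀ _ (pow_ne_zero _ hl)]
  exact pow_lt_one₀ zero_le G.lam_lt (by omega)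

/-! ### `Γ`-fixed places of an annulus -/

theorem exists_fixed_place (e : E) {b : L} (hb0 : b ≠ 0) (hb : 𝔻.B.IsM b)
    (hq : 𝔻.B.IsM (𝔻.π e / b)) (hfix : ∀ γ, SemilinearAut.baseAut (G.ρ γ) b = b) :
    ∃ R : Place L F, 𝔻.r R = Sum.inr e ∧ valF 𝔻.HL R (G.Φ e) = b ∧ ∀ γ, G.ρ γ • R = R := by
  have h0 : ∀ P ∈ (𝔻.node e).ann, P.ord (G.Φ e) = 0 := fun P hP =>
    G.Φ_ann e P ((𝔻.r_ann e P).mp hP)
  obtain ⟨R, hRann, hRv, hRuniq⟩ := existsUnique_place_eq (𝔻.node e) (G.Φ e) (Phi_ne_zero G e) h0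
    (G.Φ_mem e) (G.Φ_ord e) hb0 hb hq
  have hRr := (𝔻.r_ann e R).mp hRann
  refine ⟨R, hRr, hRv, fun γ => ?_⟩
  apply hRuniq
  · exact (𝔻.r_ann e _).mpr (by rw [G.triv γ R]; exact hRr)
  · have h1 := Fermat.Agent.MW.EMB.GalVal1.valF_smul 𝔻.HL (G.ρ γ) R (G.Φ e)
    rw [G.Φ_fix γ e, hRv, hfix γ] at h1
    exact h1

/-- the three-point support. -/
theorem support_three {α : Type*} (a b c : α) (x y z : ℤ) (P : α)
    (h : (Finsupp.single a x + Finsupp.single b y + Finsupp.single c z) P ≠ 0) :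
    P = a ∨ P = b ∨ P = c := by
  classical
  by_contra hne
  push Not at hne
  apply h
  rw [Finsupp.add_apply, Finsupp.add_apply, Finsupp.single_apply, Finsupp.single_apply,
    Finsupp.single_apply, if_neg (fun h' => hne.1 h'.symm), if_neg (fun h' => hne.2.1 h'.symm),
    if_neg (fun h' => hne.2.2 h'.symm)]
  rfl

/-- **(EDGE)** -/
theorem exists_edge_div (hp5 : 5 ≤ p) (e : E) (u M : ℤ) (ρ : k) (hρ : ρ ≠ 0) :
    ∃ Fe : Divisor L F, DivFixed G Fe ∧ (∀ P, Fe P ≠ 0 → 𝔻.r P = Sum.inr e) ∧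
      (toSemiRed 𝔻).annSum Fe e = u ∧
      ∃ ω : L, 𝔻.B.IsU ω ∧ 𝔻.B.resL ω = ρ ∧ (toSemiRed 𝔻).annProd Fe e = G.lam ^ M * ω := by
  classical
  have hl := absv_lam_ne_zero G
  have hlam0 : G.lam ≠ 0 := G.lam_ne
  have h0 : ∀ P ∈ (𝔻.node e).ann, P.ord (G.Φ e) = 0 := fun P hP =>
    G.Φ_ann e P ((𝔻.r_ann e P).mp hP)
  obtain ⟨w, hw⟩ := exists_ratio_residue (𝔻.node e) (G.Φ e) (Phi_ne_zero G e) h0
    (G.Φ_mem e) (G.Φ_ord e)
  -- the places `R1`, `R2`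
  obtain ⟨R1, hR1r, hR1v, hR1f⟩ := exists_fixed_place G e (b := G.lam) hlam0 G.lam_lt
    (isM_pi_div G hp5 e (j := 1) (by omega) (by rw [pow_one])) G.lam_fix
  have hlam2 : absv 𝔻 (G.lam ^ 2) = absv 𝔻 G.lam ^ 2 := absv_pow _ _
  obtain ⟨R2, hR2r, hR2v, hR2f⟩ := exists_fixed_place G e (b := G.lam ^ 2) (pow_ne_zero 2 hlam0)
    (by show absv 𝔻 (G.lam ^ 2) < 1
        rw [hlam2]; exact pow_lt_one₀ zero_le G.lam_lt (by omega))
    (isM_pi_div G hp5 e (j := 2) (by omega) hlam2)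
    (fun γ => by rw [map_pow, G.lam_fix γ])
  obtain ⟨ω1, hω1u, hω1r, hω1v⟩ := hw R1 ((𝔻.r_ann e R1).mpr hR1r)
  obtain ⟨ω2, hω2u, hω2r, hω2v⟩ := hw R2 ((𝔻.r_ann e R2).mpr hR2r)
  have hw0 : w ≠ 0 := by rw [← hω1r]; exact hω1u.resL_ne_zero
  -- the Teichmüller lift
  obtain ⟨τ, hτres, hτfix⟩ := G.teich (ρ * w ^ u)
  have hτunit : IsUnit τ := by
    by_contra hnu
    have := (𝔻.B.res_eq_zero_iff τ).mpr hnu
    rw [hτres] at this
    exact mul_ne_zero hρ (zpow_ne_zero _ hw0) this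
  have hτu : 𝔻.B.IsU (τ : L) := Base.isU_of_isUnit hτunit
  have hτ0 : (τ : L) ≠ 0 := hτu.ne_zero
  have hlamτ : absv 𝔻 (G.lam * τ) = absv 𝔻 G.lam ^ 1 := by
    rw [absv_mul, absv_of_isU hτu, mul_one, pow_one]
  obtain ⟨Rτ, hRτr, hRτv, hRτf⟩ := exists_fixed_place G e (b := G.lam * τ) (mul_ne_zero hlam0 hτ0)
    (by show absv 𝔻 (G.lam * τ) < 1
        rw [hlamτ, pow_one]; exact G.lam_lt)
    (isM_pi_div G hp5 e (j := 1) (by omega) hlamτ)
    (fun γ => by rw [map_mul, G.lam_fix γ, hτfix γ])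
  obtain ⟨ωτ, hωτu, hωτr, hωτv⟩ := hw Rτ ((𝔻.r_ann e Rτ).mpr hRτr)
  -- the coordinates
  have hω10 := hω1u.ne_zero
  have hω20 := hω2u.ne_zero
  have hωτ0 := hωτu.ne_zero
  have ha1 : acoord 𝔻 e R1 = G.lam / ω1 := by
    rw [hR1v] at hω1v
    rw [eq_div_iff hω10, mul_comm]; exact hω1v.symm
  have ha2 : acoord 𝔻 e R2 = G.lam ^ 2 / ω2 := by
    rw [hR2v] at hω2v
    rw [eq_div_iff hω20, mul_comm]; exact hω2v.symm
  have haτ : acoord 𝔻 e Rτ = G.lam * τ / ωτ := by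
    rw [hRτv] at hωτv
    rw [eq_div_iff hωτ0, mul_comm]; exact hωτv.symm
  set m1 : ℤ := 2 * u - M with hm1
  set m2 : ℤ := M - u with hm2
  refine ⟨Finsupp.single Rτ 1 + Finsupp.single R1 (m1 - 1) + Finsupp.single R2 m2, ?_, ?_, ?_,
    (τ : L) * ωτ⁻¹ * (ω1 ^ (m1 - 1))⁻¹ * (ω2 ^ m2)⁻¹, ?_, ?_, ?_⟩
  · intro γ
    rw [smul_add, smul_add, SemilinearAut.smul_single, SemilinearAut.smul_single,
      SemilinearAut.smul_single, hRτf γ, hR1f γ, hR2f γ]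
  · intro P hP
    rcases support_three _ _ _ _ _ _ P hP with h | h | h
    · rw [h]; exact hRτr
    · rw [h]; exact hR1r
    · rw [h]; exact hR2r
  · rw [annSum_add, annSum_add, annSum_single_of_mem 𝔻 hRτr, annSum_single_of_mem 𝔻 hR1r,
      annSum_single_of_mem 𝔻 hR2r, hm1, hm2]
    ring
  · exact ((hτu.mul hωτu.inv).mul (hω1u.zpow _).inv).mul (hω2u.zpow _).inv
  · have hA1 : (τ : L) * ωτ⁻¹ ∈ 𝔻.B.A := (hτu.mul hωτu.inv).mem
    have hA2 : (τ : L) * ωτ⁻¹ * (ω1 ^ (m1 - 1))⁻¹ ∈ 𝔻.B.A :=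
      ((hτu.mul hωτu.inv).mul (hω1u.zpow _).inv).mem
    rw [𝔻.B.resL_mul hA2 (hω2u.zpow _).inv.mem, 𝔻.B.resL_mul hA1 (hω1u.zpow _).inv.mem,
      𝔻.B.resL_mul hτu.mem hωτu.inv.mem, (hω2u.zpow _).resL_inv, (hω1u.zpow _).resL_inv,
      hωτu.resL_inv, resL_zpow hω1u, resL_zpow hω2u, hω1r, hω2r, hωτr, 𝔻.B.resL_coe, hτres]
    have e1 : ρ * w ^ u * w⁻¹ * (w ^ (m1 - 1))⁻¹ * (w ^ m2)⁻¹ =
        ρ * (w ^ u * w ^ (-1 : ℤ) * w ^ (-(m1 - 1)) * w ^ (-m2)) := by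
      rw [zpow_neg, zpow_neg, zpow_neg, zpow_one]
      ring
    rw [e1, ← zpow_add₀ hw0, ← zpow_add₀ hw0, ← zpow_add₀ hw0]
    have e2 : u + -1 + -(m1 - 1) + -m2 = 0 := by rw [hm1, hm2]; ring
    rw [e2, zpow_zero, mul_one]
  · rw [annProd_add, annProd_add, annProd_single_of_mem 𝔻 hRτr, annProd_single_of_mem 𝔻 hR1r,
      annProd_single_of_mem 𝔻 hR2r, haτ, ha1, ha2, zpow_one, div_zpow, div_zpow,
      ← zpow_natCast G.lam 2, ← zpow_mul]
    have hM : G.lam ^ M = G.lam * G.lam ^ (m1 - 1) * G.lam ^ (((2 : ℕ) : ℤ) * m2) := by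
      have : M = 1 + (m1 - 1) + ((2 : ℕ) : ℤ) * m2 := by rw [hm1, hm2]; push_cast; ring
      conv_lhs => rw [this]
      rw [zpow_add₀ hlam0, zpow_add₀ hlam0, zpow_one]
    rw [hM]
    have h3 : ω1 ^ (m1 - 1) ≠ 0 := zpow_ne_zero _ hω10
    have h4 : ω2 ^ m2 ≠ 0 := zpow_ne_zero _ hω20
    field_simp

/-! ### the annulus data of a configuration -/

variable {g : ℕ} {S : ASystem 𝔻 g}

open Classical in
theorem annSum_config (C : Config S) (e : E) :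
    (toSemiRed 𝔻).annSum C.div e = if e ∈ S.A then 1 else 0 := by
  rw [Config.div, annSum_add, annSum_finsetSum, annSum_finsetSum,
    Finset.sum_eq_zero (fun i _ => annSum_single_of_ne 𝔻 (by rw [S.S0.r_pt]; simp) 1), zero_add]
  by_cases he : e ∈ S.A
  · rw [if_pos he, Finset.sum_eq_single_of_mem e he, annSum_single_of_mem 𝔻 (C.hPe e he)]
    intro e' he' hne
    refine annSum_single_of_ne 𝔻 ?_ 1
    rw [C.hPe e' he']
    exact fun h => hne (Sum.inr.inj h)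
  · rw [if_neg he]
    refine Finset.sum_eq_zero fun e' he' => annSum_single_of_ne 𝔻 ?_ 1
    rw [C.hPe e' he']
    exact fun h => he (Sum.inr.inj h ▸ he')

open Classical in
theorem annProd_config (C : Config S) (e : E) :
    (toSemiRed 𝔻).annProd C.div e = if e ∈ S.A then acoord 𝔻 e (C.Pe e) else 1 := by
  rw [Config.div, annProd_add, annProd_finsetSum, annProd_finsetSum,
    Finset.prod_eq_one (fun i _ => annProd_single_of_ne 𝔻 (by rw [S.S0.r_pt]; simp) 1), one_mul]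
  by_cases he : e ∈ S.A
  · rw [if_pos he, Finset.prod_eq_single_of_mem e he, annProd_single_of_mem 𝔻 (C.hPe e he), zpow_one]
    intro e' he' hne
    refine annProd_single_of_ne 𝔻 ?_ 1
    rw [C.hPe e' he']
    exact fun h => hne (Sum.inr.inj h)
  · rw [if_neg he]
    refine Finset.prod_eq_one fun e' he' => annProd_single_of_ne 𝔻 ?_ 1
    rw [C.hPe e' he']
    exact fun h => he (Sum.inr.inj h ▸ he')

end

end Fermat.Agent.MP.T3.EdgeDiv2
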