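/-
Programme MP (row 38), chapter T3 (helper2): **the annulus part of the rigid representative, edge by
edge.**  `α` is the torus coordinate of the Kummer divisor at `e`, `|α|^p = |λ|^J`.

* `exists_edge_out` : if `p ∣ J` there is a `Γ`-fixed divisor `Fe` on the annulus of `e`, of prescribed
  degree, with `α · annProd Fe e` a unit of prescribed residue;
* `exists_edge_in` : if `p ∤ J` there are such an `Fe` and a place `Pe` of the annulus of fractional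
  radius `|a(Pe)|^p = |λ|^j`, `p ∤ j`, with `α · annProd Fe e / a(Pe)` a unit of prescribed residue.
-/
import Mathlib
import Fermat.Agent.MP.T3.EdgeDiv2

set_option autoImplicit false
set_option linter.unusedSectionVars false
set_option linter.style.longLine false

namespace Fermat.Agent.MP.T3.EdgeData2

open AlgebraicCurve Fermat.Agent.X0.FF Fermat.Agent.RR.LSpace Fermat.Agent.MW.EMB.Value6
open Fermat.Agent.ORD.ANN.Side3 Fermat.Agent.ORD.ANN.Node3 Fermat.Agent.ORD.ANN.SemiRed3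
open Fermat.Agent.ORD.SEMIRED.SemiRedDatum9 Fermat.Agent.ORD.SEMIRED.ToSemiRed9
open Fermat.Agent.MP.T3.Config2 Fermat.Agent.MP.T3.Iface2
open Fermat.Agent.MP.T3.AnnAlg2 Fermat.Agent.MP.T3.AnnPlace2 Fermat.Agent.MP.T3.EdgeDiv2

noncomputable section

variable {L F k Ft : Type*} [Field L] [Field F] [Algebra L F] [Field k] [Field Ft] [Algebra k Ft]
variable {ι E : Type*} {𝔻 : SemiRedDatum L F k Ft ι E}
variable {Γ : Type*} [Group Γ] {p gen : ℕ} (G : T3Setting 𝔻 Γ p gen)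

theorem exists_edge_out (hp : p.Prime) (hp5 : 5 ≤ p) (e : E) (u : ℤ) {α : L} {J : ℤ}
    (hJ : absv 𝔻 α ^ p = absv 𝔻 G.lam ^ J) (hdvd : (p : ℤ) ∣ J) {ρ0 : k} (hρ0 : ρ0 ≠ 0) :
    ∃ Fe : Divisor L F, DivFixed G Fe ∧ (∀ P, Fe P ≠ 0 → 𝔻.r P = Sum.inr e) ∧
      (toSemiRed 𝔻).annSum Fe e = u ∧ 𝔻.B.IsU (α * (toSemiRed 𝔻).annProd Fe e) ∧
      𝔻.B.resL (α * (toSemiRed 𝔻).annProd Fe e) = ρ0 := by
  have hl := absv_lam_ne_zero G
  obtain ⟨k', rfl⟩ := hdvd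
  have hα' : absv 𝔻 α = absv 𝔻 G.lam ^ k' := by
    have h1 : absv 𝔻 α ^ p = (absv 𝔻 G.lam ^ k') ^ p := by
      rw [hJ, ← zpow_natCast (absv 𝔻 G.lam ^ k') p, ← zpow_mul, mul_comm]
    exact (pow_left_inj₀ zero_le zero_le hp.ne_zero).mp h1
  set β : L := α * G.lam ^ (-k') with hβdef
  have hβ : 𝔻.B.IsU β := by
    show absv 𝔻 β = 1
    rw [hβdef, absv_mul, absv_zpow, hα', ← zpow_add₀ hl, add_neg_cancel, zpow_zero]
  obtain ⟨Fe, hfix, hsupp, hsum, ω, hωu, hωr, hprod⟩ :=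
    exists_edge_div G hp5 e u (-k') (ρ0 / 𝔻.B.resL β) (div_ne_zero hρ0 hβ.resL_ne_zero)
  have e1 : α * (toSemiRed 𝔻).annProd Fe e = β * ω := by
    rw [hprod, hβdef]; ring
  refine ⟨Fe, hfix, hsupp, hsum, ?_, ?_⟩
  · rw [e1]; exact hβ.mul hωu
  · rw [e1, 𝔻.B.resL_mul hβ.mem hωu.mem, hωr, mul_div_cancel₀ _ hβ.resL_ne_zero]

theorem exists_edge_in (hp : p.Prime) (hp5 : 5 ≤ p) (e : E) (u : ℤ) {α : L} (hα : α ≠ 0) {J : ℤ}
    (hJ : absv 𝔻 α ^ p = absv 𝔻 G.lam ^ J) (hndvd : ¬ (p : ℤ) ∣ J) {ρ0 : k} (hρ0 : ρ0 ≠ 0) :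
    ∃ (Fe : Divisor L F) (Pe : Place L F), DivFixed G Fe ∧ (∀ P, Fe P ≠ 0 → 𝔻.r P = Sum.inr e) ∧
      (toSemiRed 𝔻).annSum Fe e = u ∧ 𝔻.r Pe = Sum.inr e ∧
      (∃ j : ℤ, ¬ (p : ℤ) ∣ j ∧ absv 𝔻 (acoord 𝔻 e Pe) ^ p = absv 𝔻 G.lam ^ j) ∧
      𝔻.B.IsU (α * (toSemiRed 𝔻).annProd Fe e / acoord 𝔻 e Pe) ∧
      𝔻.B.resL (α * (toSemiRed 𝔻).annProd Fe e / acoord 𝔻 e Pe) = ρ0 := by
  have hl := absv_lam_ne_zero G
  have hl0 : 0 < absv 𝔻 G.lam := zero_lt_iff.mpr hl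
  have hpZ : (0 : ℤ) < (p : ℤ) := by exact_mod_cast hp.pos
  set q : ℤ := J / p with hq
  set j : ℤ := J % p with hj
  have hj0 : 0 < j := (Int.emod_pos_of_not_dvd hndvd).resolve_left hpZ.ne'
  have hjp : j < p := Int.emod_lt_of_pos J hpZ
  have hJq : J = p * q + j := (Int.mul_ediv_add_emod J p).symm
  obtain ⟨Fe, hfix, hsupp, hsum, ω, hωu, hωr, hprod⟩ :=
    exists_edge_div G hp5 e u (-q) 1 one_ne_zero
  -- a unit of residue `ρ0`
  obtain ⟨a, ha⟩ := 𝔻.B.res_surj ρ0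
  have hau : IsUnit a := by
    by_contra hnu
    have := (𝔻.B.res_eq_zero_iff a).mpr hnu
    rw [ha] at this
    exact hρ0 this
  have hv : 𝔻.B.IsU (a : L) := Base.isU_of_isUnit hau
  have hvr : 𝔻.B.resL (a : L) = ρ0 := by rw [𝔻.B.resL_coe, ha]
  have hv0 : (a : L) ≠ 0 := hv.ne_zero
  have hω0 : ω ≠ 0 := hωu.ne_zero
  have hlam0 : G.lam ≠ 0 := G.lam_ne
  -- the coordinate of the annulus place
  set b : L := α * (G.lam ^ (-q) * ω) / (a : L) with hb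
  have hb0 : b ≠ 0 :=
    div_ne_zero (mul_ne_zero hα (mul_ne_zero (zpow_ne_zero _ hlam0) hω0)) hv0
  have hbabs : absv 𝔻 b ^ p = absv 𝔻 G.lam ^ j := by
    rw [hb, absv_div, absv_mul, absv_mul, absv_zpow, absv_of_isU hωu, absv_of_isU hv, mul_one,
      div_one, mul_pow, hJ, ← zpow_natCast (absv 𝔻 G.lam ^ (-q)) p, ← zpow_mul, ← zpow_add₀ hl]
    congr 1
    rw [hJq]; ring
  have hjlt : absv 𝔻 G.lam ^ j < 1 := by
    have := zpow_lt_zpow_right_of_lt_one₀ hl0 G.lam_lt hj0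
    rwa [zpow_zero] at this
  have hbM : 𝔻.B.IsM b := by
    show absv 𝔻 b < 1
    rw [← pow_lt_one_iff_of_nonneg zero_le hp.ne_zero, hbabs]
    exact hjlt
  have hqM : 𝔻.B.IsM (𝔻.π e / b) := by
    show absv 𝔻 (𝔻.π e / b) < 1
    rw [← pow_lt_one_iff_of_nonneg zero_le hp.ne_zero, absv_div, div_pow, hbabs, thick' G e,
      ← zpow_natCast (absv 𝔻 G.lam) (p - 1), ← zpow_natCast (absv 𝔻 G.lam ^ ((p - 1 : ℕ) : ℤ)) p,
      ← zpow_mul, ← zpow_sub₀ hl]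
    have hpos : (0 : ℤ) < ((p - 1 : ℕ) : ℤ) * (p : ℤ) - j := by
      have h1 : ((p - 1 : ℕ) : ℤ) = (p : ℤ) - 1 := by
        rw [Nat.cast_sub hp.one_le, Nat.cast_one]
      have h5 : (5 : ℤ) ≤ (p : ℤ) := by exact_mod_cast hp5
      rw [h1]
      nlinarith
    have := zpow_lt_zpow_right_of_lt_one₀ hl0 G.lam_lt hpos
    rwa [zpow_zero] at this
  obtain ⟨Pe, hPeann, hPea⟩ := exists_place_a_eq (𝔻.node e) hb0 hbM hqM
  have hPea' : acoord 𝔻 e Pe = b := hPea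
  have hval : α * (toSemiRed 𝔻).annProd Fe e / acoord 𝔻 e Pe = (a : L) := by
    rw [hprod, hPea', hb]
    field_simp
  refine ⟨Fe, Pe, hfix, hsupp, hsum, (𝔻.r_ann e Pe).mp hPeann, ⟨j, ?_, ?_⟩, ?_, ?_⟩
  · intro hdvd
    have := Int.le_of_dvd hj0 hdvd
    omega
  · rw [hPea', hbabs]
  · rw [hval]; exact hv
  · rw [hval]; exact hvr

end

end Fermat.Agent.MP.T3.EdgeData2
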