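/-
Programme MP (row 38), chapter T3 (helper2): **the radii of the torus coordinates of a Kummer divisor**
((N2) for `f`, `div f = p D`, on a two-component datum of constant thickness `|π_e| = |λ|^(p-1)`).

* `isNorm_src`, `isNorm_tgt` : transport of normalisations along `src e = v`, `tgt e = v`;
* `val_jump_kummer` : `|c'| |π_e|^{s_e} |annProd_e D|^p = |c| |π_e|^{p annSum_e D}`;
* `jump` (JUMP) : if `|annProd_{e0} D| = |λ|^{m0}` then for every edge `e` :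
  `|annProd_e D|^p = |λ|^J` with `J ≡ s_e − s_{e0} mod p`.
-/
import Mathlib
import Fermat.Agent.MP.T3.AnnAlg2

set_option autoImplicit false
set_option linter.unusedSectionVars false
set_option linter.style.longLine false

namespace Fermat.Agent.MP.T3.Jump2

open AlgebraicCurve Fermat.Agent.X0.FF Fermat.Agent.RR.LSpace Fermat.Agent.MW.EMB.Value6
open Fermat.Agent.ORD.ANN.Side3 Fermat.Agent.ORD.ANN.Node3 Fermat.Agent.ORD.ANN.SemiRed3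
open Fermat.Agent.ORD.SEMIRED.SemiRedDatum9 Fermat.Agent.ORD.SEMIRED.ToSemiRed9
open Fermat.Agent.MP.TAU.KumCrit3 Fermat.Agent.MP.T3.Config2 Fermat.Agent.MP.T3.AnnAlg2

noncomputable section

variable {L F k Ft : Type*} [Field L] [Field F] [Algebra L F] [Field k] [Field Ft] [Algebra k Ft]
variable {ι E : Type*} (𝔻 : SemiRedDatum L F k Ft ι E)

/-- transport of a normalisation along `src e = v`. -/
theorem isNorm_src {e : E} {v : ι} (hv : 𝔻.src e = v) {c : L} {f : F}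
    (h : (𝔻.side v).IsNorm c f) :
    (𝔻.side (𝔻.src e)).IsNorm c f ∧ (𝔻.side (𝔻.src e)).nred c f = (𝔻.side v).nred c f := by
  subst hv
  exact ⟨h, rfl⟩

/-- transport of a normalisation along `tgt e = v`. -/
theorem isNorm_tgt {e : E} {v : ι} (hv : 𝔻.tgt e = v) {c : L} {f : F}
    (h : (𝔻.side v).IsNorm c f) :
    (𝔻.side (𝔻.tgt e)).IsNorm c f ∧ (𝔻.side (𝔻.tgt e)).nred c f = (𝔻.side v).nred c f := by
  subst hv
  exact ⟨h, rfl⟩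

theorem divOf_eq_smul {p : ℕ} (D : Divisor L F) {f : F} (hf : f ≠ 0)
    (hdiv : ∀ P : Place L F, P.ord f = p * D P) : divOf 𝔻.HL hf = (p : ℤ) • D := by
  ext P
  rw [divOf_apply, Finsupp.smul_apply, smul_eq_mul, hdiv P]

/-- **(N2) for a Kummer function.** -/
theorem val_jump_kummer {p : ℕ} (D : Divisor L F) {f : F} (hf : f ≠ 0)
    (hdiv : ∀ P : Place L F, P.ord f = p * D P) (e : E) {c c' : L}
    (h : (𝔻.side (𝔻.src e)).IsNorm c f) (h' : (𝔻.side (𝔻.tgt e)).IsNorm c' f) :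
    absv 𝔻 c' * absv 𝔻 (𝔻.π e) ^ (𝔻.Qs e).ord ((𝔻.side (𝔻.src e)).nred c f) *
        absv 𝔻 ((toSemiRed 𝔻).annProd D e) ^ p =
      absv 𝔻 c * absv 𝔻 (𝔻.π e) ^ ((p : ℤ) * (toSemiRed 𝔻).annSum D e) := by
  classical
  have h2 := (𝔻.node e).val_jump hf h h'
  have hπ : absv 𝔻 (𝔻.π e) ≠ 0 := (Valuation.ne_zero_iff _).mpr (𝔻.node e).π_ne
  have hα : absv 𝔻 ((toSemiRed 𝔻).annProd D e) ≠ 0 :=
    (Valuation.ne_zero_iff _).mpr (annProd_ne_zero 𝔻 D e)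
  have hsum : ∑ P ∈ (𝔻.node e).supp hf, P.ord f = (p : ℤ) * (toSemiRed 𝔻).annSum D e := by
    rw [← annSum_divOf 𝔻 hf e, divOf_eq_smul 𝔻 D hf hdiv, annSum_zsmul]
  have hprod : ∏ P ∈ (𝔻.node e).supp hf, (𝔻.node e).a P ^ P.ord f =
      (toSemiRed 𝔻).annProd D e ^ p := by
    rw [← annProd_divOf 𝔻 hf e, divOf_eq_smul 𝔻 D hf hdiv, annProd_zsmul, zpow_natCast]
  have e1 : ∏ P ∈ (𝔻.node e).supp hf, 𝔻.B.A.valuation ((𝔻.node e).π / (𝔻.node e).a P) ^ P.ord f =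
      absv 𝔻 (𝔻.π e) ^ ((p : ℤ) * (toSemiRed 𝔻).annSum D e) *
        (absv 𝔻 ((toSemiRed 𝔻).annProd D e) ^ p)⁻¹ := by
    rw [← hsum, ← prod_zpow_base hπ, ← map_pow, ← hprod, map_prod, ← Finset.prod_inv_distrib,
      ← Finset.prod_mul_distrib]
    refine Finset.prod_congr rfl fun P _ => ?_
    rw [map_div₀, div_zpow, div_eq_mul_inv, map_zpow₀]
  rw [e1] at h2
  have h3 : absv 𝔻 c' * absv 𝔻 (𝔻.π e) ^ (𝔻.Qs e).ord ((𝔻.side (𝔻.src e)).nred c f) =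
      absv 𝔻 c * (absv 𝔻 (𝔻.π e) ^ ((p : ℤ) * (toSemiRed 𝔻).annSum D e) *
        (absv 𝔻 ((toSemiRed 𝔻).annProd D e) ^ p)⁻¹) := h2
  rw [h3, mul_assoc, mul_assoc, inv_mul_cancel₀ (pow_ne_zero p hα), mul_one]

/-- **(JUMP)** -/
theorem jump {v0 v1 : ι} (tc : TwoComp 𝔻 v0 v1) {p : ℕ} (hp : 0 < p) {lam : L} (hlam : lam ≠ 0)
    (hthick : ∀ e, absv 𝔻 (𝔻.π e) = absv 𝔻 lam ^ (p - 1)) (D : Divisor L F) {f : F} (hf : f ≠ 0)
    (hdiv : ∀ P : Place L F, P.ord f = p * D P) {c : L} (hc : (𝔻.side v0).IsNorm c f) (e0 : E)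
    (m0 : ℤ) (h0 : absv 𝔻 ((toSemiRed 𝔻).annProd D e0) = absv 𝔻 lam ^ m0) (e : E) :
    ∃ J : ℤ, absv 𝔻 ((toSemiRed 𝔻).annProd D e) ^ p = absv 𝔻 lam ^ J ∧
      (p : ℤ) ∣ J - ((𝔻.Qs e).ord ((𝔻.side v0).nred c f) -
        (𝔻.Qs e0).ord ((𝔻.side v0).nred c f)) := by
  obtain ⟨c1, hc1⟩ := (𝔻.side v1).exists_isNorm hf
  have hl : absv 𝔻 lam ≠ 0 := (Valuation.ne_zero_iff _).mpr hlam
  have hc0 : absv 𝔻 c ≠ 0 := (Valuation.ne_zero_iff _).mpr hc.c_ne_zero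
  have hc10 : absv 𝔻 c1 ≠ 0 := (Valuation.ne_zero_iff _).mpr hc1.c_ne_zero
  -- the two jump formulas
  have key : ∀ e', absv 𝔻 c1 * absv 𝔻 lam ^ (((p : ℤ) - 1) * (𝔻.Qs e').ord ((𝔻.side v0).nred c f)) *
      absv 𝔻 ((toSemiRed 𝔻).annProd D e') ^ p =
      absv 𝔻 c * absv 𝔻 lam ^ (((p : ℤ) - 1) * ((p : ℤ) * (toSemiRed 𝔻).annSum D e')) := by
    intro e'
    have hs := isNorm_src 𝔻 (tc.src e') hc
    have ht := isNorm_tgt 𝔻 (tc.tgt e') hc1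
    have h1 := val_jump_kummer 𝔻 D hf hdiv e' hs.1 ht.1
    rw [hs.2, hthick e', ← zpow_natCast (absv 𝔻 lam) (p - 1), ← zpow_mul, ← zpow_mul,
      Nat.cast_sub hp, Nat.cast_one] at h1
    exact h1
  set s := (𝔻.Qs e).ord ((𝔻.side v0).nred c f) with hs
  set s0 := (𝔻.Qs e0).ord ((𝔻.side v0).nred c f) with hs0
  set n := (toSemiRed 𝔻).annSum D e with hn
  set n0 := (toSemiRed 𝔻).annSum D e0 with hn0
  have k1 := key e
  have k0 := key e0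
  rw [← hs, ← hn] at k1
  rw [← hs0, ← hn0, h0, ← zpow_natCast (absv 𝔻 lam ^ m0) p, ← zpow_mul] at k0
  refine ⟨m0 * p + ((p : ℤ) - 1) * ((p : ℤ) * (n - n0) - (s - s0)), ?_, ?_⟩
  · -- multiply the two formulas crosswise and cancel
    set lm := absv 𝔻 lam with hlm
    set X := absv 𝔻 ((toSemiRed 𝔻).annProd D e) ^ p with hX
    have hne : absv 𝔻 c1 * absv 𝔻 c * lm ^ (((p : ℤ) - 1) * s + ((p : ℤ) - 1) * ((p : ℤ) * n0)) ≠ 0 :=
      mul_ne_zero (mul_ne_zero hc10 hc0) (zpow_ne_zero _ hl)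
    apply mul_left_cancel₀ hne
    calc absv 𝔻 c1 * absv 𝔻 c * lm ^ (((p : ℤ) - 1) * s + ((p : ℤ) - 1) * ((p : ℤ) * n0)) * X
        = (absv 𝔻 c1 * lm ^ (((p : ℤ) - 1) * s) * X) *
            (absv 𝔻 c * lm ^ (((p : ℤ) - 1) * ((p : ℤ) * n0))) := by
          rw [zpow_add₀ hl]; ac_rfl
      _ = (absv 𝔻 c * lm ^ (((p : ℤ) - 1) * ((p : ℤ) * n))) *
            (absv 𝔻 c1 * lm ^ (((p : ℤ) - 1) * s0) * lm ^ (m0 * p)) := by rw [k1, k0]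
      _ = absv 𝔻 c1 * absv 𝔻 c * (lm ^ (((p : ℤ) - 1) * ((p : ℤ) * n)) *
            lm ^ (((p : ℤ) - 1) * s0) * lm ^ (m0 * p)) := by ac_rfl
      _ = absv 𝔻 c1 * absv 𝔻 c * lm ^ (((p : ℤ) - 1) * s + ((p : ℤ) - 1) * ((p : ℤ) * n0)) *
            lm ^ (m0 * p + ((p : ℤ) - 1) * ((p : ℤ) * (n - n0) - (s - s0))) := by
          rw [mul_assoc (absv 𝔻 c1 * absv 𝔻 c), ← zpow_add₀ hl, ← zpow_add₀ hl, ← zpow_add₀ hl]
          congr 2
          ring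
  · refine ⟨m0 + ((p : ℤ) - 1) * (n - n0) - (s - s0), ?_⟩
    ring

end

end Fermat.Agent.MP.T3.Jump2
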