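/-
Programme MP (row 38), chapter T3 (helper2): **auxiliary constructions for the rigid representatives.**

* `exists_tuple` (H) : a tuple of nonzero functions on the components, units at the branches, with
  prescribed orders on a finite set of smooth points (weak approximation `FF/INST/Approx0`);
* `exists_fixed_smooth` (SM) : a `Γ`-fixed divisor off the annuli with prescribed specialisation `T`
  (`T` supported on smooth points off `G.Bad0`).
-/
import Mathlib
import Fermat.Agent.MP.T3.EdgeDiv2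
import Fermat.Agent.FF.INST.Approx0

set_option autoImplicit false
set_option linter.unusedSectionVars false
set_option linter.style.longLine false

namespace Fermat.Agent.MP.T3.RepAux2

open AlgebraicCurve Fermat.Agent.X0.FF Fermat.Agent.RR.LSpace Fermat.Agent.MW.EMB.Value6
open Fermat.Agent.ORD.ANN.Side3 Fermat.Agent.ORD.ANN.Node3 Fermat.Agent.ORD.ANN.SemiRed3
open Fermat.Agent.ORD.SEMIRED.SemiRedDatum9 Fermat.Agent.ORD.SEMIRED.ToSemiRed9
open Fermat.Agent.ORD.KERN.KerDefs9 Fermat.Agent.ORD.KERN.KerN9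
open Fermat.Agent.MP.T3.Config2 Fermat.Agent.MP.T3.Iface2

noncomputable section

variable {L F k Ft : Type*} [Field L] [Field F] [Algebra L F] [Field k] [Field Ft] [Algebra k Ft]
variable {ι E : Type*} {𝔻 : SemiRedDatum L F k Ft ι E}

/-- **(H)** -/
theorem exists_tuple [Finite E] (𝔻 : SemiRedDatum L F k Ft ι E) (t : ι × Place k Ft → ℤ)
    (Bad0 : Set (ι × Place k Ft)) (hfin : Bad0.Finite) :
    ∃ h : ι → Ft, (∀ v, h v ≠ 0) ∧ (∀ e, (𝔻.Qs e).ord (h (𝔻.src e)) = 0) ∧
      (∀ e, (𝔻.Qt e).ord (h (𝔻.tgt e)) = 0) ∧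
      ∀ v Q, 𝔻.IsSm v Q → (v, Q) ∈ Bad0 → Q.ord (h v) = t (v, Q) := by
  classical
  have : Fintype E := Fintype.ofFinite E
  have key : ∀ v : ι, ∃ f : Ft, f ≠ 0 ∧
      ∀ Q ∈ (Finset.univ.image 𝔻.Qs ∪ Finset.univ.image 𝔻.Qt ∪ hfin.toFinset.image Prod.snd),
        Q.ord f = if 𝔻.IsBranch v Q then 0 else t (v, Q) := fun v =>
    Fermat.Agent.FF.INST.Approx0.exists_ord_eq_forall _ _
  choose h hh0 hh using key
  refine ⟨h, hh0, fun e => ?_, fun e => ?_, fun v Q hsm hbad => ?_⟩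
  · rw [hh (𝔻.src e) (𝔻.Qs e) (Finset.mem_union_left _ (Finset.mem_union_left _
      (Finset.mem_image_of_mem _ (Finset.mem_univ e)))),
      if_pos (show 𝔻.IsBranch (𝔻.src e) (𝔻.Qs e) from Or.inl ⟨e, rfl, rfl⟩)]
  · rw [hh (𝔻.tgt e) (𝔻.Qt e) (Finset.mem_union_left _ (Finset.mem_union_right _
      (Finset.mem_image_of_mem _ (Finset.mem_univ e)))),
      if_pos (show 𝔻.IsBranch (𝔻.tgt e) (𝔻.Qt e) from Or.inr ⟨e, rfl, rfl⟩)]
  · rw [hh v Q (Finset.mem_union_right _ (Finset.mem_image.mpr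
      ⟨(v, Q), hfin.mem_toFinset.mpr hbad, rfl⟩)), if_neg hsm]

variable {Γ : Type*} [Group Γ] {p gen : ℕ} (G : T3Setting 𝔻 Γ p gen)

/-- **(SM)** -/
theorem exists_fixed_smooth (T : Pts ι E k Ft →₀ ℤ) :
    (∀ x, T x ≠ 0 → ∃ v Q, x = Sum.inl (v, Q) ∧ 𝔻.IsSm v Q ∧ (v, Q) ∉ G.Bad0) →
    ∃ Fsm : Divisor L F, DivFixed G Fsm ∧ Finsupp.mapDomain 𝔻.r Fsm = T ∧
      ∀ P, Fsm P ≠ 0 → ∀ e, 𝔻.r P ≠ Sum.inr e := by
  classical
  induction T using Finsupp.induction with
  | zero =>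
    intro _
    refine ⟨0, fun γ => smul_zero _, Finsupp.mapDomain_zero, fun P hP => ?_⟩
    exact absurd rfl hP
  | single_add x n T' hx hn ih =>
    intro hT
    have hx0 : T' x = 0 := Finsupp.notMem_support_iff.mp hx
    obtain ⟨Fsm', hfix', hmd', hoff'⟩ := ih (fun y hy => by
      apply hT y
      rw [Finsupp.add_apply, Finsupp.single_apply]
      by_cases hxy : x = y
      · rw [← hxy, hx0] at hy
        exact absurd rfl hy
      · rw [if_neg hxy, zero_add]
        exact hy)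
    obtain ⟨v, Q, hxvQ, hsm, hbad⟩ := hT x (by
      rw [Finsupp.add_apply, Finsupp.single_eq_same, hx0, add_zero]
      exact hn)
    obtain ⟨Px, hPxr, hPxf⟩ := G.fixedPlace v Q hsm hbad
    refine ⟨Finsupp.single Px n + Fsm', fun γ => ?_, ?_, fun P hP e => ?_⟩
    · rw [smul_add, SemilinearAut.smul_single, hPxf γ, hfix' γ]
    · rw [Finsupp.mapDomain_add, Finsupp.mapDomain_single, hmd', hPxr, hxvQ]
    · rw [Finsupp.add_apply, Finsupp.single_apply] at hP
      by_cases hPP : Px = P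
      · rw [← hPP, hPxr]
        simp
      · rw [if_neg hPP, zero_add] at hP
        exact hoff' P hP e

end

end Fermat.Agent.MP.T3.RepAux2
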