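/-
Programme MP (row 38), chapter T3 (helper2): **the rigidity lemma** `Iface2.RigidityStmt`.

Two matched configurations `C'`, `C''` of one `A`-system with `C'.div − C''.div ∼ E_{S1}(T) − E_{S1}(0)`,
`|T j| ≤ |m|`, are `|m|`-close.
-/
import Mathlib
import Fermat.Agent.MP.T3.Iface2
import Fermat.Agent.MP.T3.Local2

set_option autoImplicit false
set_option linter.unusedSectionVars false
set_option linter.style.longLine false

namespace Fermat.Agent.MP.T3.Rigid2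

open AlgebraicCurve Fermat.Agent.X0.FF Fermat.Agent.RR.LSpace Fermat.Agent.MW.EMB.Value6
open Fermat.Agent.ORD.ANN.Side3 Fermat.Agent.ORD.ANN.Node3 Fermat.Agent.ORD.ANN.Matched3
open Fermat.Agent.ORD.SEMIRED.SemiRedDatum9 Fermat.Agent.ORD.SEMIRED.ToSemiRed9
open Fermat.Agent.ORD.REDN.DiscC9
open Fermat.Agent.ORD.KERN.KerDefs9 Fermat.Agent.ORD.KERN.KerN9
open Fermat.Agent.MP.T3.Config2 Fermat.Agent.MP.T3.Iface2 Fermat.Agent.MP.T3.Local2
open Fermat.Agent.FF.KER.Ker0 (mapDomain_sub')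

noncomputable section

variable {L F k Ft : Type*} [Field L] [Field F] [Algebra L F] [Field k] [Field Ft] [Algebra k Ft]
variable {ι E : Type*} {𝔻 : SemiRedDatum L F k Ft ι E}

/-! ### bookkeeping: the divisors at a place -/

section Book

variable {g : ℕ}

open Classical in
theorem Ediv_apply (S1 : NSSystemN 𝔻 g) (T : Fin g → mA 𝔻) (P : Place L F) :
    S1.Ediv T P = ∑ j, if S1.pt j (T j) = P then (1 : ℤ) else 0 := by
  rw [NSSystemN.Ediv, Finsupp.finsetSum_apply]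
  refine Finset.sum_congr rfl fun j _ => ?_
  rw [Finsupp.single_apply]

open Classical in
theorem Ediv_apply_disc (S1 : NSSystemN 𝔻 g) (T : Fin g → mA 𝔻) (j : Fin g) {P : Place L F}
    (hP : 𝔻.r P = Sum.inl (S1.c j, S1.Q j)) :
    S1.Ediv T P = if P = S1.pt j (T j) then 1 else 0 := by
  rw [Ediv_apply, Finset.sum_eq_single j]
  · by_cases h : P = S1.pt j (T j)
    · rw [if_pos h, if_pos h.symm]
    · rw [if_neg h, if_neg (fun h' => h h'.symm)]
  · intro j' _ hne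
    rw [if_neg]
    intro h'
    apply hne
    apply S1.inj
    have := S1.r_pt j' (T j')
    rw [h', hP] at this
    exact (Sum.inl.inj this).symm
  · intro h; exact absurd (Finset.mem_univ j) h

open Classical in
theorem Ediv_apply_other (S1 : NSSystemN 𝔻 g) (T : Fin g → mA 𝔻) {P : Place L F}
    (hP : ∀ j, 𝔻.r P ≠ Sum.inl (S1.c j, S1.Q j)) : S1.Ediv T P = 0 := by
  rw [Ediv_apply]
  refine Finset.sum_eq_zero fun j _ => ?_
  rw [if_neg]
  intro h'
  apply hP j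
  rw [← h', S1.r_pt]

variable {S : ASystem 𝔻 g}

open Classical in
theorem div_apply (C : Config S) (P : Place L F) :
    C.div P = (∑ i ∈ S.I, if S.S0.pt i (C.t i) = P then (1 : ℤ) else 0) +
      ∑ e ∈ S.A, if C.Pe e = P then (1 : ℤ) else 0 := by
  rw [Config.div, Finsupp.add_apply, Finsupp.finsetSum_apply, Finsupp.finsetSum_apply]
  congr 1
  · refine Finset.sum_congr rfl fun i _ => ?_
    rw [Finsupp.single_apply]
  · refine Finset.sum_congr rfl fun e _ => ?_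
    rw [Finsupp.single_apply]

open Classical in
theorem div_apply_disc (C : Config S) {i : Fin g} (hi : i ∈ S.I) {P : Place L F}
    (hP : 𝔻.r P = Sum.inl (S.S0.c i, S.S0.Q i)) :
    C.div P = if P = S.S0.pt i (C.t i) then 1 else 0 := by
  rw [div_apply, Finset.sum_eq_single_of_mem i hi, Finset.sum_eq_zero, add_zero]
  · by_cases h : P = S.S0.pt i (C.t i)
    · rw [if_pos h, if_pos h.symm]
    · rw [if_neg h, if_neg (fun h' => h h'.symm)]
  · intro e he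
    rw [if_neg]
    intro h'
    have := C.hPe e he
    rw [h', hP] at this
    exact absurd this (by simp)
  · intro i' _ hne
    rw [if_neg]
    intro h'
    apply hne
    apply S.S0.inj
    have := S.S0.r_pt i' (C.t i')
    rw [h', hP] at this
    exact (Sum.inl.inj this).symm

open Classical in
theorem div_apply_ann (C : Config S) {e : E} (he : e ∈ S.A) {P : Place L F}
    (hP : 𝔻.r P = Sum.inr e) : C.div P = if P = C.Pe e then 1 else 0 := by
  rw [div_apply, Finset.sum_eq_zero, zero_add, Finset.sum_eq_single_of_mem e he]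
  · by_cases h : P = C.Pe e
    · rw [if_pos h, if_pos h.symm]
    · rw [if_neg h, if_neg (fun h' => h h'.symm)]
  · intro e' he' hne
    rw [if_neg]
    intro h'
    apply hne
    have := C.hPe e' he'
    rw [h', hP] at this
    exact (Sum.inr.inj this).symm
  · intro i _
    rw [if_neg]
    intro h'
    have := S.S0.r_pt i (C.t i)
    rw [h', hP] at this
    exact absurd this (by simp)

open Classical in
theorem div_apply_other (C : Config S) {P : Place L F}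
    (h1 : ∀ i ∈ S.I, 𝔻.r P ≠ Sum.inl (S.S0.c i, S.S0.Q i)) (h2 : ∀ e ∈ S.A, 𝔻.r P ≠ Sum.inr e) :
    C.div P = 0 := by
  rw [div_apply, Finset.sum_eq_zero, Finset.sum_eq_zero, add_zero]
  · intro e he
    rw [if_neg]
    intro h'
    apply h2 e he
    rw [← h', C.hPe e he]
  · intro i hi
    rw [if_neg]
    intro h'
    apply h1 i hi
    rw [← h', S.S0.r_pt]

theorem mapDomain_div (C : Config S) :
    Finsupp.mapDomain 𝔻.r C.div = redDivI S.S0.c S.S0.Q S.I +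
      ∑ e ∈ S.A, Finsupp.single (Sum.inr e) (1 : ℤ) := by
  rw [Config.div, Finsupp.mapDomain_add, Finsupp.mapDomain_finsetSum, Finsupp.mapDomain_finsetSum,
    redDivI]
  congr 1
  · refine Finset.sum_congr rfl fun i _ => ?_
    rw [Finsupp.mapDomain_single, S.S0.r_pt]
  · refine Finset.sum_congr rfl fun e he => ?_
    rw [Finsupp.mapDomain_single, C.hPe e he]

open Classical in
theorem redDivI_apply (c : Fin g → ι) (Q : Fin g → Place k Ft) (I : Finset (Fin g))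
    (x : Pts ι E k Ft) :
    redDivI (E := E) c Q I x = ∑ i ∈ I, if Sum.inl (c i, Q i) = x then (1 : ℤ) else 0 := by
  rw [redDivI, Finsupp.finsetSum_apply]
  refine Finset.sum_congr rfl fun i _ => ?_
  rw [Finsupp.single_apply]

theorem redDivI_nonneg (c : Fin g → ι) (Q : Fin g → Place k Ft) (I : Finset (Fin g))
    (x : Pts ι E k Ft) : 0 ≤ redDivI (E := E) c Q I x := by
  classical
  rw [redDivI_apply]
  refine Finset.sum_nonneg fun i _ => ?_
  split_ifs <;> simp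

theorem redDivI_apply_kept (S : ASystem 𝔻 g) {i : Fin g} (hi : i ∈ S.I) :
    redDivI (E := E) S.S0.c S.S0.Q S.I (Sum.inl (S.S0.c i, S.S0.Q i)) = 1 := by
  classical
  rw [redDivI_apply, Finset.sum_eq_single_of_mem i hi, if_pos rfl]
  intro i' _ hne
  rw [if_neg]
  intro h
  exact hne (S.S0.inj (Sum.inl.inj h))

theorem redDivI_apply_of_ne (S : ASystem 𝔻 g) {x : Pts ι E k Ft}
    (h : ∀ i ∈ S.I, Sum.inl (S.S0.c i, S.S0.Q i) ≠ x) :
    redDivI (E := E) S.S0.c S.S0.Q S.I x = 0 := by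
  classical
  rw [redDivI_apply]
  refine Finset.sum_eq_zero fun i hi => ?_
  rw [if_neg (h i hi)]

theorem redDivI_apply_of_isBranch (S : ASystem 𝔻 g) {v : ι} {Q' : Place k Ft}
    (h : 𝔻.IsBranch v Q') : redDivI (E := E) S.S0.c S.S0.Q S.I (Sum.inl (v, Q')) = 0 := by
  refine redDivI_apply_of_ne S fun i _ hi => ?_
  have h1 := Sum.inl.inj hi
  have hv : S.S0.c i = v := congrArg Prod.fst h1
  have hQ : S.S0.Q i = Q' := congrArg Prod.snd h1
  exact S.S0.isSm_Q i (by rw [hv, hQ]; exact h)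

end Book

/-! ### the function `h` -/

section Ctx

variable {g : ℕ} {S : ASystem 𝔻 g} (C' C'' : Config S) {g1 : ℕ} (S1 : NSSystemN 𝔻 g1)
  (hd1 : ∀ i ∈ S.I, ∀ j, (S.S0.c i, S.S0.Q i) ≠ (S1.c j, S1.Q j))
  (T : Fin g1 → mA 𝔻) {h : F} (hh : h ≠ 0)
  (hdiv : ∀ P : Place L F, P.ord h = C'.div P - C''.div P - (S1.Ediv T P - S1.D0 P))

include hd1 hdiv in
open Classical in
/-- the order of `h` on a kept disc. -/
theorem ord_h_disc {i : Fin g} (hi : i ∈ S.I) {P : Place L F}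
    (hP : 𝔻.r P = Sum.inl (S.S0.c i, S.S0.Q i)) :
    P.ord h = (if P = S.S0.pt i (C'.t i) then 1 else 0) -
      (if P = S.S0.pt i (C''.t i) then 1 else 0) := by
  have hne : ∀ j, 𝔻.r P ≠ Sum.inl (S1.c j, S1.Q j) := by
    intro j h'
    rw [hP] at h'
    exact hd1 i hi j (Sum.inl.inj h')
  rw [hdiv, div_apply_disc C' hi hP, div_apply_disc C'' hi hP, Ediv_apply_other S1 T hne,
    ← S1.Ediv_zero, Ediv_apply_other S1 0 hne]
  ring

include hd1 hdiv in
open Classical in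
/-- the order of `h` on a disc of `S1`. -/
theorem ord_h_disc1 (j : Fin g1) {P : Place L F} (hP : 𝔻.r P = Sum.inl (S1.c j, S1.Q j)) :
    P.ord h = (if P = S1.pt j 0 then 1 else 0) - (if P = S1.pt j (T j) then 1 else 0) := by
  have h1 : ∀ i ∈ S.I, 𝔻.r P ≠ Sum.inl (S.S0.c i, S.S0.Q i) := by
    intro i hi h'
    rw [hP] at h'
    exact hd1 i hi j (Sum.inl.inj h').symm
  have h2 : ∀ e ∈ S.A, 𝔻.r P ≠ Sum.inr e := by
    intro e _ h'
    rw [hP] at h'
    exact absurd h' (by simp)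
  rw [hdiv, div_apply_other C' h1 h2, div_apply_other C'' h1 h2, Ediv_apply_disc S1 T j hP,
    ← S1.Ediv_zero, Ediv_apply_disc S1 0 j hP]
  simp only [Pi.zero_apply]
  ring

include hdiv in
open Classical in
/-- the order of `h` on an annulus of `A`. -/
theorem ord_h_ann {e : E} (he : e ∈ S.A) {P : Place L F} (hP : 𝔻.r P = Sum.inr e) :
    P.ord h = (if P = C'.Pe e then 1 else 0) - (if P = C''.Pe e then 1 else 0) := by
  have hne : ∀ j, 𝔻.r P ≠ Sum.inl (S1.c j, S1.Q j) := by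
    intro j h'
    rw [hP] at h'
    exact absurd h' (by simp)
  rw [hdiv, div_apply_ann C' he hP, div_apply_ann C'' he hP, Ediv_apply_other S1 T hne,
    ← S1.Ediv_zero, Ediv_apply_other S1 0 hne]
  ring

include hdiv in
/-- the order of `h` elsewhere. -/
theorem ord_h_other {P : Place L F} (h1 : ∀ i ∈ S.I, 𝔻.r P ≠ Sum.inl (S.S0.c i, S.S0.Q i))
    (h2 : ∀ e ∈ S.A, 𝔻.r P ≠ Sum.inr e) (h3 : ∀ j, 𝔻.r P ≠ Sum.inl (S1.c j, S1.Q j)) :
    P.ord h = 0 := by
  rw [hdiv, div_apply_other C' h1 h2, div_apply_other C'' h1 h2, Ediv_apply_other S1 T h3,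
    ← S1.Ediv_zero, Ediv_apply_other S1 0 h3]
  ring

include hdiv in
/-- all the fibre sums of `div h` over the smooth points vanish. -/
theorem mapDomain_divOf_h (v : ι) (Q' : Place k Ft) :
    Finsupp.mapDomain 𝔻.r (divOf 𝔻.HL hh) (Sum.inl (v, Q')) = 0 := by
  have e : divOf 𝔻.HL hh = C'.div - C''.div - (S1.Ediv T - S1.D0) := by
    ext P
    rw [divOf_apply, hdiv P]
    simp only [Finsupp.sub_apply]
  rw [e, mapDomain_sub', mapDomain_sub', mapDomain_sub', mapDomain_div, mapDomain_div,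
    S1.mapDomain_Ediv, S1.mapDomain_D0, sub_self, sub_self, sub_zero]
  rfl

/-! ### Step 1: `h` is a unit function -/

include hd1 hdiv in
/-- `h` has no zero or pole on the annuli outside `A`. -/
theorem ord_h_ann_other {e : E} (he : e ∉ S.A) {P : Place L F} (hP : 𝔻.r P = Sum.inr e) :
    P.ord h = 0 := by
  refine ord_h_other C' C'' S1 T hdiv ?_ ?_ ?_
  · intro i _ h'
    rw [hP] at h'
    exact absurd h' (by simp)
  · intro e' he' h'
    rw [hP] at h'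
    exact he (Sum.inr.inj h' ▸ he')
  · intro j h'
    rw [hP] at h'
    exact absurd h' (by simp)

include hd1 hdiv hh in
/-- **Step 1.**  After one scaling, `h` is a unit of every Gauss ring with the same constant
reduction. -/
theorem exists_const_norm [Finite ι] [Nonempty ι] (hM : C'.Matched C'') :
    ∃ (c : L) (a : k), c ≠ 0 ∧ a ≠ 0 ∧ ∀ v, (𝔻.side v).IsNorm c h ∧
      (𝔻.side v).nred c h = algebraMap k Ft a := by
  classical
  obtain ⟨c, hc0, hall, v1, hv1⟩ := exists_normAll 𝔻 hh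
  have hNM := Fermat.Agent.ORD.ANN.MatchedDatum3.nodeMatched 𝔻
  set f : ι → Ft := fun v => (𝔻.side v).nred c h with hf
  have hfv : ∀ v, f v = 𝔻.red v ⟨_, hall v⟩ := fun v => (𝔻.side v).nred_of_mem (hall v)
  have hnorm : ∀ v, f v ≠ 0 → (𝔻.side v).IsNorm c h := fun v hv =>
    ⟨hall v, by rw [← hfv v]; exact hv⟩
  have hch0 : algebraMap L F c * h ≠ 0 := mul_ne_zero ((map_ne_zero _).mpr hc0) hh
  -- regularity at the branches
  have hbranch : ∀ e, 0 ≤ (𝔻.Qs e).ord (f (𝔻.src e)) ∧ 0 ≤ (𝔻.Qt e).ord (f (𝔻.tgt e)) := by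
    intro e
    rw [hfv, hfv]
    by_cases he : e ∈ S.A
    · have hU : 𝔻.B.IsU ((𝔻.node e).a (C'.Pe e) / (𝔻.node e).a (C''.Pe e)) := by
        have h1 := hM e he
        have h0 : 𝔻.B.A.valuation ((𝔻.node e).a (C''.Pe e)) ≠ 0 :=
          (Valuation.ne_zero_iff _).mpr ((𝔻.node e).a_ne _ (C''.mem_ann he))
        show 𝔻.B.A.valuation _ = 1
        rw [map_div₀]
        exact (div_eq_one_iff_eq h0).mpr h1
      refine ann_regular (𝔻.node e) (C'.mem_ann he) (C''.mem_ann he) hU hch0 ?_ (hall _) (hall _)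
      intro P hP
      rw [ord_const_mul P hc0 hh]
      exact ord_h_ann C' C'' S1 T hdiv he ((𝔻.r_ann e P).mp hP)
    · have hpf : 𝔻.PoleFreeAnn (algebraMap L F c * h) e := by
        intro P hP
        rw [ord_const_mul P hc0 hh, ord_h_ann_other C' C'' S1 hd1 T hdiv he hP]
      exact ⟨(hNM e _ (hall _) (hall _) hpf).1, (hNM e _ (hall _) (hall _) hpf).2.1⟩
  have hpole : ∀ v, f v ≠ 0 → ∀ Q' : Place k Ft,
      -(redDivI (E := E) S.S0.c S.S0.Q S.I (Sum.inl (v, Q'))) ≤ Q'.ord (f v) := by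
    intro v hv Q'
    by_cases hbr : 𝔻.IsBranch v Q'
    · rw [redDivI_apply_of_isBranch S hbr, neg_zero]
      rcases hbr with ⟨e, rfl, rfl⟩ | ⟨e, rfl, rfl⟩
      · exact (hbranch e).1
      · exact (hbranch e).2
    · have h1 := mapDomain_divOf_of_isNorm 𝔻 hh (hnorm v hv) (Q' := Q') hbr
      rw [mapDomain_divOf_h C' C'' S1 T hh hdiv] at h1
      show _ ≤ Q'.ord ((𝔻.side v).nred c h)
      rw [← h1]
      have := redDivI_nonneg (E := E) S.S0.c S.S0.Q S.I (Sum.inl (v, Q'))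
      omega
  have hmatch : ∀ e, e ∉ S.A →
      valF 𝔻.Hk (𝔻.Qs e) (f (𝔻.src e)) = valF 𝔻.Hk (𝔻.Qt e) (f (𝔻.tgt e)) := by
    intro e he
    rw [hfv, hfv]
    have hpf : 𝔻.PoleFreeAnn (algebraMap L F c * h) e := by
      intro P hP
      rw [ord_const_mul P hc0 hh, ord_h_ann_other C' C'' S1 hd1 T hdiv he hP]
    exact (hNM e _ (hall _) (hall _) hpf).2.2.1
  obtain ⟨a, ha⟩ := S.ans f hpole hmatch
  have ha0 : a ≠ 0 := by
    rintro rfl
    have := ha v1
    rw [map_zero] at this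
    exact hv1.nred_ne_zero this
  have hne : ∀ v, f v ≠ 0 := fun v => by rw [ha v]; exact (map_ne_zero _).mpr ha0
  exact ⟨c, a, hc0, ha0, fun v => ⟨hnorm v (hne v), ha v⟩⟩

include hd1 hdiv hh in
/-- **Normalisation.**  After one scaling, `h` is integral with reduction `1` on every component and
takes the value `1` at the auxiliary place `O`. -/
theorem exists_normalised [Finite ι] [Nonempty ι] (hM : C'.Matched C'')
    (hd0 : ∀ j, (S1.c j, S1.Q j) ≠ (S.S0.c0, S.S0.Q0)) {O : Place L F}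
    (hO : 𝔻.r O = Sum.inl (S.S0.c0, S.S0.Q0)) :
    ∃ κ : L, κ ≠ 0 ∧ (∀ v, ∃ hm : algebraMap L F κ * h ∈ 𝔻.G v, 𝔻.red v ⟨_, hm⟩ = 1) ∧
      valF 𝔻.HL O (algebraMap L F κ * h) = 1 := by
  obtain ⟨c, a, hc0, ha0, hca⟩ := exists_const_norm C' C'' S1 hd1 T hh hdiv hM
  -- `h` has no zero or pole on the disc of `O`
  have hord0 : ∀ P : Place L F, 𝔻.r P = Sum.inl (S.S0.c0, S.S0.Q0) → P.ord h = 0 := by
    intro P hP
    refine ord_h_other C' C'' S1 T hdiv ?_ ?_ ?_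
    · intro i _ h'
      rw [hP] at h'
      exact S.S0.hQ0 i (Sum.inl.inj h').symm
    · intro e _ h'
      rw [hP] at h'
      exact absurd h' (by simp)
    · intro j h'
      rw [hP] at h'
      exact hd0 j (Sum.inl.inj h').symm
  set w : L := valF 𝔻.HL O h with hw
  have hw0 : w ≠ 0 := valF_ne_zero_of_ord_eq_zero 𝔻.HL O hh (hord0 O hO)
  have hmemO : h ∈ O.toValuationSubring := ffp_mem_of_ord_nonneg O (le_of_eq (hord0 O hO).symm)
  -- the value of `c h` at `O`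
  have hOD : (𝔻.comp S.S0.c0).r O = some S.S0.Q0 := (𝔻.comp_r_eq_some_iff).mpr hO
  let G0 : (𝔻.comp S.S0.c0).G := ⟨algebraMap L F c * h, (hca S.S0.c0).1.mem⟩
  have hpf : (𝔻.comp S.S0.c0).PoleFree (G0 : F) S.S0.Q0 := by
    intro P hP
    show 0 ≤ P.ord (algebraMap L F c * h)
    rw [ord_const_mul P hc0 hh, hord0 P ((𝔻.comp_r_eq_some_iff).mp hP)]
  have hres := res_valF (𝔻.comp S.S0.c0) G0 hpf hOD
  have hredc : (𝔻.comp S.S0.c0).red G0 = algebraMap k Ft a := by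
    have h2 := (hca S.S0.c0).2
    rw [(hca S.S0.c0).1.nred_eq] at h2
    exact h2
  rw [hredc, valF_algebraMap] at hres
  have hvalcw : valF 𝔻.HL O (algebraMap L F c * h) = c * w := by
    rw [valF_mul 𝔻.HL O (O.algebraMap_mem' _) hmemO, valF_algebraMap]
  have hcwA : c * w ∈ 𝔻.B.A := by
    have h2 := (valA (𝔻.comp S.S0.c0) G0 hpf hOD).2
    have e : ((valA (𝔻.comp S.S0.c0) G0 hpf hOD : (𝔻.comp S.S0.c0).A) : L) = c * w := hvalcw
    rw [e] at h2
    exact h2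
  have hrescw : 𝔻.B.res ⟨c * w, hcwA⟩ = a := by
    rw [← hres]
    show (𝔻.comp S.S0.c0).res ⟨c * w, hcwA⟩ = _
    congr 1
    exact Subtype.ext hvalcw.symm
  have hunit : IsUnit (⟨c * w, hcwA⟩ : 𝔻.B.A) := by
    by_contra hnu
    rw [(𝔻.B.res_eq_zero_iff _).mpr hnu] at hrescw
    exact ha0 hrescw.symm
  have hU : 𝔻.B.IsU (c * w) := Base.isU_of_isUnit hunit
  have hresL : 𝔻.B.resL (c * w) = a := by rw [𝔻.B.resL_of_mem hcwA, hrescw]
  refine ⟨w⁻¹, inv_ne_zero hw0, fun v => ?_, ?_⟩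
  · have h1 := (hca v).1.of_isU_mul hU.inv
    have e : (c * w)⁻¹ * c = w⁻¹ := by field_simp
    rw [e, (hca v).2, hU.resL_inv, hresL, ← map_mul, inv_mul_cancel₀ ha0, map_one] at h1
    exact ⟨h1.1.mem, by rw [← h1.1.nred_eq, h1.2]⟩
  · rw [valF_mul 𝔻.HL O (O.algebraMap_mem' _) hmemO, valF_algebraMap, ← hw, inv_mul_cancel₀ hw0]

end Ctx

/-! ### Step 2: the estimate -/

theorem isM_of_res_eq_zero {B : Base L k} {z : L} (hz : z ∈ B.A) (h : B.res ⟨z, hz⟩ = 0) :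
    B.IsM z := by
  have hnu : ¬ IsUnit (⟨z, hz⟩ : B.A) := (B.res_eq_zero_iff _).mp h
  rcases lt_or_eq_of_le ((B.A.valuation_le_one_iff z).mpr hz) with h1 | h1
  · exact h1
  · exact absurd ((B.A.valuation_eq_one_iff ⟨z, hz⟩).mpr h1) hnu

theorem res_eq_zero_of_isM {B : Base L k} {z : L} (hz : B.IsM z) : B.res ⟨z, hz.mem⟩ = 0 :=
  (B.res_eq_zero_iff _).mpr hz.not_isUnit

section Step2

variable {g : ℕ} {S : ASystem 𝔻 g} (C' C'' : Config S) {g1 : ℕ} (S1 : NSSystemN 𝔻 g1)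
  (hd1 : ∀ i ∈ S.I, ∀ j, (S.S0.c i, S.S0.Q i) ≠ (S1.c j, S1.Q j))
  (hd0 : ∀ j, (S1.c j, S1.Q j) ≠ (S.S0.c0, S.S0.Q0))
  (T : Fin g1 → mA 𝔻) {h : F} (hh : h ≠ 0)
  (hdiv : ∀ P : Place L F, P.ord h = C'.div P - C''.div P - (S1.Ediv T P - S1.D0 P))
  (hint : ∀ v, ∃ hm : h ∈ 𝔻.G v, 𝔻.red v ⟨h, hm⟩ = 1)
  {O : Place L F} (hO : 𝔻.r O = Sum.inl (S.S0.c0, S.S0.Q0)) (hOval : valF 𝔻.HL O h = 1)

omit [Algebra k Ft] in
theorem ord_G_nonneg {P : Place L F} {h : F} (hP : 0 ≤ P.ord h) (cs : L) :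
    0 ≤ P.ord (algebraMap L F cs * (h - 1)) :=
  ffp_ord_nonneg_of_mem P (P.toValuationSubring.mul_mem _ _ (P.algebraMap_mem' _)
    (sub_mem (ffp_mem_of_ord_nonneg P hP) P.toValuationSubring.one_mem))

include hd1 hd0 hh hdiv hint hO hOval in
/-- **The core of Step 2.**  If `cs` makes all the data integral, then all of it has zero residue. -/
theorem strict_of_integral (cs : L)
    (p1 : ∀ i ∈ S.I, cs * (((C'.t i : 𝔻.B.A) : L) - ((C''.t i : 𝔻.B.A) : L)) ∈ 𝔻.B.A)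
    (p2 : ∀ e ∈ S.A, cs * (acoord 𝔻 e (C'.Pe e) / acoord 𝔻 e (C''.Pe e) - 1) ∈ 𝔻.B.A)
    (p3 : ∀ v, algebraMap L F cs * (h - 1) ∈ 𝔻.G v)
    (p4 : ∀ j, 𝔻.B.IsM (cs * ((T j : 𝔻.B.A) : L))) :
    (∀ i ∈ S.I, 𝔻.B.IsM (cs * (((C'.t i : 𝔻.B.A) : L) - ((C''.t i : 𝔻.B.A) : L)))) ∧
    (∀ e ∈ S.A, 𝔻.B.IsM (cs * (acoord 𝔻 e (C'.Pe e) / acoord 𝔻 e (C''.Pe e) - 1))) ∧
    ∀ v, 𝔻.red v ⟨_, p3 v⟩ = 0 := by
  classical
  have hNM := Fermat.Agent.ORD.ANN.MatchedDatum3.nodeMatched 𝔻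
  set f : ι → Ft := fun v => 𝔻.red v ⟨_, p3 v⟩ with hf
  -- the kept discs
  have hdiscI : ∀ i (hi : i ∈ S.I),
      ∃ hcd : cs * (valF 𝔻.HL (S.S0.pt i (C'.t i)) (S.S0.u i : F) -
          valF 𝔻.HL (S.S0.pt i (C''.t i)) (S.S0.u i : F)) ∈ 𝔻.B.A,
        (f (S.S0.c i) ≠ 0 → -1 ≤ (S.S0.Q i).ord (f (S.S0.c i))) ∧
        valF 𝔻.Hk (S.S0.Q i) (f (S.S0.c i) * 𝔻.red (S.S0.c i) (S.S0.u i)) = -𝔻.B.res ⟨_, hcd⟩ := by
    intro i hi
    have hcd : cs * (valF 𝔻.HL (S.S0.pt i (C'.t i)) (S.S0.u i : F) -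
        valF 𝔻.HL (S.S0.pt i (C''.t i)) (S.S0.u i : F)) ∈ 𝔻.B.A := by
      rw [S.S0.valF_pt, S.S0.valF_pt]
      exact p1 i hi
    have h1 := disc_local' (𝔻.comp (S.S0.c i)) (S.S0.good i) (S.S0.comp_r_pt i (C'.t i))
      (S.S0.comp_r_pt i (C''.t i)) hh
      (fun P hP => ord_h_disc C' C'' S1 hd1 T hdiv hi ((𝔻.comp_r_eq_some_iff).mp hP))
      (cs := cs) (p3 (S.S0.c i)) hcd
    exact ⟨hcd, h1.1, h1.2.2⟩
  -- the discs of `S1`
  have hdisc1 : ∀ j, f (S1.c j) ≠ 0 → 0 ≤ (S1.Q j).ord (f (S1.c j)) := by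
    intro j hne
    have hm : 𝔻.B.IsM (cs * (valF 𝔻.HL (S1.pt j 0) (S1.u j : F) -
        valF 𝔻.HL (S1.pt j (T j)) (S1.u j : F))) := by
      rw [S1.valF_pt, S1.valF_pt]
      have e : cs * ((((0 : mA 𝔻) : 𝔻.B.A) : L) - ((T j : 𝔻.B.A) : L)) =
          -(cs * ((T j : 𝔻.B.A) : L)) := by
        push_cast
        ring
      rw [e, Base.IsM, Valuation.map_neg]
      exact p4 j
    have h1 := disc_local' (𝔻.comp (S1.c j)) (S1.good j) (S1.comp_r_pt j 0)
      (S1.comp_r_pt j (T j)) hh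
      (fun P hP => ord_h_disc1 C' C'' S1 hd1 T hdiv j ((𝔻.comp_r_eq_some_iff).mp hP))
      (cs := cs) (p3 (S1.c j)) hm.mem
    exact h1.2.1 hne (res_eq_zero_of_isM hm)
  -- the annuli of `A`
  have hannA : ∀ e (he : e ∈ S.A),
      0 ≤ (𝔻.Qs e).ord (f (𝔻.src e)) ∧ 0 ≤ (𝔻.Qt e).ord (f (𝔻.tgt e)) ∧
      valF 𝔻.Hk (𝔻.Qt e) (f (𝔻.tgt e)) = valF 𝔻.Hk (𝔻.Qs e) (f (𝔻.src e)) + 𝔻.B.res ⟨_, p2 e he⟩ := by
    intro e he
    obtain ⟨hs, hreds⟩ := hint (𝔻.src e)
    obtain ⟨ht, hredt⟩ := hint (𝔻.tgt e)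
    have h1 := ann_local (𝔻.node e) (C'.mem_ann he) (C''.mem_ann he) hh
      (fun P hP => ord_h_ann C' C'' S1 T hdiv he ((𝔻.r_ann e P).mp hP)) hs ht hreds hredt
    exact h1.2 cs (p3 _) (p3 _) (p2 e he)
  -- the other annuli
  have hannO : ∀ e, e ∉ S.A →
      0 ≤ (𝔻.Qs e).ord (f (𝔻.src e)) ∧ 0 ≤ (𝔻.Qt e).ord (f (𝔻.tgt e)) ∧
      valF 𝔻.Hk (𝔻.Qs e) (f (𝔻.src e)) = valF 𝔻.Hk (𝔻.Qt e) (f (𝔻.tgt e)) := by
    intro e he
    have hpf : 𝔻.PoleFreeAnn (algebraMap L F cs * (h - 1)) e := by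
      intro P hP
      exact ord_G_nonneg (le_of_eq (ord_h_ann_other C' C'' S1 hd1 T hdiv he hP).symm) cs
    have h1 := hNM e _ (p3 _) (p3 _) hpf
    exact ⟨h1.1, h1.2.1, h1.2.2.1⟩
  -- the poles of the tuple
  have hpole : ∀ v, f v ≠ 0 → ∀ Q' : Place k Ft,
      -(redDivI (E := E) S.S0.c S.S0.Q S.I (Sum.inl (v, Q'))) ≤ Q'.ord (f v) := by
    intro v hv Q'
    by_cases hbr : 𝔻.IsBranch v Q'
    · rw [redDivI_apply_of_isBranch S hbr, neg_zero]
      rcases hbr with ⟨e, rfl, rfl⟩ | ⟨e, rfl, rfl⟩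
      · by_cases he : e ∈ S.A
        · exact (hannA e he).1
        · exact (hannO e he).1
      · by_cases he : e ∈ S.A
        · exact (hannA e he).2.1
        · exact (hannO e he).2.1
    · by_cases hI : ∃ i ∈ S.I, (S.S0.c i, S.S0.Q i) = (v, Q')
      · obtain ⟨i, hi, heq⟩ := hI
        obtain ⟨rfl, rfl⟩ := Prod.mk.inj heq
        obtain ⟨-, h1, -⟩ := hdiscI i hi
        rw [redDivI_apply_kept S hi]
        exact h1 hv
      · push Not at hI
        have hred0 : redDivI (E := E) S.S0.c S.S0.Q S.I (Sum.inl (v, Q')) = 0 :=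
          redDivI_apply_of_ne S fun i hi h' => hI i hi (Sum.inl.inj h')
        rw [hred0, neg_zero]
        by_cases hJ : ∃ j, (S1.c j, S1.Q j) = (v, Q')
        · obtain ⟨j, heq⟩ := hJ
          obtain ⟨rfl, rfl⟩ := Prod.mk.inj heq
          exact hdisc1 j hv
        · push Not at hJ
          have hpf : (𝔻.comp v).PoleFree (algebraMap L F cs * (h - 1)) Q' := by
            intro P hP
            have hP' := (𝔻.comp_r_eq_some_iff).mp hP
            refine ord_G_nonneg (le_of_eq (ord_h_other C' C'' S1 T hdiv ?_ ?_ ?_).symm) cs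
            · intro i hi h'
              rw [hP'] at h'
              exact hI i hi (Sum.inl.inj h').symm
            · intro e _ h'
              rw [hP'] at h'
              exact absurd h' (by simp)
            · intro j h'
              rw [hP'] at h'
              exact hJ j (Sum.inl.inj h').symm
          exact (𝔻.comp v).ord_red_nonneg (g := ⟨_, p3 v⟩) hv ((𝔻.comp_sm_iff).mpr hbr) hpf
  have hmatch : ∀ e, e ∉ S.A →
      valF 𝔻.Hk (𝔻.Qs e) (f (𝔻.src e)) = valF 𝔻.Hk (𝔻.Qt e) (f (𝔻.tgt e)) :=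
    fun e he => (hannO e he).2.2
  obtain ⟨a, ha⟩ := S.ans f hpole hmatch
  -- the constant vanishes: evaluate at `O`
  have ha0 : a = 0 := by
    have hOD : (𝔻.comp S.S0.c0).r O = some S.S0.Q0 := (𝔻.comp_r_eq_some_iff).mpr hO
    have hord0 : ∀ P : Place L F, 𝔻.r P = Sum.inl (S.S0.c0, S.S0.Q0) → P.ord h = 0 := by
      intro P hP
      refine ord_h_other C' C'' S1 T hdiv ?_ ?_ ?_
      · intro i _ h'
        rw [hP] at h'
        exact S.S0.hQ0 i (Sum.inl.inj h').symm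
      · intro e _ h'
        rw [hP] at h'
        exact absurd h' (by simp)
      · intro j h'
        rw [hP] at h'
        exact hd0 j (Sum.inl.inj h').symm
    let G0 : (𝔻.comp S.S0.c0).G := ⟨_, p3 S.S0.c0⟩
    have hpf : (𝔻.comp S.S0.c0).PoleFree (G0 : F) S.S0.Q0 := fun P hP =>
      ord_G_nonneg (le_of_eq (hord0 P ((𝔻.comp_r_eq_some_iff).mp hP)).symm) cs
    have hres := res_valF (𝔻.comp S.S0.c0) G0 hpf hOD
    have hredc : (𝔻.comp S.S0.c0).red G0 = algebraMap k Ft a := ha S.S0.c0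
    rw [hredc, valF_algebraMap] at hres
    have hmemO : h ∈ O.toValuationSubring :=
      ffp_mem_of_ord_nonneg O (le_of_eq (hord0 O hO).symm)
    have hval0 : valF 𝔻.HL O (algebraMap L F cs * (h - 1)) = 0 := by
      rw [valF_mul 𝔻.HL O (O.algebraMap_mem' _) (sub_mem hmemO O.toValuationSubring.one_mem),
        valF_sub 𝔻.HL O hmemO O.toValuationSubring.one_mem, hOval, valF_one, sub_self, mul_zero]
    have hA0 : valA (𝔻.comp S.S0.c0) G0 hpf hOD = 0 := Subtype.ext hval0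
    rw [hA0, map_zero] at hres
    exact hres.symm
  have hf0 : ∀ v, f v = 0 := fun v => by rw [ha v, ha0, map_zero]
  refine ⟨fun i hi => ?_, fun e he => ?_, hf0⟩
  · obtain ⟨hcd, -, h2⟩ := hdiscI i hi
    rw [hf0, zero_mul, valF_zero] at h2
    have h3 : 𝔻.B.res ⟨_, hcd⟩ = 0 := by
      have := neg_eq_zero.mp h2.symm
      exact this
    have h4 := isM_of_res_eq_zero hcd h3
    rwa [S.S0.valF_pt, S.S0.valF_pt] at h4
  · obtain ⟨-, -, h2⟩ := hannA e he
    rw [hf0, hf0, valF_zero, valF_zero, zero_add] at h2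
    exact isM_of_res_eq_zero (p2 e he) h2.symm

/-- candidates attached to the Gauss norms of `g`. -/
theorem exists_gauss_candidate (v : ι) (g0 : F) :
    ∃ z : L, (∀ cs : L, 𝔻.B.A.valuation (cs * z) ≤ 1 → algebraMap L F cs * g0 ∈ 𝔻.G v) ∧
      ∀ (cs : L) (hm : algebraMap L F cs * g0 ∈ 𝔻.G v), 𝔻.B.A.valuation (cs * z) = 1 →
        𝔻.red v ⟨_, hm⟩ ≠ 0 := by
  by_cases hg : g0 = 0
  · refine ⟨0, fun cs _ => ?_, fun cs _ h1 => ?_⟩
    · rw [hg, mul_zero]; exact (𝔻.G v).zero_mem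
    · rw [mul_zero, map_zero] at h1
      exact absurd h1 zero_ne_one
  · obtain ⟨n, hn⟩ := (𝔻.side v).exists_isNorm hg
    have hn0 := hn.c_ne_zero
    refine ⟨n⁻¹, fun cs hle => ?_, fun cs hm h1 => ?_⟩
    · have hA : cs * n⁻¹ ∈ 𝔻.B.A := (𝔻.B.A.valuation_le_one_iff _).mp hle
      have e : algebraMap L F cs * g0 = algebraMap L F (cs * n⁻¹) * (algebraMap L F n * g0) := by
        rw [← mul_assoc, ← map_mul, mul_assoc, inv_mul_cancel₀ hn0, mul_one]
      rw [e]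
      exact (𝔻.G v).mul_mem ((𝔻.side v).const_mem ⟨_, hA⟩) hn.mem
    · have hU : 𝔻.B.IsU (cs * n⁻¹) := h1
      have h2 := (hn.of_isU_mul hU).1
      rw [mul_assoc, inv_mul_cancel₀ hn0, mul_one] at h2
      obtain ⟨hm', hred⟩ := h2
      exact hred

include hd1 hd0 hh hdiv hint hO hOval in
/-- **Rigidity for a normalised `h`.** -/
theorem rigidity_normalised [Finite ι] [Nonempty ι] (m : L)
    (hT : ∀ j, absv 𝔻 ((T j : 𝔻.B.A) : L) ≤ absv 𝔻 m) :
    (∀ i ∈ S.I, absv 𝔻 (((C'.t i : 𝔻.B.A) : L) - ((C''.t i : 𝔻.B.A) : L)) ≤ absv 𝔻 m) ∧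
    ∀ e ∈ S.A, absv 𝔻 (acoord 𝔻 e (C'.Pe e) / acoord 𝔻 e (C''.Pe e) - 1) ≤ absv 𝔻 m := by
  classical
  have : Fintype ι := Fintype.ofFinite ι
  choose z hz1 hz2 using fun v => exists_gauss_candidate (𝔻 := 𝔻) v (h - 1)
  set d : Fin g → L := fun i => ((C'.t i : 𝔻.B.A) : L) - ((C''.t i : 𝔻.B.A) : L) with hd
  set δ : E → L := fun e => acoord 𝔻 e (C'.Pe e) / acoord 𝔻 e (C''.Pe e) - 1 with hδ
  set Z : Finset L := S.I.image d ∪ S.A.image δ ∪ Finset.univ.image z with hZ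
  have hZne : Z.Nonempty := by
    obtain ⟨v⟩ := (inferInstance : Nonempty ι)
    exact ⟨z v, Finset.mem_union_right _ (Finset.mem_image_of_mem z (Finset.mem_univ v))⟩
  obtain ⟨zs, hzs, hmax⟩ := Finset.exists_max_image Z (fun x => absv 𝔻 x) hZne
  have hdZ : ∀ i ∈ S.I, d i ∈ Z := fun i hi =>
    Finset.mem_union_left _ (Finset.mem_union_left _ (Finset.mem_image_of_mem d hi))
  have hδZ : ∀ e ∈ S.A, δ e ∈ Z := fun e he =>
    Finset.mem_union_left _ (Finset.mem_union_right _ (Finset.mem_image_of_mem δ he))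
  have hzZ : ∀ v, z v ∈ Z := fun v =>
    Finset.mem_union_right _ (Finset.mem_image_of_mem z (Finset.mem_univ v))
  by_cases hle : absv 𝔻 zs ≤ absv 𝔻 m
  · exact ⟨fun i hi => (hmax _ (hdZ i hi)).trans hle, fun e he => (hmax _ (hδZ e he)).trans hle⟩
  exfalso
  rw [not_le] at hle
  have hzs0 : zs ≠ 0 := by
    rintro rfl
    have h0 : absv 𝔻 (0 : L) = 0 := map_zero _
    rw [h0] at hle
    exact not_lt_zero hle
  have hpos : 0 < absv 𝔻 zs := zero_lt_iff.mpr ((Valuation.ne_zero_iff _).mpr hzs0)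
  set cs : L := zs⁻¹ with hcs
  have hval : ∀ x : L, 𝔻.B.A.valuation (cs * x) = (absv 𝔻 zs)⁻¹ * absv 𝔻 x := by
    intro x
    rw [hcs, map_mul, map_inv₀]
  have hle1 : ∀ x ∈ Z, 𝔻.B.A.valuation (cs * x) ≤ 1 := by
    intro x hx
    rw [hval, inv_mul_le_iff₀ hpos, mul_one]
    exact hmax x hx
  have p1 : ∀ i ∈ S.I, cs * d i ∈ 𝔻.B.A := fun i hi =>
    (𝔻.B.A.valuation_le_one_iff _).mp (hle1 _ (hdZ i hi))
  have p2 : ∀ e ∈ S.A, cs * δ e ∈ 𝔻.B.A := fun e he =>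
    (𝔻.B.A.valuation_le_one_iff _).mp (hle1 _ (hδZ e he))
  have p3 : ∀ v, algebraMap L F cs * (h - 1) ∈ 𝔻.G v := fun v => hz1 v cs (hle1 _ (hzZ v))
  have p4 : ∀ j, 𝔻.B.IsM (cs * ((T j : 𝔻.B.A) : L)) := by
    intro j
    rw [Base.IsM, hval, inv_mul_lt_iff₀ hpos, mul_one]
    exact lt_of_le_of_lt (hT j) hle
  obtain ⟨q1, q2, q3⟩ := strict_of_integral C' C'' S1 hd1 hd0 T hh hdiv hint hO hOval cs p1 p2 p3 p4
  have hone : cs * zs = 1 := inv_mul_cancel₀ hzs0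
  have hnotM : ¬ 𝔻.B.IsM (cs * zs) := by
    rw [hone, Base.IsM, map_one]
    exact lt_irrefl _
  rw [hZ, Finset.mem_union, Finset.mem_union, Finset.mem_image, Finset.mem_image,
    Finset.mem_image] at hzs
  rcases hzs with (⟨i, hi, rfl⟩ | ⟨e, he, rfl⟩) | ⟨v, -, rfl⟩
  · exact hnotM (q1 i hi)
  · exact hnotM (q2 e he)
  · exact hz2 v cs (p3 v) (by rw [hone, map_one]) (q3 v)

end Step2

/-! ### the theorem -/

theorem finite_of_twoComp {v0 v1 : ι} (tc : TwoComp 𝔻 v0 v1) : Finite ι := by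
  classical
  refine Finite.of_surjective (fun b : Bool => if b then v0 else v1) fun v => ?_
  rcases tc.all v with rfl | rfl
  · exact ⟨true, by simp⟩
  · exact ⟨false, by simp⟩

/-- **THE RIGIDITY LEMMA.** -/
theorem rigidity (𝔻 : SemiRedDatum L F k Ft ι E) : RigidityStmt 𝔻 := by
  intro v0 v1 tc g S _ C' C'' hM g1 S1 hd1 hd0 T m hT h hh hdiv
  have : Finite ι := finite_of_twoComp tc
  have : Nonempty ι := ⟨v0⟩
  obtain ⟨O, hO⟩ := 𝔻.exists_r_of_isSm S.S0.sm0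
  obtain ⟨κ, hκ0, hint, hOval⟩ := exists_normalised C' C'' S1 hd1 T hh hdiv hM hd0 hO
  have hh' : algebraMap L F κ * h ≠ 0 := mul_ne_zero ((map_ne_zero _).mpr hκ0) hh
  have hdiv' : ∀ P : Place L F, P.ord (algebraMap L F κ * h) =
      C'.div P - C''.div P - (S1.Ediv T P - S1.D0 P) := fun P => by
    rw [ord_const_mul P hκ0 hh, hdiv P]
  exact rigidity_normalised C' C'' S1 hd1 hd0 T hh' hdiv' hint hO hOval m hT

end

end Fermat.Agent.MP.T3.Rigid2
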