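/-
Programme MP (row 38), chapter T3 (helper2): **rigid representatives, normalised case** — the core of
`Iface2.RigidRepStmt` under the extra assumption `|annProd_{e0} D| = |λ|^{m0}`.

Construction (see the chapter notes): `S0 := G.adm (Bad ∪ G.Bad0)`, `S` the `A`-system on `S0`
(`ANS6.existsASys`), a tuple `h` (weak approximation) with `ord_Q h_v = fibSum D (v, Q)` on `G.Bad0`,
the `Γ`-fixed smooth part `Fsm` of specialisation `div h − r_* D + redDivI` (`RepAux2`), the edge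
divisors `Fe e` and the annulus places `Pe e`, `e ∈ A` (`EdgeData2`, from the radii (JUMP) of `Jump2`);
`F1 := Fsm + Σ_e Fe e`, `C0 := (0, Pe)`.  The twisted criterion `KumCrit3.mem_kerRed_of_twisted` gives
`[D − (C0.div − F1)] ∈ kerRed`.
-/
import Mathlib
import Fermat.Agent.MP.T3.Rigid2
import Fermat.Agent.MP.T3.ANS6
import Fermat.Agent.MP.T3.Jump2
import Fermat.Agent.MP.T3.EdgeData2
import Fermat.Agent.MP.T3.RepAux2

set_option autoImplicit false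
set_option linter.unusedSectionVars false
set_option linter.style.longLine false

namespace Fermat.Agent.MP.T3.RepCore2

open AlgebraicCurve Fermat.Agent.X0.FF Fermat.Agent.RR.LSpace Fermat.Agent.MW.EMB.Value6
open Fermat.Agent.ORD.ANN.Side3 Fermat.Agent.ORD.ANN.Node3 Fermat.Agent.ORD.ANN.SemiRed3
open Fermat.Agent.ORD.SEMIRED.SemiRedDatum9 Fermat.Agent.ORD.SEMIRED.ToSemiRed9
open Fermat.Agent.ORD.KERN.KerDefs9 Fermat.Agent.ORD.KERN.KerN9 Fermat.Agent.ORD.KERN.KerGalN9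
open Fermat.Agent.MP.TAU.KumCrit3
open Fermat.Agent.MP.T3.Config2 Fermat.Agent.MP.T3.Iface2 Fermat.Agent.MP.T3.Rigid2
open Fermat.Agent.MP.T3.AnnAlg2 Fermat.Agent.MP.T3.Jump2 Fermat.Agent.MP.T3.EdgeDiv2
open Fermat.Agent.MP.T3.EdgeData2 Fermat.Agent.MP.T3.RepAux2

noncomputable section

variable {L F k Ft : Type*} [Field L] [Field F] [Algebra L F] [Field k] [Field Ft] [Algebra k Ft]
variable {ι E : Type*}

theorem valF_ne_zero_of_ord_eq_zero {K F' : Type*} [Field K] [Field F'] [Algebra K F']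
    (H : LHyp K F') (Q : Place K F') {f : F'} (hf : f ≠ 0) (hord : Q.ord f = 0) :
    valF H Q f ≠ 0 := by
  intro h
  have hmem : f ∈ Q.toValuationSubring := ffp_mem_of_ord_nonneg Q (le_of_eq hord.symm)
  rcases (valF_eq_zero_iff H Q hmem).mp h with h' | h'
  · exact hf h'
  · rw [hord] at h'; exact lt_irrefl _ h'

/-- **Rigid representatives, normalised case.** -/
theorem rigidRep_core [Finite E] (𝔻 : SemiRedDatum L F k Ft ι E) {v0 v1 : ι}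
    (tc : TwoComp 𝔻 v0 v1) {Γ : Type*} [Group Γ] {p gen : ℕ} (hp : p.Prime) (hp5 : 5 ≤ p)
    (G : T3Setting 𝔻 Γ p gen) (D : Divisor L F) {f : F} (hf : f ≠ 0)
    (hdiv : ∀ P : Place L F, P.ord f = p * D P) {c : L} (hc : (𝔻.side v0).IsNorm c f) (e0 : E)
    (A : Finset E)
    (hA : ∀ e, e ∈ A ↔ ¬ (p : ℤ) ∣ (𝔻.Qs e).ord ((𝔻.side v0).nred c f) -
      (𝔻.Qs e0).ord ((𝔻.side v0).nred c f))
    (m0 : ℤ) (h0 : absv 𝔻 ((toSemiRed 𝔻).annProd D e0) = absv 𝔻 G.lam ^ m0)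
    (Bad : Set (ι × Place k Ft)) (hBad : Bad.Finite) :
    ∃ (S : ASystem 𝔻 gen) (C0 : Config S) (F1 : Divisor L F),
      (∀ γ, FixesN S.S0 (G.ρ γ)) ∧ S.A = A ∧ gen ≤ S.I.card + S.A.card ∧
      (∀ i, (S.S0.c i, S.S0.Q i) ∉ Bad) ∧ (S.S0.c0, S.S0.Q0) ∉ Bad ∧ DivFixed G F1 ∧
      Divisor.degree (D - (C0.div - F1)) = 0 ∧
      (∀ Z : Divisor.degZero (K := L) (F := F), (Z : Divisor L F) = D - (C0.div - F1) →
        Pic0.mk Z ∈ kerRed 𝔻) ∧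
      ∀ e ∈ A, ∃ j : ℤ, ¬ (p : ℤ) ∣ j ∧
        absv 𝔻 (acoord 𝔻 e (C0.Pe e)) ^ p = absv 𝔻 G.lam ^ j := by
  classical
  have hfinι : Finite ι := finite_of_twoComp tc
  have hneι : Nonempty ι := ⟨v0⟩
  have hftE : Fintype E := Fintype.ofFinite E
  have hftι : Fintype ι := Fintype.ofFinite ι
  have he0A : e0 ∉ A := by
    rw [hA, sub_self]
    exact fun h => h (dvd_zero _)
  -- 1. the ambient system and the `A`-system
  obtain ⟨S0, hS0fix, hS0bad, hS0bad0⟩ := G.adm (Bad ∪ G.Bad0) (hBad.union G.Bad0_fin)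
  obtain ⟨S, hSS0, hSA, hScard⟩ :=
    Fermat.Agent.MP.T3.ANS6.existsASys 𝔻 v0 v1 tc gen S0 A ⟨e0, he0A⟩
  subst hSS0
  -- 2. the tuple
  obtain ⟨h, hh0, hbs, hbt, hhbad⟩ :=
    exists_tuple 𝔻 (fun x => Finsupp.mapDomain 𝔻.r D (Sum.inl x)) G.Bad0 G.Bad0_fin
  have hvs : ∀ e, valF 𝔻.Hk (𝔻.Qs e) (h (𝔻.src e)) ≠ 0 := fun e =>
    valF_ne_zero_of_ord_eq_zero 𝔻.Hk _ (hh0 _) (hbs e)
  have hvt : ∀ e, valF 𝔻.Hk (𝔻.Qt e) (h (𝔻.tgt e)) ≠ 0 := fun e =>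
    valF_ne_zero_of_ord_eq_zero 𝔻.Hk _ (hh0 _) (hbt e)
  have hratio0 : ∀ e, valF 𝔻.Hk (𝔻.Qt e) (h (𝔻.tgt e)) / valF 𝔻.Hk (𝔻.Qs e) (h (𝔻.src e)) ≠ 0 :=
    fun e => div_ne_zero (hvt e) (hvs e)
  -- 3. the smooth part
  set T0 : Pts ι E k Ft →₀ ℤ :=
    tupleDiv 𝔻 h hh0 - Finsupp.mapDomain 𝔻.r D + redDivI S.S0.c S.S0.Q S.I with hT0
  set T : Pts ι E k Ft →₀ ℤ :=
    T0.filter (fun x => ∃ v Q, x = Sum.inl (v, Q) ∧ 𝔻.IsSm v Q) with hT
  have hT0_inl : ∀ v Q, T0 (Sum.inl (v, Q)) = Q.ord (h v) -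
      Finsupp.mapDomain 𝔻.r D (Sum.inl (v, Q)) + redDivI (E := E) S.S0.c S.S0.Q S.I (Sum.inl (v, Q)) := by
    intro v Q
    rw [hT0, Finsupp.add_apply, Finsupp.sub_apply, tupleDiv_inl]
  have hTsm : ∀ v Q, 𝔻.IsSm v Q → T (Sum.inl (v, Q)) = T0 (Sum.inl (v, Q)) := fun v Q hsm => by
    rw [hT, Finsupp.filter_apply_pos _ _ ⟨v, Q, rfl, hsm⟩]
  have hTgood : ∀ x, T x ≠ 0 → ∃ v Q, x = Sum.inl (v, Q) ∧ 𝔻.IsSm v Q ∧ (v, Q) ∉ G.Bad0 := by
    intro x hx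
    by_cases hpx : ∃ v Q, x = Sum.inl (v, Q) ∧ 𝔻.IsSm v Q
    · obtain ⟨v, Q, rfl, hsm⟩ := hpx
      refine ⟨v, Q, rfl, hsm, fun hbad => hx ?_⟩
      rw [hTsm v Q hsm, hT0_inl, hhbad v Q hsm hbad, sub_self, zero_add]
      refine redDivI_apply_of_ne S fun i _ hi => ?_
      have h1 : (S.S0.c i, S.S0.Q i) = (v, Q) := Sum.inl.inj hi
      exact hS0bad i (h1 ▸ Or.inr hbad)
    · rw [hT, Finsupp.filter_apply_neg (fun x => ∃ v Q, x = Sum.inl (v, Q) ∧ 𝔻.IsSm v Q) T0 hpx] at hx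
      exact absurd rfl hx
  obtain ⟨Fsm, hFsmfix, hFsmmd, hFsmoff⟩ := exists_fixed_smooth G T hTgood
  -- 4. the edges
  choose J hJabs hJdvd using fun e =>
    jump 𝔻 tc hp.pos G.lam_ne (thick' G) D hf hdiv hc e0 m0 h0 e
  have hedge : ∀ e, ∃ (Fe : Divisor L F) (Pe : Place L F), DivFixed G Fe ∧
      (∀ P, Fe P ≠ 0 → 𝔻.r P = Sum.inr e) ∧
      (toSemiRed 𝔻).annSum Fe e = (if e ∈ A then 1 else 0) - (toSemiRed 𝔻).annSum D e ∧
      (e ∈ A → 𝔻.r Pe = Sum.inr e ∧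
        (∃ j : ℤ, ¬ (p : ℤ) ∣ j ∧ absv 𝔻 (acoord 𝔻 e Pe) ^ p = absv 𝔻 G.lam ^ j) ∧
        𝔻.B.IsU ((toSemiRed 𝔻).annProd D e * (toSemiRed 𝔻).annProd Fe e / acoord 𝔻 e Pe) ∧
        𝔻.B.resL ((toSemiRed 𝔻).annProd D e * (toSemiRed 𝔻).annProd Fe e / acoord 𝔻 e Pe) =
          valF 𝔻.Hk (𝔻.Qt e) (h (𝔻.tgt e)) / valF 𝔻.Hk (𝔻.Qs e) (h (𝔻.src e))) ∧
      (e ∉ A → 𝔻.B.IsU ((toSemiRed 𝔻).annProd D e * (toSemiRed 𝔻).annProd Fe e) ∧
        𝔻.B.resL ((toSemiRed 𝔻).annProd D e * (toSemiRed 𝔻).annProd Fe e) =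
          valF 𝔻.Hk (𝔻.Qt e) (h (𝔻.tgt e)) / valF 𝔻.Hk (𝔻.Qs e) (h (𝔻.src e))) := by
    intro e
    by_cases he : e ∈ A
    · have hnd : ¬ (p : ℤ) ∣ J e := by
        intro hd
        apply (hA e).mp he
        have := dvd_sub hd (hJdvd e)
        rwa [sub_sub_cancel] at this
      obtain ⟨Fe, Pe, h1, h2, h3, h4, h5, h6, h7⟩ := exists_edge_in G hp hp5 e
        (1 - (toSemiRed 𝔻).annSum D e) (annProd_ne_zero 𝔻 D e) (hJabs e) hnd (hratio0 e)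
      exact ⟨Fe, Pe, h1, h2, by rw [if_pos he]; exact h3, fun _ => ⟨h4, h5, h6, h7⟩,
        fun hne => absurd he hne⟩
    · have hd : (p : ℤ) ∣ J e := by
        have h1 : (p : ℤ) ∣ (𝔻.Qs e).ord ((𝔻.side v0).nred c f) -
            (𝔻.Qs e0).ord ((𝔻.side v0).nred c f) := not_not.mp (fun hn => he ((hA e).mpr hn))
        have := dvd_add (hJdvd e) h1
        rwa [sub_add_cancel] at this
      obtain ⟨Fe, h1, h2, h3, h4, h5⟩ := exists_edge_out G hp hp5 e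
        (0 - (toSemiRed 𝔻).annSum D e) (hJabs e) hd (hratio0 e)
      obtain ⟨P0⟩ := 𝔻.HL.nonempty
      exact ⟨Fe, P0, h1, h2, by rw [if_neg he]; exact h3, fun h => absurd h he,
        fun _ => ⟨h4, h5⟩⟩
  choose Fe Pe hFefix hFesupp hFesum hin hout using hedge
  -- 5. the configuration and `F1`
  let C0 : Config S :=
    { t := fun _ => 0
      Pe := Pe
      hPe := fun e he => (hin e (hSA ▸ he)).1 }
  set F1 : Divisor L F := Fsm + ∑ e, Fe e with hF1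
  set W : Divisor L F := D - (C0.div - F1) with hW
  have hFe_other : ∀ e e', e' ≠ e → ∀ P, Fe e' P ≠ 0 → 𝔻.r P ≠ Sum.inr e := fun e e' hne P hP h =>
    hne (Sum.inr.inj ((hFesupp e' P hP).symm.trans h))
  have hsumF1 : ∀ e, (toSemiRed 𝔻).annSum F1 e = (toSemiRed 𝔻).annSum (Fe e) e := by
    intro e
    rw [hF1, annSum_add, annSum_finsetSum,
      annSum_eq_zero_of 𝔻 Fsm e (fun P hP => hFsmoff P hP e), zero_add,
      Finset.sum_eq_single_of_mem e (Finset.mem_univ e)]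
    intro e' _ hne
    exact annSum_eq_zero_of 𝔻 _ e (hFe_other e e' hne)
  have hprodF1 : ∀ e, (toSemiRed 𝔻).annProd F1 e = (toSemiRed 𝔻).annProd (Fe e) e := by
    intro e
    rw [hF1, annProd_add, annProd_finsetSum,
      annProd_eq_one_of 𝔻 Fsm e (fun P hP => hFsmoff P hP e), one_mul,
      Finset.prod_eq_single_of_mem e (Finset.mem_univ e)]
    intro e' _ hne
    exact annProd_eq_one_of 𝔻 _ e (hFe_other e e' hne)
  have hb1 : ∀ e, (toSemiRed 𝔻).annSum W e = 0 := by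
    intro e
    rw [hW, annSum_sub, annSum_sub, annSum_config, hsumF1, hFesum e, hSA]
    ring
  have hprodW : ∀ e, (toSemiRed 𝔻).annProd W e = (toSemiRed 𝔻).annProd D e /
      ((if e ∈ S.A then acoord 𝔻 e (C0.Pe e) else 1) / (toSemiRed 𝔻).annProd (Fe e) e) := by
    intro e
    rw [hW, annProd_sub, annProd_sub, annProd_config, hprodF1]
  have hb2c : ∀ e, 𝔻.B.IsU ((toSemiRed 𝔻).annProd W e) ∧ 𝔻.B.resL ((toSemiRed 𝔻).annProd W e) =
      valF 𝔻.Hk (𝔻.Qt e) (h (𝔻.tgt e)) / valF 𝔻.Hk (𝔻.Qs e) (h (𝔻.src e)) := by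
    intro e
    have hFe0 := annProd_ne_zero 𝔻 (Fe e) e
    by_cases he : e ∈ A
    · obtain ⟨h4, _, h6, h7⟩ := hin e he
      have hPe0 : acoord 𝔻 e (Pe e) ≠ 0 := (𝔻.node e).a_ne _ ((𝔻.r_ann e _).mpr h4)
      have e1 : (toSemiRed 𝔻).annProd W e =
          (toSemiRed 𝔻).annProd D e * (toSemiRed 𝔻).annProd (Fe e) e / acoord 𝔻 e (Pe e) := by
        rw [hprodW, if_pos (hSA.symm ▸ he)]
        show _ / (acoord 𝔻 e (Pe e) / _) = _
        field_simp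
      rw [e1]
      exact ⟨h6, h7⟩
    · obtain ⟨h4, h5⟩ := hout e he
      have e1 : (toSemiRed 𝔻).annProd W e =
          (toSemiRed 𝔻).annProd D e * (toSemiRed 𝔻).annProd (Fe e) e := by
        rw [hprodW, if_neg (hSA.symm ▸ he)]
        field_simp
      rw [e1]
      exact ⟨h4, h5⟩
  -- (a)
  have ha : ∀ v Q, 𝔻.IsSm v Q → Finsupp.mapDomain 𝔻.r W (Sum.inl (v, Q)) = Q.ord (h v) := by
    intro v Q hsm
    have hz1 : ∑ e ∈ S.A, (Finsupp.single (Sum.inr e : Pts ι E k Ft) (1 : ℤ)) (Sum.inl (v, Q)) = 0 :=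
      Finset.sum_eq_zero fun e _ => by
        rw [Finsupp.single_apply, if_neg]
        simp
    have hz2 : ∑ e, (Finsupp.mapDomain 𝔻.r (Fe e)) (Sum.inl (v, Q)) = 0 :=
      Finset.sum_eq_zero fun e _ => mapDomain_r_eq_zero_of 𝔻 (Fe e) _ (fun P hP hr => by
        have := hFesupp e P hP
        rw [hr] at this
        exact absurd this (by simp))
    rw [hW, Finsupp.mapDomain_sub, Finsupp.mapDomain_sub, mapDomain_div, hF1, Finsupp.mapDomain_add,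
      Finsupp.mapDomain_finsetSum, hFsmmd]
    simp only [Finsupp.sub_apply, Finsupp.add_apply, Finsupp.finsetSum_apply]
    rw [hz1, hz2, hTsm v Q hsm, hT0_inl]
    ring
  have hdeg : Divisor.degree W = 0 := degree_eq_zero_of_tuple 𝔻 W h hh0 hbs hbt ha hb1
  refine ⟨S, C0, F1, hS0fix, hSA, by rw [hSA]; exact hScard, fun i hi => hS0bad i (Or.inl hi),
    fun hh => hS0bad0 (Or.inl hh), ?_, hdeg, ?_, ?_⟩
  · intro γ
    rw [hF1, smul_add, Finset.smul_sum, hFsmfix γ]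
    congr 1
    exact Finset.sum_congr rfl fun e _ => hFefix e γ
  · intro Z hZ
    refine mem_kerRed_of_twisted S.S0 (fun E' hE' => G.hRR E' (le_of_eq hE'.symm)) Z h hh0 hbs hbt
      ?_ ?_ ?_ ?_
    · intro v Q hsm
      rw [hZ]; exact ha v Q hsm
    · intro e
      rw [hZ]; exact hb1 e
    · intro e
      rw [hZ]; exact (hb2c e).1
    · intro e
      rw [hZ, (hb2c e).2, div_mul_cancel₀ _ (hvs e)]
  · intro e he
    exact (hin e he).2.1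

end

end Fermat.Agent.MP.T3.RepCore2
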