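/-
Programme MP (row 38), chapter T3 (helper2): **rigid representatives** — the statement
`Iface2.RigidRepStmt` with two extra hypotheses:

* `[Finite E]` (finitely many nodes);
* `Arch G` : the absolute value of `λ` is archimedean in the value group of `L`
  (`∀ z ≠ 0, ∃ m : ℤ, |λ|^m < |z| ≤ |λ|^(m-1)`; true as soon as the valuation of `L` has rank one).

`RigidRepStmt2 𝔻` is the amended statement and `rigidRep 𝔻 : RigidRepStmt2 𝔻` its proof;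
`rigidRepStmt_of_archAbs [Finite E] 𝔻 (h : ArchAbs 𝔻) : Iface2.RigidRepStmt 𝔻` is the ORIGINAL statement for
a datum with finitely many nodes whose absolute value is archimedean (`ArchAbs`).

Proof (Step A of the chapter notes): for `z := annProd_{e0} D` choose `m` with `|λ|^m < |z| ≤ |λ|^(m-1)`,
`β := λ^m / z` (`|π| < |β| < 1`), `ψ := x_{e0} − β` (a single simple zero on the annulus of `e0`, at the
place of coordinate `β`), `D1 := D + div ψ`, `f1 := f ψ^p`.  Then `|annProd_{e0} D1| = |λ|^m`, the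
slopes of `f1` are those of `f` mod `p`, and `RepCore2.rigidRep_core` applies to `(D1, f1)`; the class
of `D − (C0.div − F1)` is the class of `D1 − (C0.div − F1)`.
-/
import Mathlib
import Fermat.Agent.MP.T3.RepCore2
import Fermat.Agent.FF.KER.Ker0

set_option autoImplicit false
set_option linter.unusedSectionVars false
set_option linter.style.longLine false

namespace Fermat.Agent.MP.T3.RigidRep2

open AlgebraicCurve Fermat.Agent.X0.FF Fermat.Agent.RR.LSpace Fermat.Agent.MW.EMB.Value6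
open Fermat.Agent.ORD.ANN.Side3 Fermat.Agent.ORD.ANN.Node3 Fermat.Agent.ORD.ANN.SemiRed3
open Fermat.Agent.ORD.SEMIRED.SemiRedDatum9 Fermat.Agent.ORD.SEMIRED.ToSemiRed9
open Fermat.Agent.ORD.KERN.KerDefs9 Fermat.Agent.ORD.KERN.KerN9 Fermat.Agent.ORD.KERN.KerGalN9
open Fermat.Agent.MP.TAU.KumCrit3
open Fermat.Agent.MP.T3.Config2 Fermat.Agent.MP.T3.Iface2
open Fermat.Agent.MP.T3.AnnAlg2 Fermat.Agent.MP.T3.AnnPlace2 Fermat.Agent.MP.T3.EdgeDiv2
open Fermat.Agent.MP.T3.RepCore2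

noncomputable section

variable {L F k Ft : Type*} [Field L] [Field F] [Algebra L F] [Field k] [Field Ft] [Algebra k Ft]
variable {ι E : Type*}

/-- **the archimedean property of `|λ|`.** -/
def Arch {𝔻 : SemiRedDatum L F k Ft ι E} {Γ : Type*} [Group Γ] {p gen : ℕ}
    (G : T3Setting 𝔻 Γ p gen) : Prop :=
  ∀ z : L, z ≠ 0 → ∃ m : ℤ, absv 𝔻 G.lam ^ m < absv 𝔻 z ∧ absv 𝔻 z ≤ absv 𝔻 G.lam ^ (m - 1)

/-- **Rigid representatives, amended statement** : `Iface2.RigidRepStmt` with the extra hypothesis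
`Arch G`. -/
def RigidRepStmt2 (𝔻 : SemiRedDatum L F k Ft ι E) : Prop :=
  ∀ (v0 v1 : ι), TwoComp 𝔻 v0 v1 → ∀ (Γ : Type) [Group Γ] (p gen : ℕ), p.Prime → 5 ≤ p →
  ∀ (G : T3Setting 𝔻 Γ p gen), Arch G →
  ∀ (D : Divisor.degZero (K := L) (F := F)) (f : F), f ≠ 0 →
    (∀ P : Place L F, P.ord f = p * (D : Divisor L F) P) →
  ∀ (c : L), (𝔻.side v0).IsNorm c f → ∀ (e0 : E) (A : Finset E),
    (∀ e, e ∈ A ↔ ¬ (p : ℤ) ∣ (𝔻.Qs e).ord ((𝔻.side v0).nred c f) -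
      (𝔻.Qs e0).ord ((𝔻.side v0).nred c f)) →
  ∀ Bad : Set (ι × Place k Ft), Bad.Finite →
    ∃ (S : ASystem 𝔻 gen) (C0 : Config S) (F1 : Divisor L F) (Z : Divisor.degZero (K := L) (F := F)),
      (∀ γ, FixesN S.S0 (G.ρ γ)) ∧ S.A = A ∧ gen ≤ S.I.card + S.A.card ∧
      (∀ i, (S.S0.c i, S.S0.Q i) ∉ Bad) ∧ (S.S0.c0, S.S0.Q0) ∉ Bad ∧
      DivFixed G F1 ∧
      (Z : Divisor L F) = (D : Divisor L F) - (C0.div - F1) ∧ Pic0.mk Z ∈ kerRed 𝔻 ∧
      ∀ e ∈ A, ∃ j : ℤ, ¬ (p : ℤ) ∣ j ∧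
        absv 𝔻 (acoord 𝔻 e (C0.Pe e)) ^ p = absv 𝔻 G.lam ^ j

/-- transport of a normalisation along an equality of components. -/
theorem isNorm_of_eq (𝔻 : SemiRedDatum L F k Ft ι E) {v v' : ι} (hv : v = v') {c : L} {f : F}
    (h : (𝔻.side v).IsNorm c f) :
    (𝔻.side v').IsNorm c f ∧ (𝔻.side v').nred c f = (𝔻.side v).nred c f := by
  subst hv
  exact ⟨h, rfl⟩

/-- **Rigid representatives.** -/
theorem rigidRep [Finite E] (𝔻 : SemiRedDatum L F k Ft ι E) : RigidRepStmt2 𝔻 := by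
  intro v0 v1 tc Γ _ p gen hp hp5 G harch D f hf hdiv c hc e0 A hA Bad hBad
  classical
  have hl := absv_lam_ne_zero G
  have hl0 : 0 < absv 𝔻 G.lam := zero_lt_iff.mpr hl
  have hlam0 : G.lam ≠ 0 := G.lam_ne
  -- Step A : the normalising function
  set z : L := (toSemiRed 𝔻).annProd (D : Divisor L F) e0 with hz
  have hz0 : z ≠ 0 := annProd_ne_zero 𝔻 _ e0
  have hzabs : absv 𝔻 z ≠ 0 := absv_ne_zero hz0
  obtain ⟨m, hm1, hm2⟩ := harch z hz0
  set β : L := G.lam ^ m / z with hβ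
  have hβ0 : β ≠ 0 := div_ne_zero (zpow_ne_zero _ hlam0) hz0
  have hβabs : absv 𝔻 β = absv 𝔻 G.lam ^ m / absv 𝔻 z := by
    rw [hβ, absv_div, absv_zpow]
  have hβM : 𝔻.B.IsM β := by
    show absv 𝔻 β < 1
    rw [hβabs, div_lt_one₀ (zero_lt_iff.mpr hzabs)]
    exact hm1
  have hqM : 𝔻.B.IsM (𝔻.π e0 / β) := by
    show absv 𝔻 (𝔻.π e0 / β) < 1
    rw [absv_div, hβabs, thick' G e0, div_div_eq_mul_div, div_lt_one₀ (zero_lt_iff.mpr (zpow_ne_zero _ hl))]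
    calc absv 𝔻 G.lam ^ (p - 1) * absv 𝔻 z
        ≤ absv 𝔻 G.lam ^ (p - 1) * absv 𝔻 G.lam ^ (m - 1) := by gcongr
      _ = absv 𝔻 G.lam ^ (((p - 1 : ℕ) : ℤ) + (m - 1)) := by
          rw [zpow_add₀ hl, zpow_natCast]
      _ < absv 𝔻 G.lam ^ m := by
          apply zpow_lt_zpow_right_of_lt_one₀ hl0 G.lam_lt
          have h1 : ((p - 1 : ℕ) : ℤ) = (p : ℤ) - 1 := by
            rw [Nat.cast_sub hp.one_le, Nat.cast_one]
          have h5 : (5 : ℤ) ≤ (p : ℤ) := by exact_mod_cast hp5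
          omega
  set ψ : F := 𝔻.x e0 - algebraMap L F β with hψ
  have hn1 := isNorm_sub_const (𝔻.node e0) hβM
  have hψ0 : ψ ≠ 0 := hn1.1.ne_zero
  obtain ⟨Pβ, hPβann, hPβa, hsupp, hPβord⟩ := exists_place_a_eq' (𝔻.node e0) hβ0 hβM hqM hψ0
  -- the new Kummer pair
  set D1 : Divisor L F := (D : Divisor L F) + divOf 𝔻.HL hψ0 with hD1
  set f1 : F := f * ψ ^ p with hf1
  have hf10 : f1 ≠ 0 := mul_ne_zero hf (pow_ne_zero p hψ0)
  have hdiv1 : ∀ P : Place L F, P.ord f1 = p * D1 P := by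
    intro P
    rw [hf1, P.ord_mul hf (pow_ne_zero p hψ0), Fermat.Agent.FF.INST.Approx0.ord_pow', hdiv P, hD1, Finsupp.add_apply,
      divOf_apply]
    ring
  -- normalisation and slopes
  have hn0 := isNorm_of_eq 𝔻 (tc.src e0) hn1.1
  have hnp := hn0.1.pow p
  have hc1 := hc.mul hnp.1
  have hslope : ∀ e, (𝔻.Qs e).ord ((𝔻.side v0).nred (c * 1 ^ p) f1) =
      (𝔻.Qs e).ord ((𝔻.side v0).nred c f) + p * (𝔻.Qs e).ord ((𝔻.side v0).nred 1 ψ) := by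
    intro e
    rw [hf1, hc1.2, hnp.2, (𝔻.Qs e).ord_mul hc.nred_ne_zero (pow_ne_zero p hn0.1.nred_ne_zero),
      Fermat.Agent.FF.INST.Approx0.ord_pow']
  have hA1 : ∀ e, e ∈ A ↔ ¬ (p : ℤ) ∣ (𝔻.Qs e).ord ((𝔻.side v0).nred (c * 1 ^ p) f1) -
      (𝔻.Qs e0).ord ((𝔻.side v0).nred (c * 1 ^ p) f1) := by
    intro e
    rw [hA e, hslope e, hslope e0]
    have e1 : (𝔻.Qs e).ord ((𝔻.side v0).nred c f) + p * (𝔻.Qs e).ord ((𝔻.side v0).nred 1 ψ) -
        ((𝔻.Qs e0).ord ((𝔻.side v0).nred c f) + p * (𝔻.Qs e0).ord ((𝔻.side v0).nred 1 ψ)) =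
        ((𝔻.Qs e).ord ((𝔻.side v0).nred c f) - (𝔻.Qs e0).ord ((𝔻.side v0).nred c f)) +
          p * ((𝔻.Qs e).ord ((𝔻.side v0).nred 1 ψ) - (𝔻.Qs e0).ord ((𝔻.side v0).nred 1 ψ)) := by
      ring
    rw [e1, (Int.dvd_add_left (dvd_mul_right _ _))]
  -- the torus coordinate at `e0`
  have h01 : absv 𝔻 ((toSemiRed 𝔻).annProd D1 e0) = absv 𝔻 G.lam ^ m := by
    rw [hD1, annProd_add, annProd_divOf 𝔻 hψ0 e0, hsupp, Finset.prod_singleton, hPβord, zpow_one,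
      hPβa, ← hz, hβ, mul_div_cancel₀ _ hz0, absv_zpow]
  obtain ⟨S, C0, F1, hfix, hSA, hcard, hbad, hbad0, hF1, hdeg1, hker, hrad⟩ :=
    rigidRep_core 𝔻 tc hp hp5 G D1 hf10 hdiv1 hc1.1 e0 A hA1 m h01 Bad hBad
  -- back to `D`
  have hrel : D1 - (C0.div - F1) = ((D : Divisor L F) - (C0.div - F1)) + divOf 𝔻.HL hψ0 := by
    rw [hD1]; abel
  have hdeg : Divisor.degree ((D : Divisor L F) - (C0.div - F1)) = 0 := by
    have := hdeg1
    rw [hrel, map_add, degree_divOf, add_zero] at this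
    exact this
  set Z : Divisor.degZero (K := L) (F := F) :=
    ⟨(D : Divisor L F) - (C0.div - F1), Divisor.mem_degZero.mpr hdeg⟩ with hZ
  set Z1 : Divisor.degZero (K := L) (F := F) :=
    ⟨D1 - (C0.div - F1), Divisor.mem_degZero.mpr hdeg1⟩ with hZ1
  have hmk : Pic0.mk Z = Pic0.mk Z1 := by
    rw [Fermat.Agent.FF.KER.Ker0.NSSystem.mk_eq_mk_iff]
    refine ⟨ψ, hψ0, fun P => ?_⟩
    show (D1 - (C0.div - F1) - ((D : Divisor L F) - (C0.div - F1))) P = P.ord ψ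
    rw [hrel, add_sub_cancel_left, divOf_apply]
  refine ⟨S, C0, F1, Z, hfix, hSA, hcard, hbad, hbad0, hF1, rfl, ?_, hrad⟩
  rw [hmk]
  exact hker Z1 rfl

/-- **the archimedean property of the absolute value of `𝔻`** : every `λ ≠ 0` with `|λ| < 1` is
archimedean (true as soon as the valuation of `L` has rank one). -/
def ArchAbs (𝔻 : SemiRedDatum L F k Ft ι E) : Prop :=
  ∀ lam : L, lam ≠ 0 → absv 𝔻 lam < 1 → ∀ z : L, z ≠ 0 →
    ∃ m : ℤ, absv 𝔻 lam ^ m < absv 𝔻 z ∧ absv 𝔻 z ≤ absv 𝔻 lam ^ (m - 1)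

/-- **`Iface2.RigidRepStmt` for a datum with finitely many nodes over an archimedean base.** -/
theorem rigidRepStmt_of_archAbs [Finite E] (𝔻 : SemiRedDatum L F k Ft ι E) (h : ArchAbs 𝔻) :
    RigidRepStmt 𝔻 :=
  fun v0 v1 tc Γ _ p gen hp hp5 G =>
    rigidRep 𝔻 v0 v1 tc Γ p gen hp hp5 G (h G.lam G.lam_ne G.lam_lt)

end

end Fermat.Agent.MP.T3.RigidRep2
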