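/-
Programme MP (row 38 via S44), chapter T3 (helper7), file Break7: **(BR) the ramification break**.

Vocabulary of `FF/BASE/Place2`: `nrm p : ℚ̄ → ℝ` (the `p`-adic norm of the place `padicPlace p`),
`Iv p` (inertia), `Wur p` (unramified integers).  `ζ` a primitive `p`-th root of unity, `lam = ζ - 1`.

* `GamL p ζ : Subgroup GQ` — the elements of `Iv p` fixing `ζ` (`Γ_L`; `L` its fixed field).
* ultrametric toolbox for `nrm` (`nrm_add_eq_of_lt`, `nrm_sum_le`, `nrm_sum_eq_of_dominant`, `nrm_natCast…`).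
* `nrm_zeta_pow_sub_one`, **`nrm_lam_pow : nrm p (ζ - 1) ^ (p - 1) = (p)⁻¹`**.
* value group of `L`: **`nrm_pow_of_fixed`** (`c ≠ 0` fixed by `Γ_L` ⇒ `nrm c ^ (p-1) = p ^ n`, `n : ℤ`),
  `exists_card_pow_of_fixed`, **`nrm_le_lam_of_fixed`** (`c` fixed by `Γ_L`, `nrm c < 1` ⇒ `nrm c ≤ nrm lam`).
* `Break1 p ζ κ t` — `t` is a *break-1 element* for the character `κ` of `Γ_L` (fixed by `ker κ`,
  `nrm t ^ p = p⁻¹`, moved by exactly `|lam|` when `κ σ ≠ 0`): the abstract form of (PEU).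
* **`false_of_close`** (BR): `Break1 p ζ κ t`, `κ` additive on `Γ_L`, `κ σ₁ = 1`; an orbit `xi : ℤ/p → ℚ̄`,
  `τ (xi k) = xi (k + κ τ)`, with `|xi 1 / xi 0 - 1| ≤ |lam|` and `|xi 0| ∉ |L^×|` is impossible.
  (Lagrange interpolation of `xi` at the conjugates of `t`: coefficients in `L`; the norms
  `|c_i| |t|^i` are pairwise distinct; `|σ₁ xi0 - xi0| = |lam| |xi0| / |t|`.)
* **`break1_of_unit`** : the Kummer form of (PEU) (`u` a unit, `u^p ∈ Wur p`, `σ u = ζ^(κ σ) u`,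
  `κ` onto, `p` odd) gives a break-1 element (`t = u / w0 - 1`).
-/
import Mathlib
import Fermat.Agent.FF.BASE.Place2
import Fermat.Agent.FF.IFACE.Teich1

set_option autoImplicit false
set_option linter.unusedSectionVars false
set_option linter.style.longLine false
set_option linter.style.haveILetI false

open Polynomial

namespace Fermat.Agent.MP.T3.Break7

open Fermat.Agent.FF.BASE.Place2 Fermat.Agent.TW.FLAT.FlatModule6

noncomputable section

variable {p : ℕ} [Fact p.Prime]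

/-! ### Ultrametric toolbox -/

lemma nrm_sub_comm (x y : Qb) : nrm p (x - y) = nrm p (y - x) := by
  rw [← nrm_neg, neg_sub]

lemma nrm_add_eq_of_lt {x y : Qb} (h : nrm p y < nrm p x) : nrm p (x + y) = nrm p x := by
  apply le_antisymm
  · exact le_trans (nrm_add_le x y) (max_le le_rfl h.le)
  · have h1 : nrm p x ≤ max (nrm p (x + y)) (nrm p y) := by
      have := nrm_sub_le (ℓ := p) (x + y) y
      simpa using this
    rcases le_max_iff.1 h1 with h2 | h2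
    · exact h2
    · exact absurd h2 (not_le.2 h)

lemma nrm_sub_eq_of_lt {x y : Qb} (h : nrm p y < nrm p x) : nrm p (x - y) = nrm p x := by
  rw [sub_eq_add_neg]
  exact nrm_add_eq_of_lt (by rwa [nrm_neg])

lemma nrm_sum_le {ι : Type*} (s : Finset ι) (f : ι → Qb) (B : ℝ) (hB : 0 ≤ B)
    (h : ∀ i ∈ s, nrm p (f i) ≤ B) : nrm p (∑ i ∈ s, f i) ≤ B := by
  classical
  induction s using Finset.induction_on with
  | empty => simpa [nrm_zero] using hB
  | insert a s ha ih =>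
    rw [Finset.sum_insert ha]
    exact le_trans (nrm_add_le _ _) (max_le (h a (Finset.mem_insert_self a s))
      (ih (fun i hi => h i (Finset.mem_insert_of_mem hi))))

lemma nrm_sum_lt {ι : Type*} (s : Finset ι) (f : ι → Qb) (B : ℝ) (hB : 0 < B)
    (h : ∀ i ∈ s, nrm p (f i) < B) : nrm p (∑ i ∈ s, f i) < B := by
  classical
  induction s using Finset.induction_on with
  | empty => simpa [nrm_zero] using hB
  | insert a s ha ih =>
    rw [Finset.sum_insert ha]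
    exact lt_of_le_of_lt (nrm_add_le _ _) (max_lt (h a (Finset.mem_insert_self a s))
      (ih (fun i hi => h i (Finset.mem_insert_of_mem hi))))

/-- a sum with one strictly dominant term has the norm of that term. -/
lemma nrm_sum_eq_of_dominant {ι : Type*} [DecidableEq ι] (s : Finset ι) (f : ι → Qb) (i0 : ι)
    (hi0 : i0 ∈ s) (h : ∀ i ∈ s, i ≠ i0 → nrm p (f i) < nrm p (f i0)) :
    nrm p (∑ i ∈ s, f i) = nrm p (f i0) := by
  rw [← Finset.add_sum_erase s f hi0]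
  rcases eq_or_ne (f i0) 0 with h0 | h0
  · -- then every other term would have negative norm: `s.erase i0` contributes `0`
    have : ∀ i ∈ s.erase i0, f i = 0 := by
      intro i hi
      have := h i (Finset.mem_of_mem_erase hi) (Finset.ne_of_mem_erase hi)
      rw [h0, nrm_zero] at this
      exact absurd this (not_lt.2 (nrm_nonneg _))
    rw [Finset.sum_eq_zero this, add_zero]
  · apply nrm_add_eq_of_lt
    exact nrm_sum_lt _ _ _ (nrm_pos h0)
      (fun i hi => h i (Finset.mem_of_mem_erase hi) (Finset.ne_of_mem_erase hi))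

lemma nrm_natCast_le_one (n : ℕ) : nrm p ((n : ℕ) : Qb) ≤ 1 := by
  have h := nrm_ratCast (ℓ := p) (n : ℚ)
  rw [map_natCast] at h
  rw [h]
  have h1 : ‖((n : ℤ) : ℚ_[p])‖ ≤ 1 := Padic.norm_int_le_one (n : ℤ)
  simpa using h1

lemma nrm_natCast_eq_one {n : ℕ} (hn : ¬ p ∣ n) : nrm p ((n : ℕ) : Qb) = 1 := by
  have h := nrm_ratCast (ℓ := p) (n : ℚ)
  rw [map_natCast] at h
  rw [h]
  have h1 : ‖((n : ℕ) : ℚ_[p])‖ = 1 :=
    Padic.norm_natCast_eq_one_iff.2 ((Nat.Prime.coprime_iff_not_dvd (Fact.out : p.Prime)).2 hn)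
  simpa using h1

lemma nrm_p : nrm p ((p : ℕ) : Qb) = ((p : ℝ))⁻¹ := nrm_natCast_self

lemma nrm_eq_one_of_pow_eq_one {x : Qb} {n : ℕ} (hn : n ≠ 0) (h : x ^ n = 1) : nrm p x = 1 := by
  have h1 : nrm p x ^ n = 1 := by rw [← nrm_pow, h, nrm_one]
  exact (pow_eq_one_iff_of_nonneg (nrm_nonneg x) hn).1 h1

lemma nrm_smul_of_mem_Iv {σ : GQ} (hσ : σ ∈ Iv p) (x : Qb) : nrm p (σ x) = nrm p x :=
  nrm_smul_of_mem_Dv (Iv_le_Dv hσ) x

/-! ### The root of unity `ζ`, `lam = ζ - 1` -/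

section Zeta

variable {ζ : Qb} (hζ : IsPrimitiveRoot ζ p)

include hζ

lemma nrm_zeta : nrm p ζ = 1 :=
  nrm_eq_one_of_pow_eq_one (Fact.out : p.Prime).ne_zero hζ.pow_eq_one

lemma nrm_zeta_pow (k : ℕ) : nrm p (ζ ^ k) = 1 := by
  rw [nrm_pow, nrm_zeta hζ, one_pow]

lemma lam_ne_zero : ζ - 1 ≠ 0 := sub_ne_zero.2 (hζ.ne_one (Fact.out : p.Prime).one_lt)

lemma nrm_lam_pos : 0 < nrm p (ζ - 1) := nrm_pos (lam_ne_zero hζ)

omit hζ in
/-- `|x^k - 1| ≤ |x - 1|` for `|x| ≤ 1`. -/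
lemma nrm_pow_sub_one_le {x : Qb} (hx : nrm p x ≤ 1) (k : ℕ) :
    nrm p (x ^ k - 1) ≤ nrm p (x - 1) := by
  have h : x ^ k - 1 = (x - 1) * ∑ i ∈ Finset.range k, x ^ i := by
    rw [mul_comm]; exact (geom_sum_mul x k).symm
  rw [h, nrm_mul]
  have h1 : nrm p (∑ i ∈ Finset.range k, x ^ i) ≤ 1 :=
    nrm_sum_le _ _ 1 zero_le_one (fun i _ => by
      rw [nrm_pow]; exact pow_le_one₀ (nrm_nonneg x) hx)
  calc nrm p (x - 1) * nrm p (∑ i ∈ Finset.range k, x ^ i) ≤ nrm p (x - 1) * 1 :=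
        mul_le_mul_of_nonneg_left h1 (nrm_nonneg _)
    _ = _ := mul_one _

/-- `|ζ^k - 1| = |ζ - 1|` for `p ∤ k`. -/
lemma nrm_zeta_pow_sub_one {k : ℕ} (hk : ¬ p ∣ k) : nrm p (ζ ^ k - 1) = nrm p (ζ - 1) := by
  apply le_antisymm (nrm_pow_sub_one_le (nrm_zeta hζ).le k)
  -- `ζ = (ζ^k)^k'` with `k k' ≡ 1 mod p`
  have hcop : Nat.Coprime k p :=
    (Nat.Coprime.symm ((Nat.Prime.coprime_iff_not_dvd (Fact.out : p.Prime)).2 hk))
  obtain ⟨k', -, hk'⟩ := Nat.exists_mul_mod_eq_one_of_coprime hcop (Fact.out : p.Prime).one_lt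
  have h1 : (ζ ^ k) ^ k' = ζ := by
    rw [← pow_mul, ← Nat.div_add_mod (k * k') p, pow_add, pow_mul, hζ.pow_eq_one, one_pow, one_mul,
      hk', pow_one]
  calc nrm p (ζ - 1) = nrm p ((ζ ^ k) ^ k' - 1) := by rw [h1]
    _ ≤ nrm p (ζ ^ k - 1) := nrm_pow_sub_one_le (nrm_zeta_pow hζ k).le k'

/-- **`|lam|^(p-1) = |p|`.** -/
theorem nrm_lam_pow : nrm p (ζ - 1) ^ (p - 1) = ((p : ℝ))⁻¹ := by
  have hpp : p.Prime := Fact.out
  have hq : p = (p - 1) + 1 := (Nat.succ_pred_eq_of_pos hpp.pos).symm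
  have hζ' : IsPrimitiveRoot ζ ((p - 1) + 1) := by rwa [← hq]
  have hprod := hζ'.prod_one_sub_pow_eq_order
  have h1 : ((p : ℕ) : Qb) = ∏ k ∈ Finset.range (p - 1), (1 - ζ ^ (k + 1)) := by
    rw [hprod]
    have : ((p : ℕ) : Qb) = (((p - 1) + 1 : ℕ) : Qb) := by rw [← hq]
    rw [this]; push_cast; ring
  have h2 : nrm p (∏ k ∈ Finset.range (p - 1), (1 - ζ ^ (k + 1))) =
      ∏ k ∈ Finset.range (p - 1), nrm p (1 - ζ ^ (k + 1)) := by
    classical
    induction (Finset.range (p - 1)) using Finset.induction_on with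
    | empty => simp [nrm_one]
    | insert a s ha ih => rw [Finset.prod_insert ha, Finset.prod_insert ha, nrm_mul, ih]
  rw [← nrm_p, h1, h2]
  rw [Finset.prod_congr rfl (fun k hk => ?_), Finset.prod_const, Finset.card_range]
  rw [nrm_sub_comm]
  apply nrm_zeta_pow_sub_one hζ
  intro hdvd
  have hk' := Finset.mem_range.1 hk
  have := Nat.le_of_dvd (Nat.succ_pos k) hdvd
  omega

lemma nrm_lam_lt_one : nrm p (ζ - 1) < 1 := by
  have hpp : p.Prime := Fact.out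
  by_contra h
  rw [not_lt] at h
  have h1 : (1 : ℝ) ≤ nrm p (ζ - 1) ^ (p - 1) := one_le_pow₀ h
  rw [nrm_lam_pow hζ] at h1
  have : ((p : ℝ))⁻¹ < 1 := inv_ell_lt_one
  linarith

lemma inv_p_lt_nrm_lam (hp2 : p ≠ 2) : ((p : ℝ))⁻¹ < nrm p (ζ - 1) := by
  have hpp : p.Prime := Fact.out
  have h3 : 2 ≤ p - 1 := by have := hpp.two_le; omega
  rw [← nrm_lam_pow hζ]
  calc nrm p (ζ - 1) ^ (p - 1) ≤ nrm p (ζ - 1) ^ 2 :=
        pow_le_pow_of_le_one (nrm_nonneg _) (nrm_lam_lt_one hζ).le h3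
    _ = nrm p (ζ - 1) * nrm p (ζ - 1) := sq _
    _ < nrm p (ζ - 1) * 1 := mul_lt_mul_of_pos_left (nrm_lam_lt_one hζ) (nrm_lam_pos hζ)
    _ = _ := mul_one _

end Zeta

/-! ### The group `Γ_L` -/

variable (p) in
/-- `Γ_L`: the elements of the inertia group at `p` fixing `ζ`. -/
def GamL (ζ : Qb) : Subgroup GQ where
  carrier := {σ | σ ∈ Iv p ∧ σ ζ = ζ}
  mul_mem' := fun {a b} ha hb => ⟨(Iv p).mul_mem ha.1 hb.1, by
    rw [AlgEquiv.mul_apply, hb.2, ha.2]⟩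
  one_mem' := ⟨(Iv p).one_mem, rfl⟩
  inv_mem' := fun {a} ha => ⟨(Iv p).inv_mem ha.1, by
    have h : a⁻¹ (a ζ) = ζ := by
      rw [← AlgEquiv.mul_apply, inv_mul_cancel, AlgEquiv.one_apply]
    rw [ha.2] at h; exact h⟩

lemma mem_GamL {ζ : Qb} {σ : GQ} : σ ∈ GamL p ζ ↔ σ ∈ Iv p ∧ σ ζ = ζ := Iff.rfl

lemma GamL_le_Iv (ζ : Qb) : GamL p ζ ≤ Iv p := fun _ h => h.1

lemma nrm_smul_of_mem_GamL {ζ : Qb} {σ : GQ} (hσ : σ ∈ GamL p ζ) (x : Qb) :
    nrm p (σ x) = nrm p x := nrm_smul_of_mem_Iv hσ.1 x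

/-! ### The value group of `L = ℚ̄^{Γ_L}` -/

lemma nrm_prod {ι : Type*} (s : Finset ι) (f : ι → Qb) :
    nrm p (∏ i ∈ s, f i) = ∏ i ∈ s, nrm p (f i) := by
  classical
  induction s using Finset.induction_on with
  | empty => simp [nrm_one]
  | insert a s ha ih => rw [Finset.prod_insert ha, Finset.prod_insert ha, nrm_mul, ih]

section ValueGroup

variable {ζ : Qb} (hζ : IsPrimitiveRoot ζ p)

/-- the mod `p` cyclotomic character read on `ζ`. -/
def cyc : GQ →* (ZMod p)ˣ :=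
  haveI : NeZero p := ⟨(Fact.out : p.Prime).ne_zero⟩
  hζ.autToPow ℚ

lemma cyc_spec (σ : GQ) : σ ζ = ζ ^ ((cyc hζ σ : (ZMod p)ˣ) : ZMod p).val := by
  haveI : NeZero p := ⟨(Fact.out : p.Prime).ne_zero⟩
  exact (hζ.autToPow_spec ℚ σ).symm

/-- two inertial elements with the same cyclotomic value differ by an element of `Γ_L`. -/
lemma inv_mul_mem_GamL {σ τ : GQ} (hσ : σ ∈ Iv p) (hτ : τ ∈ Iv p) (h : cyc hζ σ = cyc hζ τ) :
    τ⁻¹ * σ ∈ GamL p ζ := by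
  refine ⟨(Iv p).mul_mem ((Iv p).inv_mem hτ) hσ, ?_⟩
  rw [AlgEquiv.mul_apply, cyc_spec hζ σ, h, ← cyc_spec hζ τ, ← AlgEquiv.mul_apply, inv_mul_cancel,
    AlgEquiv.one_apply]

/-- the image of inertia in `(ℤ/p)ˣ`. -/
def cycImage : Subgroup (ZMod p)ˣ := (Iv p).map (cyc hζ)

instance : Finite ↥(cycImage hζ) := inferInstance

/-- a representative in `Iv p` of an element of the image. -/
def rep (a : ↥(cycImage hζ)) : GQ := Classical.choose (Subgroup.mem_map.1 a.2)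

lemma rep_mem (a : ↥(cycImage hζ)) : rep hζ a ∈ Iv p :=
  (Classical.choose_spec (Subgroup.mem_map.1 a.2)).1

lemma cyc_rep (a : ↥(cycImage hζ)) : cyc hζ (rep hζ a) = a :=
  (Classical.choose_spec (Subgroup.mem_map.1 a.2)).2

/-- the norm from `L` to the unramified field. -/
def normL (c : Qb) : Qb :=
  letI : Fintype ↥(cycImage hζ) := Fintype.ofFinite _
  ∏ a : ↥(cycImage hζ), rep hζ a c

lemma normL_fixed {c : Qb} (hc : ∀ σ ∈ GamL p ζ, σ c = c) {τ : GQ} (hτ : τ ∈ Iv p) :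
    τ (normL hζ c) = normL hζ c := by
  classical
  letI : Fintype ↥(cycImage hζ) := Fintype.ofFinite _
  unfold normL
  rw [map_prod]
  set g : ↥(cycImage hζ) := ⟨cyc hζ τ, Subgroup.mem_map_of_mem _ hτ⟩ with hg
  have key : ∀ a : ↥(cycImage hζ), τ (rep hζ a c) = rep hζ (g * a) c := by
    intro a
    have h1 : cyc hζ (τ * rep hζ a) = cyc hζ (rep hζ (g * a)) := by
      rw [map_mul, cyc_rep, cyc_rep]; rfl
    have h2 := inv_mul_mem_GamL hζ ((Iv p).mul_mem hτ (rep_mem hζ a)) (rep_mem hζ (g * a)) h1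
    have h3 := hc _ h2
    rw [AlgEquiv.mul_apply, AlgEquiv.mul_apply] at h3
    have h4 := congrArg (rep hζ (g * a)) h3
    rw [← AlgEquiv.mul_apply, mul_inv_cancel, AlgEquiv.one_apply] at h4
    exact h4
  rw [Finset.prod_congr rfl (fun a _ => key a)]
  exact Equiv.prod_comp (Equiv.mulLeft g) (fun a => rep hζ a c)

lemma nrm_normL (c : Qb) : nrm p (normL hζ c) = nrm p c ^ Nat.card ↥(cycImage hζ) := by
  classical
  letI : Fintype ↥(cycImage hζ) := Fintype.ofFinite _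
  unfold normL
  rw [nrm_prod, Finset.prod_congr rfl (fun a _ => nrm_smul_of_mem_Iv (rep_mem hζ a) c),
    Finset.prod_const, Finset.card_univ, Nat.card_eq_fintype_card]

lemma normL_ne_zero {c : Qb} (hc : c ≠ 0) : normL hζ c ≠ 0 := by
  intro h
  have h1 := nrm_normL hζ c
  rw [h, nrm_zero] at h1
  exact pow_ne_zero _ (nrm_pos hc).ne' h1.symm

lemma card_cycImage_pos : 0 < Nat.card ↥(cycImage hζ) := Nat.card_pos

lemma card_cycImage_dvd : Nat.card ↥(cycImage hζ) ∣ p - 1 := by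
  have h := Subgroup.card_subgroup_dvd_card (cycImage hζ)
  have h2 : Nat.card (ZMod p)ˣ = p - 1 := by
    rw [Nat.card_eq_fintype_card, ZMod.card_units_eq_totient, Nat.totient_prime Fact.out]
  rwa [h2] at h

lemma card_cycImage_lt : Nat.card ↥(cycImage hζ) < p := by
  have h := Nat.le_of_dvd (by have := (Fact.out : p.Prime).two_le; omega) (card_cycImage_dvd hζ)
  have := (Fact.out : p.Prime).two_le
  omega

/-- for `c` in the valuation ring, fixed by `Γ_L`: the norm is an unramified integer. -/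
lemma exists_pow_of_fixed_le {c : Qb} (hc0 : c ≠ 0) (hc : ∀ σ ∈ GamL p ζ, σ c = c)
    (hle : nrm p c ≤ 1) : ∃ n : ℕ, nrm p c ^ Nat.card ↥(cycImage hζ) = (((p : ℝ))⁻¹) ^ n := by
  have hW : normL hζ c ∈ Wur p := by
    rw [mem_Wur_iff]
    refine ⟨?_, fun σ hσ => normL_fixed hζ hc hσ⟩
    rw [nrm_normL]
    exact pow_le_one₀ (nrm_nonneg c) hle
  obtain ⟨n, u, hu, hu', hx⟩ := Wur.exists_eq_pow_mul hW (normL_ne_zero hζ hc0)
  refine ⟨n, ?_⟩
  have hu1 : nrm p u = 1 := by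
    have h1 := (mem_Wur_iff.1 hu).1
    have h2 := (mem_Wur_iff.1 hu').1
    rw [nrm_inv] at h2
    have hupos : 0 < nrm p u := by
      rcases (nrm_nonneg (ℓ := p) u).lt_or_eq with h | h
      · exact h
      · rw [← h, inv_zero] at h2
        have hu0 : u = 0 := nrm_eq_zero.1 h.symm
        rw [hu0, mul_zero] at hx
        exact absurd hx (normL_ne_zero hζ hc0)
    have h3 : 1 ≤ nrm p u := by
      have := (inv_le_one₀ hupos).1 h2
      exact this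
    exact le_antisymm h1 h3
  rw [← nrm_normL, hx, nrm_mul, nrm_pow, nrm_p, hu1, mul_one]

/-- **the value group of `L`, raw form**: `nrm c ^ m = p ^ n` with `m = #(image of inertia)`. -/
theorem exists_card_pow_of_fixed {c : Qb} (hc0 : c ≠ 0) (hc : ∀ σ ∈ GamL p ζ, σ c = c) :
    ∃ n : ℤ, nrm p c ^ Nat.card ↥(cycImage hζ) = ((p : ℝ)) ^ n := by
  rcases le_or_gt (nrm p c) 1 with hle | hgt
  · obtain ⟨n, hn⟩ := exists_pow_of_fixed_le hζ hc0 hc hle
    refine ⟨-(n : ℤ), ?_⟩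
    rw [hn, zpow_neg, zpow_natCast, inv_pow]
  · have hc0' : c⁻¹ ≠ 0 := inv_ne_zero hc0
    have hc' : ∀ σ ∈ GamL p ζ, σ c⁻¹ = c⁻¹ := fun σ hσ => by rw [map_inv₀, hc σ hσ]
    have hle : nrm p c⁻¹ ≤ 1 := by
      rw [nrm_inv]
      exact inv_le_one_of_one_le₀ hgt.le
    obtain ⟨n, hn⟩ := exists_pow_of_fixed_le hζ hc0' hc' hle
    refine ⟨(n : ℤ), ?_⟩
    rw [nrm_inv, inv_pow, inv_pow] at hn
    rw [zpow_natCast]
    exact inv_injective hn

include hζ in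
/-- **the value group of `L` is `(1/(p-1))ℤ`.** -/
theorem nrm_pow_of_fixed {c : Qb} (hc0 : c ≠ 0) (hc : ∀ σ ∈ GamL p ζ, σ c = c) :
    ∃ n : ℤ, nrm p c ^ (p - 1) = ((p : ℝ)) ^ n := by
  obtain ⟨n, hn⟩ := exists_card_pow_of_fixed hζ hc0 hc
  obtain ⟨d, hd⟩ := card_cycImage_dvd hζ
  refine ⟨n * (d : ℤ), ?_⟩
  rw [hd, pow_mul, hn, zpow_mul, zpow_natCast]

include hζ in
/-- **elements of `𝔪_A` fixed by `Γ_L` have norm `≤ |lam|`.** -/
theorem nrm_le_lam_of_fixed {c : Qb} (hc : ∀ σ ∈ GamL p ζ, σ c = c) (hlt : nrm p c < 1) :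
    nrm p c ≤ nrm p (ζ - 1) := by
  have hpp : p.Prime := Fact.out
  rcases eq_or_ne c 0 with rfl | hc0
  · rw [nrm_zero]; exact nrm_nonneg _
  obtain ⟨n, hn⟩ := nrm_pow_of_fixed hζ hc0 hc
  have hp1 : (1 : ℝ) < (p : ℝ) := by exact_mod_cast hpp.one_lt
  have hne : p - 1 ≠ 0 := by have := hpp.two_le; omega
  have h1 : nrm p c ^ (p - 1) < 1 := pow_lt_one₀ (nrm_nonneg c) hlt hne
  rw [hn] at h1
  have hn0 : n < 0 := by
    by_contra h
    rw [not_lt] at h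
    have : (1 : ℝ) ≤ (p : ℝ) ^ n := one_le_zpow₀ hp1.le h
    linarith
  have h2 : (p : ℝ) ^ n ≤ (p : ℝ) ^ (-1 : ℤ) := zpow_le_zpow_right₀ hp1.le (by omega)
  rw [zpow_neg_one, ← nrm_lam_pow hζ, ← hn] at h2
  exact (pow_le_pow_iff_left₀ (nrm_nonneg c) (nrm_nonneg _) hne).1 h2

end ValueGroup

/-! ### Break-1 elements -/

variable (p) in
/-- **A break-1 element** for the character `κ` of `Γ_L`: `t` lies in the fixed field of `ker κ`, has
valuation `1/p`, and is moved by exactly `|lam|` by every `σ ∈ Γ_L` with `κ σ ≠ 0`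
(a uniformiser-like element of a peu ramifié extension `L(t)/L` of degree `p`). -/
structure Break1 (ζ : Qb) (κ : GQ → ZMod p) (t : Qb) : Prop where
  fixed : ∀ σ ∈ GamL p ζ, κ σ = 0 → σ t = t
  nrm_pow : nrm p t ^ p = ((p : ℝ))⁻¹
  move : ∀ σ ∈ GamL p ζ, κ σ ≠ 0 → nrm p (σ t - t) = nrm p (ζ - 1)

/-- `|(1+ε)^i - 1| = |ε|` for `|ε| < 1`, `p ∤ i`. -/
lemma nrm_one_add_pow_sub_one {ε : Qb} (hε : nrm p ε < 1) {i : ℕ} (hi : ¬ p ∣ i) :
    nrm p ((1 + ε) ^ i - 1) = nrm p ε := by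
  have hx : nrm p (1 + ε) ≤ 1 :=
    le_trans (nrm_add_le _ _) (max_le (by rw [nrm_one]) hε.le)
  have h : (1 + ε) ^ i - 1 = (∑ j ∈ Finset.range i, (1 + ε) ^ j) * ε := by
    have := geom_sum_mul (1 + ε) i
    rw [← this]; ring
  have hsum : ∑ j ∈ Finset.range i, (1 + ε) ^ j =
      ((i : ℕ) : Qb) + ∑ j ∈ Finset.range i, ((1 + ε) ^ j - 1) := by
    rw [Finset.sum_sub_distrib, Finset.sum_const, Finset.card_range, nsmul_eq_mul, mul_one]
    ring
  have hsmall : nrm p (∑ j ∈ Finset.range i, ((1 + ε) ^ j - 1)) < 1 := by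
    refine nrm_sum_lt _ _ 1 one_pos (fun j _ => ?_)
    refine lt_of_le_of_lt (nrm_pow_sub_one_le hx j) ?_
    have : (1 + ε) - 1 = ε := by ring
    rw [this]; exact hε
  have h1 : nrm p (∑ j ∈ Finset.range i, (1 + ε) ^ j) = 1 := by
    rw [hsum, nrm_add_eq_of_lt (by rw [nrm_natCast_eq_one hi]; exact hsmall), nrm_natCast_eq_one hi]
  rw [h, nrm_mul, h1, one_mul]

section Main

variable {ζ : Qb} (hζ : IsPrimitiveRoot ζ p) {κ : GQ → ZMod p}
  (hκ : ∀ σ ∈ GamL p ζ, ∀ τ ∈ GamL p ζ, κ (σ * τ) = κ σ + κ τ)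
  {σ₁ : GQ} (hσ₁ : σ₁ ∈ GamL p ζ) (hκ₁ : κ σ₁ = 1)
  {t : Qb} (ht : Break1 p ζ κ t)

include hκ in
lemma kappa_one : κ 1 = 0 := by
  have h := hκ 1 (GamL p ζ).one_mem 1 (GamL p ζ).one_mem
  rw [mul_one] at h
  have : κ 1 + 0 = κ 1 + κ 1 := by rw [add_zero]; exact h
  exact (add_left_cancel this).symm

include hκ in
lemma kappa_inv {σ : GQ} (hσ : σ ∈ GamL p ζ) : κ σ⁻¹ = - κ σ := by
  have h := hκ σ⁻¹ ((GamL p ζ).inv_mem hσ) σ hσ
  rw [inv_mul_cancel, kappa_one hκ] at h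
  exact eq_neg_of_add_eq_zero_left h.symm

include hκ hσ₁ hκ₁ in
lemma kappa_pow (n : ℕ) : κ (σ₁ ^ n) = (n : ZMod p) := by
  induction n with
  | zero => rw [pow_zero, kappa_one hκ, Nat.cast_zero]
  | succ n ih =>
    rw [pow_succ, hκ _ ((GamL p ζ).pow_mem hσ₁ n) _ hσ₁, ih, hκ₁, Nat.cast_succ]

/-- the conjugates of `t`. -/
def tk (σ₁ : GQ) (t : Qb) (k : ZMod p) : Qb := (σ₁ ^ k.val) t

lemma tk_zero : tk σ₁ t (0 : ZMod p) = t := by
  haveI : NeZero p := ⟨(Fact.out : p.Prime).ne_zero⟩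
  unfold tk; rw [ZMod.val_zero, pow_zero, AlgEquiv.one_apply]

lemma tk_one : tk σ₁ t (1 : ZMod p) = σ₁ t := by
  unfold tk; rw [ZMod.val_one, pow_one]

include hκ hσ₁ hκ₁ ht in
lemma smul_t {τ : GQ} (hτ : τ ∈ GamL p ζ) : τ t = tk σ₁ t (κ τ) := by
  unfold tk
  set n := (κ τ).val with hn
  have hg : (σ₁ ^ n)⁻¹ * τ ∈ GamL p ζ :=
    (GamL p ζ).mul_mem ((GamL p ζ).inv_mem ((GamL p ζ).pow_mem hσ₁ n)) hτ
  have hκg : κ ((σ₁ ^ n)⁻¹ * τ) = 0 := by
    rw [hκ _ ((GamL p ζ).inv_mem ((GamL p ζ).pow_mem hσ₁ n)) _ hτ,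
      kappa_inv hκ ((GamL p ζ).pow_mem hσ₁ n), kappa_pow hκ hσ₁ hκ₁, hn, ZMod.natCast_zmod_val]
    ring
  have h := ht.fixed _ hg hκg
  rw [AlgEquiv.mul_apply] at h
  have h2 := congrArg (σ₁ ^ n) h
  rw [← AlgEquiv.mul_apply, mul_inv_cancel, AlgEquiv.one_apply] at h2
  exact h2

include hκ hσ₁ hκ₁ ht in
lemma smul_tk {τ : GQ} (hτ : τ ∈ GamL p ζ) (k : ZMod p) :
    τ (tk σ₁ t k) = tk σ₁ t (k + κ τ) := by
  have h1 : τ (tk σ₁ t k) = (τ * σ₁ ^ k.val) t := by unfold tk; rw [AlgEquiv.mul_apply]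
  have hmem : τ * σ₁ ^ k.val ∈ GamL p ζ := (GamL p ζ).mul_mem hτ ((GamL p ζ).pow_mem hσ₁ _)
  rw [h1, smul_t hκ hσ₁ hκ₁ ht hmem, hκ _ hτ _ ((GamL p ζ).pow_mem hσ₁ _),
    kappa_pow hκ hσ₁ hκ₁, ZMod.natCast_zmod_val, add_comm]

include hκ hσ₁ hκ₁ ht in
lemma nrm_tk_sub {k l : ZMod p} (hkl : k ≠ l) :
    nrm p (tk σ₁ t k - tk σ₁ t l) = nrm p (ζ - 1) := by
  set g : GQ := (σ₁ ^ l.val)⁻¹ * σ₁ ^ k.val with hg
  have hgm : g ∈ GamL p ζ :=
    (GamL p ζ).mul_mem ((GamL p ζ).inv_mem ((GamL p ζ).pow_mem hσ₁ _)) ((GamL p ζ).pow_mem hσ₁ _)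
  have hκg : κ g = k - l := by
    rw [hg, hκ _ ((GamL p ζ).inv_mem ((GamL p ζ).pow_mem hσ₁ _)) _ ((GamL p ζ).pow_mem hσ₁ _),
      kappa_inv hκ ((GamL p ζ).pow_mem hσ₁ _), kappa_pow hκ hσ₁ hκ₁, kappa_pow hκ hσ₁ hκ₁,
      ZMod.natCast_zmod_val, ZMod.natCast_zmod_val]
    ring
  have hne : κ g ≠ 0 := by rw [hκg]; exact sub_ne_zero.2 hkl
  have h1 : tk σ₁ t k - tk σ₁ t l = (σ₁ ^ l.val) (g t - t) := by
    unfold tk
    rw [map_sub, hg, AlgEquiv.mul_apply, ← AlgEquiv.mul_apply (σ₁ ^ l.val), mul_inv_cancel,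
      AlgEquiv.one_apply]
  rw [h1, nrm_smul_of_mem_GamL ((GamL p ζ).pow_mem hσ₁ _), ht.move g hgm hne]

include hσ₁ in
lemma nrm_tk (k : ZMod p) : nrm p (tk σ₁ t k) = nrm p t :=
  nrm_smul_of_mem_GamL ((GamL p ζ).pow_mem hσ₁ _) t

include hζ hκ hσ₁ hκ₁ ht in
lemma tk_injective : Function.Injective (tk (p := p) σ₁ t) := by
  intro k l h
  by_contra hkl
  have := nrm_tk_sub hκ hσ₁ hκ₁ ht hkl
  rw [h, sub_self, nrm_zero] at this
  exact (nrm_lam_pos hζ).ne this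

include ht in
lemma nrm_t_lt_one : nrm p t < 1 := by
  have hpp : p.Prime := Fact.out
  by_contra h
  rw [not_lt] at h
  have h1 : (1 : ℝ) ≤ nrm p t ^ p := one_le_pow₀ h
  rw [ht.nrm_pow] at h1
  have : ((p : ℝ))⁻¹ < 1 := inv_ell_lt_one
  linarith

include ht in
lemma t_ne_zero : t ≠ 0 := by
  intro h
  have := ht.nrm_pow
  rw [h, nrm_zero, zero_pow (Fact.out : p.Prime).ne_zero] at this
  exact inv_ell_pos.ne this

include hζ ht in
lemma nrm_lam_lt_nrm_t : nrm p (ζ - 1) < nrm p t := by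
  have hpp : p.Prime := Fact.out
  by_contra h
  rw [not_lt] at h
  have h1 : nrm p t ^ p ≤ nrm p (ζ - 1) ^ p := pow_le_pow_left₀ (nrm_nonneg t) h p
  have hq : p = (p - 1) + 1 := (Nat.succ_pred_eq_of_pos hpp.pos).symm
  rw [ht.nrm_pow] at h1
  have h2 : nrm p (ζ - 1) ^ p = ((p : ℝ))⁻¹ * nrm p (ζ - 1) := by
    have : nrm p (ζ - 1) ^ ((p - 1) + 1) = ((p : ℝ))⁻¹ * nrm p (ζ - 1) := by
      rw [pow_succ, nrm_lam_pow hζ]
    rwa [← hq] at this
  rw [h2] at h1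
  have h3 : ((p : ℝ))⁻¹ * nrm p (ζ - 1) < ((p : ℝ))⁻¹ * 1 :=
    mul_lt_mul_of_pos_left (nrm_lam_lt_one hζ) inv_ell_pos
  linarith

include hζ ht in
/-- powers of `t` are not in the value group of `L`. -/
lemma nrm_t_pow_ne {c : Qb} (hc0 : c ≠ 0) (hc : ∀ σ ∈ GamL p ζ, σ c = c) {d : ℕ} (hd0 : 0 < d)
    (hdp : d < p) : nrm p c ≠ nrm p t ^ d := by
  have hpp : p.Prime := Fact.out
  intro h
  obtain ⟨n, hn⟩ := exists_card_pow_of_fixed hζ hc0 hc
  set m := Nat.card ↥(cycImage hζ) with hm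
  have hm0 : 0 < m := card_cycImage_pos hζ
  have hmp : m < p := card_cycImage_lt hζ
  have hp1 : (1 : ℝ) < (p : ℝ) := by exact_mod_cast hpp.one_lt
  have hp0 : (0 : ℝ) < (p : ℝ) := by linarith
  -- `(p⁻¹)^(d m) = p^(n p)`
  have h1 : (((p : ℝ))⁻¹) ^ (d * m) = ((p : ℝ)) ^ (n * (p : ℤ)) := by
    rw [← ht.nrm_pow, ← pow_mul, mul_comm p (d * m), pow_mul, pow_mul, ← h, hn, zpow_mul,
      zpow_natCast]
  have h2 : (((p : ℝ))⁻¹) ^ (d * m) = ((p : ℝ)) ^ (-((d * m : ℕ) : ℤ)) := by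
    rw [zpow_neg, zpow_natCast, inv_pow]
  rw [h2] at h1
  have h3 := zpow_right_injective₀ hp0 hp1.ne' h1
  have h4 : (p : ℤ) ∣ ((d * m : ℕ) : ℤ) := ⟨-n, by rw [mul_neg, ← neg_eq_iff_eq_neg.2 h3.symm]; ring⟩
  rw [Int.natCast_dvd_natCast] at h4
  rcases (Nat.Prime.dvd_mul hpp).1 h4 with h5 | h5
  · exact absurd (Nat.le_of_dvd hd0 h5) (not_le.2 hdp)
  · exact absurd (Nat.le_of_dvd hm0 h5) (not_le.2 hmp)

/-- the interpolation polynomial of the orbit `xi` at the conjugates of `t`. -/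
def interp (σ₁ : GQ) (t : Qb) (xi : ZMod p → Qb) : Qb[X] :=
  Lagrange.interpolate Finset.univ (tk σ₁ t) xi

section Interp

variable {xi : ZMod p → Qb} (hperm : ∀ τ ∈ GamL p ζ, ∀ k, τ (xi k) = xi (k + κ τ))

include hζ hκ hσ₁ hκ₁ ht in
lemma eval_interp (k : ZMod p) : (interp σ₁ t xi).eval (tk σ₁ t k) = xi k :=
  Lagrange.eval_interpolate_at_node xi ((tk_injective hζ hκ hσ₁ hκ₁ ht).injOn) (Finset.mem_univ k)

include hζ hκ hσ₁ hκ₁ ht in
lemma degree_interp_lt : (interp σ₁ t xi).degree < (p : ℕ) := by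
  have h := Lagrange.degree_interpolate_lt (s := Finset.univ) xi
    ((tk_injective hζ hκ hσ₁ hκ₁ ht).injOn (s := ↑(Finset.univ : Finset (ZMod p))))
  rwa [Finset.card_univ, ZMod.card] at h

include hζ hκ hσ₁ hκ₁ ht hperm in
/-- the interpolation polynomial has coefficients in `L`. -/
lemma coeff_interp_fixed {τ : GQ} (hτ : τ ∈ GamL p ζ) (i : ℕ) :
    τ ((interp σ₁ t xi).coeff i) = (interp σ₁ t xi).coeff i := by
  set P := interp σ₁ t xi with hP
  have hinj := (tk_injective hζ hκ hσ₁ hκ₁ ht).injOn (s := ↑(Finset.univ : Finset (ZMod p)))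
  have hdeg : (P.map (τ : Qb →+* Qb)).degree < (Finset.univ : Finset (ZMod p)).card := by
    rw [Finset.card_univ, ZMod.card]
    exact lt_of_le_of_lt (Polynomial.degree_map_le) (degree_interp_lt hζ hκ hσ₁ hκ₁ ht)
  have heval : ∀ j ∈ (Finset.univ : Finset (ZMod p)),
      (P.map (τ : Qb →+* Qb)).eval (tk σ₁ t j) = xi j := by
    intro j _
    have h1 : tk σ₁ t j = (τ : Qb →+* Qb) (tk σ₁ t (j - κ τ)) := by
      have := smul_tk hκ hσ₁ hκ₁ ht hτ (j - κ τ)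
      rw [sub_add_cancel] at this
      exact this.symm
    rw [h1, Polynomial.eval_map, Polynomial.eval₂_at_apply, eval_interp hζ hκ hσ₁ hκ₁ ht]
    have := hperm τ hτ (j - κ τ)
    rw [sub_add_cancel] at this
    exact this
  have h := Lagrange.eq_interpolate_of_eval_eq xi hinj hdeg heval
  have h2 : P.map (τ : Qb →+* Qb) = P := h
  have h3 := congrArg (fun Q : Qb[X] => Q.coeff i) h2
  simp only [Polynomial.coeff_map] at h3
  exact h3

end Interp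

include hζ hκ hσ₁ hκ₁ ht in
/-- **(BR) — the break contradiction.**  A `Γ_L`-orbit `xi` indexed by `ℤ/p` through the character
`κ` of a break-1 element, whose members are `|lam|`-close to one another, has its valuation in the
value group of `L`. -/
theorem false_of_close {xi : ZMod p → Qb} (hxi0 : xi 0 ≠ 0)
    (hperm : ∀ τ ∈ GamL p ζ, ∀ k, τ (xi k) = xi (k + κ τ))
    (hclose : nrm p (xi 1 / xi 0 - 1) ≤ nrm p (ζ - 1))
    (hfrac : ∀ c : Qb, c ≠ 0 → (∀ σ ∈ GamL p ζ, σ c = c) → nrm p (xi 0) ≠ nrm p c) : False := by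
  classical
  have hpp : p.Prime := Fact.out
  set P := interp σ₁ t xi with hP
  set c : ℕ → Qb := fun i => P.coeff i with hc
  have hcfix : ∀ i, ∀ σ ∈ GamL p ζ, σ (c i) = c i := fun i σ hσ =>
    coeff_interp_fixed hζ hκ hσ₁ hκ₁ ht hperm hσ i
  have ht0 : t ≠ 0 := t_ne_zero ht
  have htpos : 0 < nrm p t := nrm_pos ht0
  have htlt : nrm p t < 1 := nrm_t_lt_one ht
  have hlampos : 0 < nrm p (ζ - 1) := nrm_lam_pos hζ
  -- `P ≠ 0`, `natDegree P < p`
  have hP0 : P ≠ 0 := by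
    intro h
    have := eval_interp hζ hκ hσ₁ hκ₁ ht (xi := xi) 0
    rw [← hP, h, Polynomial.eval_zero] at this
    exact hxi0 this.symm
  have hnat : P.natDegree < p :=
    (Polynomial.natDegree_lt_iff_degree_lt hP0).2 (degree_interp_lt hζ hκ hσ₁ hκ₁ ht)
  -- the two expansions
  have hX0 : xi 0 = ∑ i ∈ Finset.range p, c i * t ^ i := by
    have := eval_interp hζ hκ hσ₁ hκ₁ ht (xi := xi) 0
    rw [tk_zero, ← hP, Polynomial.eval_eq_sum_range' hnat] at this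
    exact this.symm
  have hX1 : xi 1 = ∑ i ∈ Finset.range p, c i * (σ₁ t) ^ i := by
    have := eval_interp hζ hκ hσ₁ hκ₁ ht (xi := xi) 1
    rw [tk_one, ← hP, Polynomial.eval_eq_sum_range' hnat] at this
    exact this.symm
  -- distinct norms
  have hdist : ∀ i < p, ∀ j < p, i < j → c i ≠ 0 → c j ≠ 0 →
      nrm p (c i * t ^ i) ≠ nrm p (c j * t ^ j) := by
    intro i _ j hj hij hci hcj heq
    rw [nrm_mul, nrm_mul, nrm_pow, nrm_pow] at heq
    have h1 : nrm p (c i / c j) = nrm p t ^ (j - i) := by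
      rw [nrm_div, div_eq_iff (nrm_pos hcj).ne']
      have hji : j = (j - i) + i := by omega
      have h2 : nrm p t ^ j = nrm p t ^ (j - i) * nrm p t ^ i := by
        conv_lhs => rw [hji, pow_add]
      rw [h2] at heq
      have hti : nrm p t ^ i ≠ 0 := pow_ne_zero _ htpos.ne'
      have : nrm p (c i) = nrm p (c j) * nrm p t ^ (j - i) := by
        apply mul_right_cancel₀ hti
        rw [heq]; ring
      rw [this]; ring
    exact nrm_t_pow_ne hζ ht (div_ne_zero hci hcj)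
      (fun σ hσ => by rw [map_div₀, hcfix i σ hσ, hcfix j σ hσ]) (by omega) (by omega) h1
  have hdist' : ∀ i < p, ∀ j < p, i ≠ j → c i ≠ 0 → c j ≠ 0 →
      nrm p (c i * t ^ i) ≠ nrm p (c j * t ^ j) := by
    intro i hi j hj hij hci hcj
    rcases lt_or_gt_of_ne hij with h | h
    · exact hdist i hi j hj h hci hcj
    · exact (hdist j hj i hi h hcj hci).symm
  -- the dominant index
  set S := (Finset.range p).filter (fun i => c i ≠ 0) with hS
  have hSne : S.Nonempty := by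
    by_contra h
    rw [Finset.not_nonempty_iff_eq_empty] at h
    apply hxi0
    rw [hX0]
    apply Finset.sum_eq_zero
    intro i hi
    have : c i = 0 := by
      by_contra hne
      have : i ∈ S := Finset.mem_filter.2 ⟨hi, hne⟩
      rw [h] at this
      exact absurd this (Finset.notMem_empty i)
    rw [this, zero_mul]
  obtain ⟨i0, hi0S, hmax⟩ := Finset.exists_max_image S (fun i => nrm p (c i * t ^ i)) hSne
  have hi0 : i0 ∈ Finset.range p := (Finset.mem_filter.1 hi0S).1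
  have hci0 : c i0 ≠ 0 := (Finset.mem_filter.1 hi0S).2
  have hf0pos : 0 < nrm p (c i0 * t ^ i0) := nrm_pos (mul_ne_zero hci0 (pow_ne_zero _ ht0))
  have hdom : ∀ i ∈ Finset.range p, i ≠ i0 → nrm p (c i * t ^ i) < nrm p (c i0 * t ^ i0) := by
    intro i hi hne
    by_cases hci : c i = 0
    · rw [hci, zero_mul, nrm_zero]; exact hf0pos
    · have hiS : i ∈ S := Finset.mem_filter.2 ⟨hi, hci⟩
      exact lt_of_le_of_ne (hmax i hiS)
        (hdist' i (Finset.mem_range.1 hi) i0 (Finset.mem_range.1 hi0) hne hci hci0)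
  have hnX : nrm p (xi 0) = nrm p (c i0 * t ^ i0) := by
    rw [hX0]; exact nrm_sum_eq_of_dominant _ _ i0 hi0 hdom
  -- `i0 ≠ 0`
  have hi00 : i0 ≠ 0 := by
    intro h
    rw [h, pow_zero, mul_one] at hnX
    exact hfrac (c 0) (h ▸ hci0) (hcfix 0) hnX
  -- the displacement `ε`
  set ε : Qb := (σ₁ t - t) / t with hε
  have hnε : nrm p ε = nrm p (ζ - 1) / nrm p t := by
    rw [hε, nrm_div, ht.move σ₁ hσ₁ (by rw [hκ₁]; exact one_ne_zero)]
  have hεlt : nrm p ε < 1 := by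
    rw [hnε, div_lt_one htpos]; exact nrm_lam_lt_nrm_t hζ ht
  have hεpos : 0 < nrm p ε := by rw [hnε]; exact div_pos hlampos htpos
  have hσt : σ₁ t = t * (1 + ε) := by rw [hε]; field_simp; ring
  -- the difference
  have hdiff : xi 1 - xi 0 = ∑ i ∈ Finset.range p, c i * t ^ i * ((1 + ε) ^ i - 1) := by
    rw [hX0, hX1, ← Finset.sum_sub_distrib]
    apply Finset.sum_congr rfl
    intro i _
    rw [hσt, mul_pow]; ring
  have hgnorm : ∀ i ∈ Finset.range p, i ≠ 0 →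
      nrm p (c i * t ^ i * ((1 + ε) ^ i - 1)) = nrm p (c i * t ^ i) * nrm p ε := by
    intro i hi hi0'
    rw [nrm_mul, nrm_one_add_pow_sub_one hεlt]
    intro hdvd
    have := Nat.le_of_dvd (Nat.pos_of_ne_zero hi0') hdvd
    have := Finset.mem_range.1 hi
    omega
  have hdom2 : ∀ i ∈ Finset.range p, i ≠ i0 →
      nrm p (c i * t ^ i * ((1 + ε) ^ i - 1)) < nrm p (c i0 * t ^ i0 * ((1 + ε) ^ i0 - 1)) := by
    intro i hi hne
    rw [hgnorm i0 hi0 hi00]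
    by_cases hi0' : i = 0
    · rw [hi0', pow_zero, pow_zero, sub_self, mul_zero, nrm_zero]
      exact mul_pos hf0pos hεpos
    · rw [hgnorm i hi hi0']
      exact mul_lt_mul_of_pos_right (hdom i hi hne) hεpos
  have hnd : nrm p (xi 1 - xi 0) = nrm p (xi 0) * nrm p ε := by
    rw [hdiff, nrm_sum_eq_of_dominant _ _ i0 hi0 hdom2, hgnorm i0 hi0 hi00, hnX]
  -- closeness
  have hcl : nrm p (xi 1 - xi 0) ≤ nrm p (ζ - 1) * nrm p (xi 0) := by
    have h1 : xi 1 - xi 0 = (xi 1 / xi 0 - 1) * xi 0 := by field_simp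
    rw [h1, nrm_mul]
    exact mul_le_mul_of_nonneg_right hclose (nrm_nonneg _)
  rw [hnd, hnε] at hcl
  have hXpos : 0 < nrm p (xi 0) := nrm_pos hxi0
  have h2 : nrm p (ζ - 1) / nrm p t ≤ nrm p (ζ - 1) := by
    exact le_of_mul_le_mul_left (a := nrm p (xi 0))
      (by rw [mul_comm (nrm p (ζ - 1))] at hcl; exact hcl) hXpos
  rw [div_le_iff₀ htpos] at h2
  have h3 : nrm p (ζ - 1) * nrm p t < nrm p (ζ - 1) * 1 := mul_lt_mul_of_pos_left htlt hlampos
  linarith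

end Main

/-! ### The Kummer (unit radical) form of (PEU) gives a break-1 element -/

section Unit

variable {ζ : Qb} (hζ : IsPrimitiveRoot ζ p) {κ : GQ → ZMod p}

lemma nrm_lt_one_of_mem_maximalIdeal (y : ↥(padicPlace p))
    (hy : y ∈ IsLocalRing.maximalIdeal ↥(padicPlace p)) : nrm p (y : Qb) < 1 :=
  mem_nonunits_iff.1
    (ValuationSubring.mem_nonunits_iff_exists_mem_maximalIdeal.2 ⟨y.2, by simpa using hy⟩)

/-- a `p`-th root, in the unramified integers and modulo `𝔪_A`, of a unit. -/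
lemma exists_root_mod {c0 : Qb} (hc1 : nrm p c0 = 1) :
    ∃ w0 : Qb, w0 ∈ Wur p ∧ nrm p w0 = 1 ∧ nrm p (c0 - w0 ^ p) < 1 := by
  have hpp : p.Prime := Fact.out
  have hcA : c0 ∈ padicPlace p := mem_Av_iff.2 hc1.le
  haveI : IsAlgClosed (IsLocalRing.ResidueField ↥(padicPlace p)) :=
    Fermat.Agent.ES.KRON.KronInst10.isAlgClosed_residueField (padicPlace p)
  obtain ⟨s, hs⟩ := IsAlgClosed.exists_pow_nat_eq
    (IsLocalRing.residue ↥(padicPlace p) ⟨c0, hcA⟩) hpp.pos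
  obtain ⟨a, ha, hafix⟩ :=
    Fermat.Agent.FF.IFACE.Teich1.exists_inertia_fixed_lift (padicPlace p) hpp
      (liesOverPrime (ℓ := p)) s
  set y : ↥(padicPlace p) := ⟨c0, hcA⟩ - a ^ p with hy
  have hres : IsLocalRing.residue ↥(padicPlace p) y = 0 := by
    rw [hy, map_sub, map_pow, ha, hs, sub_self]
  have hmem : y ∈ IsLocalRing.maximalIdeal ↥(padicPlace p) :=
    (IsLocalRing.residue_eq_zero_iff _).1 hres
  have hval : (y : Qb) = c0 - (a : Qb) ^ p := by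
    rw [hy]; push_cast; rfl
  have hlt : nrm p (c0 - (a : Qb) ^ p) < 1 := by
    rw [← hval]; exact nrm_lt_one_of_mem_maximalIdeal y hmem
  have haW : (a : Qb) ∈ Wur p := ⟨a.2, fun σ hσ => hafix σ hσ⟩
  refine ⟨(a : Qb), haW, ?_, hlt⟩
  -- `nrm (a^p) = 1`
  have h1 : nrm p ((a : Qb) ^ p) = 1 := by
    have : (a : Qb) ^ p = c0 - (c0 - (a : Qb) ^ p) := by ring
    rw [this, nrm_sub_eq_of_lt (by rw [hc1]; exact hlt), hc1]
  rw [nrm_pow] at h1
  exact (pow_eq_one_iff_of_nonneg (nrm_nonneg _) hpp.ne_zero).1 h1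

include hζ in
/-- **(PEU), Kummer form ⇒ break-1 element.**  `u` a unit with `u^p` unramified and
`σ u = ζ^(κ σ) u` on `Γ_L`, `κ` onto: then `t = u / w0 - 1` (`w0` an unramified `p`-th root of `u^p`
modulo `𝔪`) is a break-1 element for `κ`. -/
theorem break1_of_unit (hp2 : p ≠ 2) {u : Qb} (hu1 : nrm p u = 1) (huW : u ^ p ∈ Wur p)
    (hκu : ∀ σ ∈ GamL p ζ, σ u = ζ ^ (κ σ).val * u)
    {σ₁ : GQ} (hσ₁ : σ₁ ∈ GamL p ζ) (hκ₁ : κ σ₁ = 1) : ∃ t : Qb, Break1 p ζ κ t := by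
  classical
  have hpp : p.Prime := Fact.out
  haveI : NeZero p := ⟨hpp.ne_zero⟩
  have hup1 : nrm p (u ^ p) = 1 := by rw [nrm_pow, hu1, one_pow]
  obtain ⟨w0, hw0W, hw01, hw0lt⟩ := exists_root_mod (p := p) hup1
  have hw00 : w0 ≠ 0 := by
    intro h; rw [h, nrm_zero] at hw01; exact zero_ne_one hw01
  have hw0p1 : nrm p (w0 ^ p) = 1 := by rw [nrm_pow, hw01, one_pow]
  have hw0pW : w0 ^ p ∈ Wur p := (Wur p).pow_mem hw0W p
  -- `a = (u^p - w0^p) / (p w0^p)`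
  have hbW : (u ^ p - w0 ^ p) / ((p : ℕ) : Qb) ∈ Wur p :=
    div_ell_mem_Wur ((Wur p).sub_mem huW hw0pW) hw0lt
  set a : Qb := (u ^ p - w0 ^ p) / ((p : ℕ) : Qb) * (w0 ^ p)⁻¹ with ha
  have haW : a ∈ Wur p := (Wur p).mul_mem hbW (inv_mem_Wur hw0pW hw0p1)
  set z : Qb := u / w0 with hz
  have hz1 : nrm p z = 1 := by rw [hz, nrm_div, hu1, hw01, div_one]
  have hzp : 1 - z ^ p = - (((p : ℕ) : Qb) * a) := by
    rw [hz, ha, div_pow]
    have h1 : w0 ^ p ≠ 0 := pow_ne_zero _ hw00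
    have h2 : ((p : ℕ) : Qb) ≠ 0 := ell_ne_zero
    field_simp
    ring
  -- the action on `z`
  have hσz : ∀ σ ∈ GamL p ζ, σ z = ζ ^ (κ σ).val * z := by
    intro σ hσ
    rw [hz, map_div₀, hκu σ hσ, hw0W.2 σ hσ.1, mul_div_assoc]
  have hσpow : ∀ i : ℕ, (σ₁ ^ i) z = ζ ^ i * z := by
    intro i
    induction i with
    | zero => rw [pow_zero, pow_zero, AlgEquiv.one_apply, one_mul]
    | succ i ih =>
      rw [pow_succ, AlgEquiv.mul_apply, hσz σ₁ hσ₁, hκ₁, ZMod.val_one, pow_one, map_mul, ih,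
        ((GamL p ζ).pow_mem hσ₁ i).2, pow_succ]
      ring
  -- all `1 - μ z` have the same norm
  set ρ := nrm p (1 - z) with hρ
  have hμ : ∀ μ ∈ Polynomial.nthRootsFinset p (1 : Qb), nrm p (1 - μ * z) = ρ := by
    intro μ hμ
    have hμ1 : μ ^ p = 1 := (Polynomial.mem_nthRootsFinset hpp.pos 1).1 hμ
    obtain ⟨i, -, rfl⟩ := hζ.eq_pow_of_pow_eq_one hμ1
    have : 1 - ζ ^ i * z = (σ₁ ^ i) (1 - z) := by rw [map_sub, map_one, hσpow]
    rw [this, nrm_smul_of_mem_GamL ((GamL p ζ).pow_mem hσ₁ i)]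
  have hprod : nrm p (1 - z ^ p) = ρ ^ p := by
    have h := hζ.pow_sub_pow_eq_prod_sub_mul (1 : Qb) z hpp.pos
    rw [one_pow] at h
    rw [h, nrm_prod, Finset.prod_congr rfl hμ, Finset.prod_const, hζ.card_nthRootsFinset]
  -- `ρ ≥ |lam|`
  have hmove1 : nrm p (σ₁ (1 - z) - (1 - z)) = nrm p (ζ - 1) := by
    have : σ₁ (1 - z) - (1 - z) = -((ζ - 1) * z) := by
      rw [map_sub, map_one, hσz σ₁ hσ₁, hκ₁, ZMod.val_one, pow_one]; ring
    rw [this, nrm_neg, nrm_mul, hz1, mul_one]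
  have hρge : nrm p (ζ - 1) ≤ ρ := by
    rw [← hmove1]
    refine le_trans (nrm_sub_le _ _) (max_le ?_ le_rfl)
    rw [nrm_smul_of_mem_GamL hσ₁]
  -- `a` is a unit
  have ha1 : nrm p a = 1 := by
    rcases (mem_Wur_iff.1 haW).1.lt_or_eq with hlt | heq
    · exfalso
      have hap : nrm p a ≤ ((p : ℝ))⁻¹ := by
        have h := (mem_Wur_iff.1 (div_ell_mem_Wur haW hlt)).1
        rw [nrm_div, nrm_p, div_le_one inv_ell_pos] at h
        exact h
      have h1 : ρ ^ p ≤ ((p : ℝ))⁻¹ * ((p : ℝ))⁻¹ := by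
        rw [← hprod, hzp, nrm_neg, nrm_mul, nrm_p]
        exact mul_le_mul_of_nonneg_left hap inv_ell_pos.le
      have h2 : nrm p (ζ - 1) ^ p ≤ ρ ^ p := pow_le_pow_left₀ (nrm_nonneg _) hρge p
      have hq : p = (p - 1) + 1 := (Nat.succ_pred_eq_of_pos hpp.pos).symm
      have h3 : nrm p (ζ - 1) ^ p = ((p : ℝ))⁻¹ * nrm p (ζ - 1) := by
        have : nrm p (ζ - 1) ^ ((p - 1) + 1) = ((p : ℝ))⁻¹ * nrm p (ζ - 1) := by
          rw [pow_succ, nrm_lam_pow hζ]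
        rwa [← hq] at this
      have h4 : ((p : ℝ))⁻¹ * ((p : ℝ))⁻¹ < ((p : ℝ))⁻¹ * nrm p (ζ - 1) :=
        mul_lt_mul_of_pos_left (inv_p_lt_nrm_lam hζ hp2) inv_ell_pos
      linarith
    · exact heq
  have hρp : ρ ^ p = ((p : ℝ))⁻¹ := by
    rw [← hprod, hzp, nrm_neg, nrm_mul, nrm_p, ha1, mul_one]
  refine ⟨z - 1, ?_, ?_, ?_⟩
  · intro σ hσ h0
    rw [map_sub, map_one, hσz σ hσ, h0, ZMod.val_zero, pow_zero, one_mul]
  · rw [nrm_sub_comm]; exact hρp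
  · intro σ hσ hne
    have : σ (z - 1) - (z - 1) = (ζ ^ (κ σ).val - 1) * z := by
      rw [map_sub, map_one, hσz σ hσ]; ring
    rw [this, nrm_mul, hz1, mul_one]
    apply nrm_zeta_pow_sub_one hζ
    intro hdvd
    have hlt : (κ σ).val < p := ZMod.val_lt _
    have hpos : 0 < (κ σ).val := Nat.pos_of_ne_zero (fun h => hne ((ZMod.val_eq_zero _).1 h))
    exact absurd (Nat.le_of_dvd hpos hdvd) (not_le.2 hlt)

end Unit

end

end Fermat.Agent.MP.T3.Break7
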