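/-
Programme MP (row 38 via S44), chapter T3 (helper6): **the bridge `absv 𝔻 ↔ nrm p`.**

For a semistable datum `𝔻` over `ℚ̄` whose base valuation ring is `padicPlace p`, the abstract absolute
value `absv 𝔻 z = 𝔻.B.A.valuation z` of `Config2` and the real `p`-adic norm `nrm p z` of
`FF/BASE/Place2` define the same order:

* `absv_le_iff`, `absv_lt_iff`, `absv_eq_iff` : comparisons of two elements;
* `absv_le_one_iff`, `absv_lt_one_iff`, `absv_eq_one_iff` : comparisons with `1`;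
* `nrm_zpow`, `absv_pow_eq_zpow_iff` : `|ξ|^n = |λ|^j` (`n : ℕ`, `j : ℤ`) in both languages;
* `false_of_frac` : an element whose norm is in the value group of `L = ℚ̄^{Γ_L}`
  (`nrm ξ ^ (p-1) = p ^ n`) cannot have `nrm ξ ^ p = nrm λ ^ j` with `p ∤ j`.
-/
import Mathlib
import Fermat.Agent.MP.T3.Config2
import Fermat.Agent.MP.T3.Break7

set_option autoImplicit false
set_option linter.unusedSectionVars false
set_option linter.style.longLine false

namespace Fermat.Agent.MP.T3.Bridge6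

open AlgebraicCurve Fermat.Agent.X0.FF
open Fermat.Agent.ORD.SEMIRED.SemiRedDatum9
open Fermat.Agent.FF.BASE.Place2 Fermat.Agent.TW.FLAT.FlatModule6
open Fermat.Agent.MP.T3.Config2 Fermat.Agent.MP.T3.Break7

noncomputable section

variable {p : ℕ} [Fact p.Prime]
  {F κ Ft : Type*} [Field F] [Algebra Qb F] [Field κ] [Field Ft] [Algebra κ Ft] {ι E : Type*}
  {𝔻 : SemiRedDatum Qb F κ Ft ι E}

theorem mem_A_iff (hA : 𝔻.B.A = padicPlace p) {x : Qb} : x ∈ 𝔻.B.A ↔ nrm p x ≤ 1 := by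
  rw [hA]; exact mem_Av_iff

/-- **the two absolute values define the same order.** -/
theorem absv_le_iff (hA : 𝔻.B.A = padicPlace p) (x y : Qb) :
    absv 𝔻 x ≤ absv 𝔻 y ↔ nrm p x ≤ nrm p y := by
  by_cases hy : y = 0
  · subst hy
    have h0 : absv 𝔻 (0 : Qb) = 0 := map_zero _
    rw [h0, nrm_zero, le_zero_iff]
    constructor
    · intro h
      have : x = 0 := (map_eq_zero _).mp h
      rw [this, nrm_zero]
    · intro h
      have h1 : nrm p x = 0 := le_antisymm h (nrm_nonneg x)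
      have : x = 0 := nrm_eq_zero.mp h1
      rw [this]; exact h0
  · have hy' : absv 𝔻 y ≠ 0 := (map_ne_zero _).mpr hy
    have h1 : absv 𝔻 x ≤ absv 𝔻 y ↔ absv 𝔻 (x / y) ≤ 1 := by
      rw [show absv 𝔻 (x / y) = absv 𝔻 x / absv 𝔻 y from map_div₀ _ _ _]
      exact (div_le_one₀ (zero_lt_iff.mpr hy')).symm
    rw [h1, show absv 𝔻 (x / y) = 𝔻.B.A.valuation (x / y) from rfl,
      ValuationSubring.valuation_le_one_iff, mem_A_iff hA, nrm_div,
      div_le_one (nrm_pos hy)]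

theorem absv_lt_iff (hA : 𝔻.B.A = padicPlace p) (x y : Qb) :
    absv 𝔻 x < absv 𝔻 y ↔ nrm p x < nrm p y := by
  rw [← not_le, ← not_le, absv_le_iff hA]

theorem absv_eq_iff (hA : 𝔻.B.A = padicPlace p) (x y : Qb) :
    absv 𝔻 x = absv 𝔻 y ↔ nrm p x = nrm p y := by
  rw [le_antisymm_iff, le_antisymm_iff, absv_le_iff hA, absv_le_iff hA]

theorem absv_one : absv 𝔻 (1 : Qb) = 1 := map_one _

theorem absv_le_one_iff (hA : 𝔻.B.A = padicPlace p) (x : Qb) :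
    absv 𝔻 x ≤ 1 ↔ nrm p x ≤ 1 := by
  have := absv_le_iff hA x 1
  rwa [absv_one, nrm_one] at this

theorem absv_lt_one_iff (hA : 𝔻.B.A = padicPlace p) (x : Qb) :
    absv 𝔻 x < 1 ↔ nrm p x < 1 := by
  have := absv_lt_iff hA x 1
  rwa [absv_one, nrm_one] at this

theorem absv_eq_one_iff (hA : 𝔻.B.A = padicPlace p) (x : Qb) :
    absv 𝔻 x = 1 ↔ nrm p x = 1 := by
  have := absv_eq_iff hA x 1
  rwa [absv_one, nrm_one] at this

/-- integer powers. -/
theorem nrm_zpow (x : Qb) (j : ℤ) : nrm p (x ^ j) = nrm p x ^ j := by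
  rw [nrm_def, nrm_def, map_zpow₀, norm_zpow]

/-- **`|ξ|^n = |λ|^j` in both languages.** -/
theorem absv_pow_eq_zpow_iff (hA : 𝔻.B.A = padicPlace p) (ξ lam : Qb) (n : ℕ) (j : ℤ) :
    absv 𝔻 ξ ^ n = absv 𝔻 lam ^ j ↔ nrm p ξ ^ n = nrm p lam ^ j := by
  have h1 : absv 𝔻 ξ ^ n = absv 𝔻 (ξ ^ n) := (map_pow _ _ _).symm
  have h2 : absv 𝔻 lam ^ j = absv 𝔻 (lam ^ j) := (map_zpow₀ _ _ _).symm
  rw [h1, h2, absv_eq_iff hA, nrm_pow, nrm_zpow]

/-- **`|x| = |λ|^n` in both languages.** -/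
theorem absv_eq_pow_iff (hA : 𝔻.B.A = padicPlace p) (x lam : Qb) (n : ℕ) :
    absv 𝔻 x = absv 𝔻 lam ^ n ↔ nrm p x = nrm p lam ^ n := by
  have h2 : absv 𝔻 lam ^ n = absv 𝔻 (lam ^ n) := (map_pow _ _ _).symm
  rw [h2, absv_eq_iff hA, nrm_pow]

/-- **the fractional-valuation contradiction**: `nrm ξ ^ (p-1) ∈ p^ℤ`, `nrm ξ ^ p = nrm λ ^ j`, `p ∤ j`
is impossible. -/
theorem false_of_frac {ζ : Qb} (hζ : IsPrimitiveRoot ζ p) {ξ : Qb} {n j : ℤ}
    (h1 : nrm p ξ ^ (p - 1) = ((p : ℝ)) ^ n) (h2 : nrm p ξ ^ p = nrm p (ζ - 1) ^ j)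
    (hj : ¬ (p : ℤ) ∣ j) : False := by
  have hpp : p.Prime := Fact.out
  have hp1 : (1 : ℝ) < (p : ℝ) := by exact_mod_cast hpp.one_lt
  have hp0 : (0 : ℝ) < (p : ℝ) := by linarith
  -- `nrm ξ ^ (p (p-1))` in two ways
  have e1 : nrm p ξ ^ (p * (p - 1)) = ((p : ℝ)) ^ (n * (p : ℤ)) := by
    rw [mul_comm, pow_mul, h1, zpow_mul, zpow_natCast]
  have e2 : nrm p ξ ^ (p * (p - 1)) = ((p : ℝ)) ^ (-j) := by
    rw [pow_mul, h2, ← zpow_natCast, ← zpow_mul, mul_comm, zpow_mul, zpow_natCast, nrm_lam_pow hζ,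
      zpow_neg, inv_zpow]
  rw [e1] at e2
  have h3 : n * (p : ℤ) = -j := zpow_right_injective₀ hp0 (ne_of_gt hp1) e2
  exact hj ⟨-n, by linarith⟩

end

end Fermat.Agent.MP.T3.Bridge6
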