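/-
Programme MP (row 38), chapter T3 (helper6, against helper2's `Iface2`): **(GEO)** —
`RigidityStmt 𝔻 → GenKapStmt 𝔻 → RigidRepStmt 𝔻 → GeoStmt 𝔻` (for a finite set of edges).

`y = [D]`, `div f = p D`, `A = {e | s e ≢ s e₀ mod p}`.
* (RigidRep) + (GenKap) : `y = [C'.div − F₁]` for a configuration `C'` of an `A`-system on a `Γ`-fixed
  ambient system, matched with the base configuration `C₀` whose radii on `A` are fractional,
  `F₁` a `Γ`-fixed divisor;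
* the Galois action on configurations : `γ C'` (coordinates `γ(t i)`, annulus places `γ • P'_e`),
  `(γ C').div = γ • C'.div`, and `γ C'` is matched with `C'` (radii are preserved :
  `|a(γ P)| = |Φ_e(γ P)| = |γ(Φ_e(P))| = |Φ_e(P)| = |a(P)|`, `NodeMax6.Phi_val`);
* `γ • y − y = [(γ C').div − C'.div] = χ(γ) • ℓ₀ = kap_{S₁}(T)` with `S₁` an admissible system off the
  kept discs and `T` `Γ`-fixed, hence `|T j| ≤ |λ|` (`small`); rigidity :
  `|a(γ P'_e) / a(P'_e) − 1| ≤ |λ|`; with `T = 0`, `m = 0` : `γ • y = y ⟹ γ • P'_e = P'_e`;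
* `ξ := Φ_e(P'_e)` : (a) by the last point, (b) by `NodeMax6.Phi_lip`, (c) by `NodeMax6.Phi_val` and the
  radii of `C₀`.
-/
import Mathlib
import Fermat.Agent.MP.T3.NodeMax6

set_option autoImplicit false
set_option linter.unusedSectionVars false
set_option linter.style.longLine false

namespace Fermat.Agent.MP.T3.Geo6

open AlgebraicCurve Fermat.Agent.X0.FF Fermat.Agent.RR.LSpace Fermat.Agent.MW.EMB.Value6
open Fermat.Agent.ORD.ANN.Side3 Fermat.Agent.ORD.ANN.Node3 Fermat.Agent.ORD.ANN.Inertial3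
open Fermat.Agent.ORD.SEMIRED.SemiRedDatum9 Fermat.Agent.ORD.SEMIRED.ToSemiRed9
open Fermat.Agent.ORD.KERN.KerDefs9 Fermat.Agent.ORD.KERN.KerN9 Fermat.Agent.ORD.KERN.KerGalN9
open Fermat.Agent.MP.T3.Config2 Fermat.Agent.MP.T3.Iface2 Fermat.Agent.MP.T3.NodeMax6

noncomputable section

variable {L F k Ft : Type*} [Field L] [Field F] [Algebra L F] [Field k] [Field Ft] [Algebra k Ft]
variable {ι E : Type*} {𝔻 : SemiRedDatum L F k Ft ι E}

/-! ### two components -/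

theorem TwoComp.finite {v0 v1 : ι} (tc : TwoComp 𝔻 v0 v1) : Finite ι := by
  classical
  refine Finite.of_surjective (fun b : Bool => if b then v0 else v1) fun v => ?_
  rcases tc.all v with rfl | rfl
  · exact ⟨true, rfl⟩
  · exact ⟨false, rfl⟩

theorem TwoComp.nonempty {v0 v1 : ι} (_tc : TwoComp 𝔻 v0 v1) : Nonempty ι := ⟨v0⟩

/-! ### the Galois action on configurations -/

section Act

variable {g : ℕ} {S : ASystem 𝔻 g} (γ : SemilinearAut L F)
  (hval : ∀ z : L, absv 𝔻 (SemilinearAut.baseAut γ z) = absv 𝔻 z)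
  (htriv : ∀ P : Place L F, 𝔻.r (γ • P) = 𝔻.r P)

/-- the action on `m_A`. -/
def actM (c : mA 𝔻) : mA 𝔻 :=
  ⟨⟨SemilinearAut.baseAut γ ((c : 𝔻.B.A) : L), by
      rw [← ValuationSubring.valuation_le_one_iff, show 𝔻.B.A.valuation _ = absv 𝔻 _ from rfl, hval]
      exact 𝔻.B.A.valuation_le_one (c : 𝔻.B.A)⟩, by
    rw [ValuationSubring.valuation_lt_one_iff]
    show absv 𝔻 (SemilinearAut.baseAut γ ((c : 𝔻.B.A) : L)) < 1
    rw [hval]
    exact (ValuationSubring.valuation_lt_one_iff 𝔻.B.A (c : 𝔻.B.A)).mp c.2⟩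

@[simp] theorem coe_actM (c : mA 𝔻) :
    (((actM γ hval c : mA 𝔻) : 𝔻.B.A) : L) = SemilinearAut.baseAut γ ((c : 𝔻.B.A) : L) := rfl

theorem discCompat (γ : SemilinearAut L F) (htriv : ∀ P : Place L F, 𝔻.r (γ • P) = 𝔻.r P) :
    DiscCompatN 𝔻 γ := fun P P' h => by rw [htriv, htriv, h]

/-- the configuration `γ C`. -/
def smulConfig (C : Config S) : Config S where
  t i := actM γ hval (C.t i)
  Pe e := γ • C.Pe e
  hPe e he := by rw [htriv]; exact C.hPe e he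

theorem smulConfig_div (hS : FixesN S.S0 γ) (C : Config S) :
    (smulConfig γ hval htriv C).div = γ • C.div := by
  unfold Config.div
  rw [smul_add, Finset.smul_sum, Finset.smul_sum]
  congr 1
  · refine Finset.sum_congr rfl fun i _ => ?_
    rw [SemilinearAut.smul_single, smul_pt (discCompat γ htriv) hS i (c := C.t i)
      (c' := actM γ hval (C.t i)) rfl]
    rfl
  · refine Finset.sum_congr rfl fun e _ => ?_
    rw [SemilinearAut.smul_single]
    rfl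

end Act

/-! ### radii are preserved -/

section Radii

variable {Γ : Type*} [Group Γ] {p gen : ℕ} (G : T3Setting 𝔻 Γ p gen)

theorem val_base (γ : Γ) (z : L) :
    absv 𝔻 (SemilinearAut.baseAut (G.ρ γ) z) = absv 𝔻 z := (G.inert γ).val_base z

/-- the value of a node function at `γ • P`. -/
theorem valF_Phi_smul (γ : Γ) (e : E) (P : Place L F) :
    valF 𝔻.HL (G.ρ γ • P) (G.Φ e) = SemilinearAut.baseAut (G.ρ γ) (valF 𝔻.HL P (G.Φ e)) := by
  have h := Fermat.Agent.MW.EMB.GalVal1.valF_smul 𝔻.HL (G.ρ γ) P (G.Φ e)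
  rwa [G.Φ_fix] at h

/-- **radii are preserved by `Γ`.** -/
theorem absv_acoord_smul (γ : Γ) (e : E) {P : Place L F} (hP : 𝔻.r P = Sum.inr e) :
    absv 𝔻 (acoord 𝔻 e (G.ρ γ • P)) = absv 𝔻 (acoord 𝔻 e P) := by
  rw [← Phi_val G e (by rw [G.triv]; exact hP), ← Phi_val G e hP, valF_Phi_smul, val_base]

end Radii

/-! ### the displacement estimate -/

section Move

variable {Γ : Type} [Group Γ] {p gen : ℕ} (G : T3Setting 𝔻 Γ p gen)

/-- the configuration `γ C`, for `γ : Γ`. -/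
def smulC {S : ASystem 𝔻 gen} (γ : Γ) (C : Config S) : Config S :=
  smulConfig (G.ρ γ) (val_base G γ) (G.triv γ) C

theorem smulC_Pe {S : ASystem 𝔻 gen} (γ : Γ) (C : Config S) (e : E) :
    (smulC G γ C).Pe e = G.ρ γ • C.Pe e := rfl

theorem smulC_matched {S : ASystem 𝔻 gen} (γ : Γ) (C : Config S) : (smulC G γ C).Matched C :=
  fun e he => absv_acoord_smul G γ e (C.hPe e he)

/-- **the displacement estimate** : if `γ • [C'.div − F₁] − [C'.div − F₁] = kap_{S₁}(T)` with `S₁` off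
the kept discs of `S` and `|T j| ≤ |m|`, then `γ` moves the annulus coordinates of `C'` by at most
`|m|` (relatively). -/
theorem move_le (hrig : RigidityStmt 𝔻) {v0 v1 : ι} (tc : TwoComp 𝔻 v0 v1)
    {S : ASystem 𝔻 gen} (he0 : ∃ e0, e0 ∉ S.A) (hSfix : ∀ γ, FixesN S.S0 (G.ρ γ))
    (C' : Config S) (F1 : Divisor L F) (hF1 : DivFixed G F1)
    (X : Divisor.degZero (K := L) (F := F)) (hX : (X : Divisor L F) = C'.div - F1)
    (γ : Γ) {g1 : ℕ} (S1 : NSSystemN 𝔻 g1)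
    (h1 : ∀ i ∈ S.I, ∀ j, (S.S0.c i, S.S0.Q i) ≠ (S1.c j, S1.Q j))
    (h2 : ∀ j, (S1.c j, S1.Q j) ≠ (S.S0.c0, S.S0.Q0))
    (T : Fin g1 → mA 𝔻) (m : L) (hT : ∀ j, absv 𝔻 ((T j : 𝔻.B.A) : L) ≤ absv 𝔻 m)
    (hz : G.ρ γ • Pic0.mk X - Pic0.mk X = S1.kap T) :
    ∀ e ∈ S.A, absv 𝔻 (acoord 𝔻 e (G.ρ γ • C'.Pe e) / acoord 𝔻 e (C'.Pe e) - 1) ≤ absv 𝔻 m := by
  -- the class of `(γ C').div − C'.div`
  have hdiv := smulConfig_div (G.ρ γ) (val_base G γ) (G.triv γ) (hSfix γ) C'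
  have hz' : Pic0.mk (S1.kapDiv T) = Pic0.mk (SemilinearAut.degZeroSMulHom (G.ρ γ) X - X) := by
    show S1.kap T = _
    rw [← hz, SemilinearAut.pic0_smul_mk]
    rfl
  rw [Fermat.Agent.FF.KER.Ker0.NSSystem.mk_eq_mk_iff] at hz'
  obtain ⟨h, hh0, hh⟩ := hz'
  have hord : ∀ P : Place L F, P.ord h =
      (smulC G γ C').div P - C'.div P - (S1.Ediv T P - S1.D0 P) := by
    intro P
    rw [← hh P]
    show ((SemilinearAut.degZeroSMulHom (G.ρ γ) X - X : Divisor.degZero (K := L) (F := F)) :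
      Divisor L F) P - ((S1.kapDiv T : Divisor.degZero (K := L) (F := F)) : Divisor L F) P = _
    rw [NSSystemN.coe_kapDiv, AddSubgroup.coe_sub, SemilinearAut.coe_degZeroSMulHom, hX, smul_sub, hF1 γ,
      ← hdiv]
    simp only [Finsupp.sub_apply]
    show _ = (smulConfig (G.ρ γ) (val_base G γ) (G.triv γ) C').div P - _ - _
    ring
  exact (hrig v0 v1 tc gen S he0 (smulC G γ C') C' (smulC_matched G γ C') g1 S1 h1 h2 T m hT h hh0
    hord).2

end Move

/-! ### (GEO) -/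

/-- **(GEO)** from rigidity, the generalised `kap` and the rigid representatives. -/
theorem geo [Finite E] (hrig : RigidityStmt 𝔻) (hkap : GenKapStmt 𝔻) (hrep : RigidRepStmt 𝔻) :
    GeoStmt 𝔻 := by
  classical
  intro v0 v1 tc Γ _ p gen hp hp5 G y ℓ0 hℓ0 hℓfix χ hχ D hD f hf hdiv c hc e e0 hne
  haveI : Finite ι := TwoComp.finite tc
  haveI : Nonempty ι := TwoComp.nonempty tc
  haveI : Fintype E := Fintype.ofFinite E
  -- the set `A`
  set s : E → ℤ := fun e' => (𝔻.Qs e').ord ((𝔻.side v0).nred c f) with hs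
  set A : Finset E := Finset.univ.filter (fun e' => ¬ (p : ℤ) ∣ s e' - s e0) with hAdef
  have hA : ∀ e', e' ∈ A ↔ ¬ (p : ℤ) ∣ s e' - s e0 := fun e' => by
    rw [hAdef, Finset.mem_filter]
    exact ⟨fun h => h.2, fun h => ⟨Finset.mem_univ _, h⟩⟩
  have heA : e ∈ A := (hA e).mpr hne
  have he0A : e0 ∉ A := fun h => (hA e0).mp h (by rw [sub_self]; exact dvd_zero _)
  -- the rigid representative
  obtain ⟨S, C0, F1, Z, hSfix, hSA, hgen, -, -, hF1, hZ, hZker, hrad⟩ :=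
    hrep v0 v1 tc Γ p gen hp hp5 G D f hf hdiv c hc e0 A hA ∅ Set.finite_empty
  have he0S : ∃ e0, e0 ∉ S.A := ⟨e0, by rw [hSA]; exact he0A⟩
  have heS : e ∈ S.A := by rw [hSA]; exact heA
  have hRR' : ∀ D' : Divisor L F, Divisor.degree D' = (S.I.card + S.A.card : ℕ) →
      ∃ f : F, f ≠ 0 ∧ ∀ P, -(D' P) ≤ P.ord f := fun D' hD' =>
    G.hRR D' (by rw [hD']; exact_mod_cast hgen)
  obtain ⟨C', φ, hφ, hmatch, hφdiv⟩ := hkap v0 v1 tc gen S he0S C0 hRR' Z hZker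
  -- `y = [C'.div − F₁]`
  have hXdeg : C'.div - F1 ∈ Divisor.degZero (K := L) (F := F) := by
    have h1 : (D : Divisor L F) - (C'.div - F1) ∈ Divisor.principal (K := L) (F := F) :=
      ⟨φ⁻¹, inv_ne_zero hφ, fun P => by
        rw [P.ord_inv, hφdiv P, hZ]
        simp only [Finsupp.sub_apply]
        ring⟩
    obtain ⟨ψ, hψ0, hψ⟩ := h1
    obtain ⟨D'', hD''1, hD''2⟩ := 𝔻.HL.principal ψ hψ0
    have heq : (D : Divisor L F) - (C'.div - F1) = D'' := by
      ext P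
      rw [hψ P, hD''1 P]
    rw [Divisor.mem_degZero]
    have h3 : Divisor.degree ((D : Divisor L F) - (C'.div - F1)) = 0 := by rw [heq, hD''2]
    rw [map_sub, Divisor.mem_degZero.mp D.2, zero_sub, neg_eq_zero] at h3
    exact h3
  set X : Divisor.degZero (K := L) (F := F) := ⟨C'.div - F1, hXdeg⟩ with hXdef
  have hyX : y = Pic0.mk X := by
    rw [← hD, Fermat.Agent.FF.KER.Ker0.NSSystem.mk_eq_mk_iff]
    refine ⟨φ, hφ, fun P => ?_⟩
    rw [hφdiv P, hZ]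
    show (C'.div - F1 - (D : Divisor L F)) P = _
    simp only [Finsupp.sub_apply]
    ring
  -- an admissible system off the kept discs
  set Bad : Set (ι × Place k Ft) :=
    ((fun i => (S.S0.c i, S.S0.Q i)) '' (S.I : Set (Fin gen))) ∪ {(S.S0.c0, S.S0.Q0)} with hBad
  have hBadfin : Bad.Finite := (S.I.finite_toSet.image _).union (Set.finite_singleton _)
  obtain ⟨S1, hS1fix, hS1bad, -⟩ := G.adm Bad hBadfin
  have h1 : ∀ i ∈ S.I, ∀ j, (S.S0.c i, S.S0.Q i) ≠ (S1.c j, S1.Q j) := by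
    intro i hi j h
    exact hS1bad j (Or.inl ⟨i, hi, h⟩)
  have h2 : ∀ j, (S1.c j, S1.Q j) ≠ (S.S0.c0, S.S0.Q0) := by
    intro j h
    exact hS1bad j (Or.inr h)
  have hRR1 : ∀ E' : Divisor L F, Divisor.degree E' = (gen : ℤ) →
      ∃ f : F, f ≠ 0 ∧ ∀ P, -(E' P) ≤ P.ord f := fun E' hE' => G.hRR E' (le_of_eq hE'.symm)
  -- the annulus place and the element `ξ`
  set P' : Place L F := C'.Pe e with hP'
  have hP'r : 𝔻.r P' = Sum.inr e := C'.hPe e heS
  have hP'ann : P' ∈ (𝔻.node e).ann := (𝔻.r_ann e P').mpr hP'r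
  set ξ : L := valF 𝔻.HL P' (G.Φ e) with hξ
  have hξval : absv 𝔻 ξ = absv 𝔻 (acoord 𝔻 e P') := Phi_val G e hP'r
  have ha0 : acoord 𝔻 e P' ≠ 0 := (𝔻.node e).a_ne P' hP'ann
  have hξ0 : ξ ≠ 0 := by
    intro h0
    have hz0 : absv 𝔻 (0 : L) = 0 := map_zero _
    rw [h0, hz0] at hξval
    exact ha0 ((Valuation.zero_iff _).mp hξval.symm)
  have hγξ : ∀ γ : Γ, SemilinearAut.baseAut (G.ρ γ) ξ = valF 𝔻.HL (G.ρ γ • P') (G.Φ e) :=
    fun γ => (valF_Phi_smul G γ e P').symm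
  refine ⟨ξ, hξ0, ?_, ?_, ?_⟩
  · -- (a)
    intro γ hγy
    have hz : G.ρ γ • Pic0.mk X - Pic0.mk X = S1.kap 0 := by
      rw [← hyX, hγy, sub_self, S1.kap_zero]
    have hmv := move_le G hrig tc he0S hSfix C' F1 hF1 X rfl γ S1 h1 h2 0 0
      (fun j => by simp) hz e heS
    have hz0 : absv 𝔻 (0 : L) = 0 := map_zero _
    rw [hz0] at hmv
    have h0 : acoord 𝔻 e (G.ρ γ • P') / acoord 𝔻 e P' - 1 = 0 :=
      (Valuation.zero_iff _).mp (le_antisymm hmv zero_le)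
    have h3 : acoord 𝔻 e (G.ρ γ • P') = acoord 𝔻 e P' := by
      have := sub_eq_zero.mp h0
      rwa [div_eq_one_iff_eq ha0] at this
    have hγP'ann : G.ρ γ • P' ∈ (𝔻.node e).ann :=
      (𝔻.r_ann e _).mpr (by rw [G.triv]; exact hP'r)
    have h4 : G.ρ γ • P' = P' := (𝔻.node e).a_inj _ hγP'ann _ hP'ann h3
    rw [hγξ, h4]
  · -- (b)
    intro γ
    have hzker : χ γ • ℓ0 ∈ kerRed 𝔻 := (kerRed 𝔻).zsmul_mem hℓ0 _
    set T : Fin gen → mA 𝔻 := (kerEquiv S1 hRR1).symm ⟨χ γ • ℓ0, hzker⟩ with hTdef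
    have hkapT : S1.kap T = χ γ • ℓ0 := by
      have := (kerEquiv S1 hRR1).apply_symm_apply ⟨χ γ • ℓ0, hzker⟩
      exact congrArg Subtype.val this
    have hTfix : ∀ (δ : Γ) j, SemilinearAut.baseAut (G.ρ δ) ((T j : 𝔻.B.A) : L) =
        ((T j : 𝔻.B.A) : L) := by
      intro δ j
      refine coord_fixed_of_smul_eq (discCompat (G.ρ δ) (G.triv δ)) (hS1fix δ) ?_ j
      rw [hkapT, SemilinearAut.smul_zsmul, hℓfix δ]
    have hTle : ∀ j, absv 𝔻 ((T j : 𝔻.B.A) : L) ≤ absv 𝔻 G.lam := fun j =>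
      G.small _ (fun δ => hTfix δ j)
        ((ValuationSubring.valuation_lt_one_iff 𝔻.B.A (T j : 𝔻.B.A)).mp (T j).2)
    have hz : G.ρ γ • Pic0.mk X - Pic0.mk X = S1.kap T := by
      rw [← hyX, hχ γ, hkapT]
    have hmv := move_le G hrig tc he0S hSfix C' F1 hF1 X rfl γ S1 h1 h2 T G.lam hTle hz e heS
    have hγP'r : 𝔻.r (G.ρ γ • P') = Sum.inr e := by rw [G.triv]; exact hP'r
    have hlip := Phi_lip G e hγP'r hP'r (hmv.trans G.lam_lt.le)
    rw [hγξ]
    exact hlip.trans hmv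
  · -- (c)
    obtain ⟨j, hj, hjeq⟩ := hrad e heA
    refine ⟨j, hj, ?_⟩
    rw [hξval, hmatch e heS]
    exact hjeq

end

end Fermat.Agent.MP.T3.Geo6
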