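/-
Programme MP (row 38 via S44), chapter T3 (helper6, against helper2's `Iface2`): **(T3) on a concrete
semistable datum of `X₀(N)` along `padicPlace p`.**

`𝔻 : SemiRedDatum ℚ̄ (X0.FF N) κ Ft ι E` with the working facts `h : DatumFacts p N 𝔻` of programme ORD
(`MP/FINAL/DatumFacts6`; for `MainDatum6.datum` : `datumFacts_datum`), `ζ` a primitive `p`-th root of
unity, `Γ_L = Break7.GamL p ζ` (the inertial elements fixing `ζ`).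

* `rhoL`, `setting` : **the concrete `Iface2.T3Setting 𝔻 Γ_L p (gen N)`**, with the exact thickness (TH)
  and the `Γ_L`-fixed node functions (R1') as explicit hypotheses; everything else (`inert`, `triv`,
  `lam = ζ − 1`, `small`, `teich`, `p_eq`, `adm`, `Bad0`/`fixedPlace`, `hRR`) comes from `DatumFacts`,
  `Break7` and the bridge `Bridge6` between `absv 𝔻` and `nrm p`;
* `false_of_geo` : **(GEO) against (BR)** in the language of `Break7` : no `ξ ≠ 0` fixed by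
  `ker κ ∩ Γ_L`, moved by at most `|λ|` by `Γ_L`, with `|ξ|^p = |λ|^j`, `p ∤ j`, when `κ|Γ_L` is additive
  and peu ramifié (split, or with a break-1 element) [the orbit `xi k = σ₁^k ξ` fed to
  `Break7.false_of_close`; the split case by `Break7.nrm_pow_of_fixed`];
* `kappa_add_of_act` : the cocycle `κ` is additive on `Γ_L`;
* **`tau_eq_of_geo`** : `GeoStmt 𝔻` ⟹ `τ(y)_e = τ(y)_{e₀}` for all edges, for `y ∈ J[p]` with
  `σ y − y = κ(σ) ℓ₀` on `Γ_L`, `ℓ₀ ∈ kerRed 𝔻` fixed by `Γ_L`, of order `p`, `κ` peu ramifié;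
* **`tau_const_of_geo`** : then `τ` is constant on every `a • ℓ₀ + b • y` (`τ(ℓ₀) = 0`);
* `exists_mem_Iv_zeta_ne` : inertia moves `ζ` (`p ≠ 2`).
-/
import Mathlib
import Fermat.Agent.MP.FINAL.DatumFacts6
import Fermat.Agent.MP.T3.Geo6
import Fermat.Agent.MP.T3.Bridge6
import Fermat.Agent.MP.TAU.TauDefs3

set_option autoImplicit false
set_option linter.unusedSectionVars false
set_option linter.style.longLine false
set_option linter.style.haveILetI false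

namespace Fermat.Agent.MP.T3.T3Datum6

open AlgebraicCurve ModularCurve Fermat.Agent.X0.FF Fermat.Agent.RR.LSpace
open Fermat.Agent.ORD.ANN.Side3 Fermat.Agent.ORD.ANN.Inertial3
open Fermat.Agent.ORD.SEMIRED.SemiRedDatum9 Fermat.Agent.ORD.SEMIRED.ToSemiRed9
open Fermat.Agent.ORD.KERN.KerDefs9 Fermat.Agent.ORD.KERN.KerN9 Fermat.Agent.ORD.KERN.KerGalN9
open Fermat.Agent.FF.BASE.Place2 Fermat.Agent.FF.FINAL.Final0 GaloisRep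
open Fermat.Agent.TW.FLAT.FlatModule6
open Fermat.Agent.MP.FINAL.DatumFacts6
open Fermat.Agent.MP.T3.Config2 Fermat.Agent.MP.T3.Iface2 Fermat.Agent.MP.T3.Break7
open Fermat.Agent.MP.T3.Bridge6 Fermat.Agent.MP.TAU.TauDefs3

noncomputable section

variable {p : ℕ} [Fact p.Prime]

/-! ### group theory of `κ` -/

/-- an element of order `p` : `a.val • ℓ = n • ℓ` forces `a = n` in `ZMod p`. -/
theorem eq_natCast_of_val_smul_eq {J : Type*} [AddCommGroup J] {ℓ : J} (hℓ0 : ℓ ≠ 0)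
    (hpℓ : p • ℓ = 0) {a : ZMod p} {n : ℕ} (h : a.val • ℓ = n • ℓ) : a = (n : ZMod p) := by
  have hpp : p.Prime := Fact.out
  haveI : NeZero p := ⟨hpp.ne_zero⟩
  have h1 : ((a.val : ℤ) - (n : ℤ)) • ℓ = 0 := by
    rw [sub_smul, natCast_zsmul, natCast_zsmul, h, sub_self]
  have hdvd : (p : ℤ) ∣ (a.val : ℤ) - (n : ℤ) := by
    by_contra hnd
    have hcop : IsCoprime ((a.val : ℤ) - (n : ℤ)) (p : ℤ) :=
      ((Nat.prime_iff_prime_int.mp hpp).coprime_iff_not_dvd.mpr hnd).symm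
    obtain ⟨s, t, hst⟩ := hcop
    apply hℓ0
    have : ℓ = (s * ((a.val : ℤ) - (n : ℤ)) + t * (p : ℤ)) • ℓ := by rw [hst, one_smul]
    rw [this, add_smul, mul_smul, mul_smul, h1, smul_zero, natCast_zsmul, hpℓ, smul_zero, add_zero]
  have h2 : ((a.val : ℤ) : ZMod p) = ((n : ℤ) : ZMod p) :=
    (ZMod.intCast_eq_intCast_iff_dvd_sub _ _ p).mpr (by
      have : (n : ℤ) - (a.val : ℤ) = -((a.val : ℤ) - (n : ℤ)) := by ring
      rw [this]; exact (dvd_neg).mpr hdvd)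
  push_cast at h2
  rwa [ZMod.natCast_zmod_val] at h2

/-- `κ (σ ^ n) = n • κ σ` for a character additive on `Γ_L`. -/
theorem kappa_pow' {ζ : Qb} {κc : GQ → ZMod p}
    (hκ : ∀ σ ∈ GamL p ζ, ∀ τ ∈ GamL p ζ, κc (σ * τ) = κc σ + κc τ)
    {σ : GQ} (hσ : σ ∈ GamL p ζ) (n : ℕ) : κc (σ ^ n) = (n : ZMod p) * κc σ := by
  induction n with
  | zero => rw [pow_zero, kappa_one hκ, Nat.cast_zero, zero_mul]
  | succ n ih =>
    rw [pow_succ, hκ _ ((GamL p ζ).pow_mem hσ n) _ hσ, ih, Nat.cast_succ]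
    ring

/-! ### the break contradiction, in `nrm` language -/

/-- **(GEO) against (BR)**, in the language of `Break7`: there is no `ξ ≠ 0` fixed by `ker κ ∩ Γ_L`,
moved by at most `|λ|` by `Γ_L`, with `|ξ|^p = |λ|^j`, `p ∤ j`, when `κ|Γ_L` is peu ramifié. -/
theorem false_of_geo {ζ : Qb} (hζ : IsPrimitiveRoot ζ p) {κc : GQ → ZMod p}
    (hκ : ∀ σ ∈ GamL p ζ, ∀ τ ∈ GamL p ζ, κc (σ * τ) = κc σ + κc τ)
    (hpeu : (∀ σ ∈ GamL p ζ, κc σ = 0) ∨ ∃ t : Qb, Break1 p ζ κc t)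
    {ξ : Qb} (hξ0 : ξ ≠ 0) (hfix : ∀ σ ∈ GamL p ζ, κc σ = 0 → σ ξ = ξ)
    (hmove : ∀ σ ∈ GamL p ζ, nrm p (σ ξ / ξ - 1) ≤ nrm p (ζ - 1))
    {j : ℤ} (hj : ¬ (p : ℤ) ∣ j) (hval : nrm p ξ ^ p = nrm p (ζ - 1) ^ j) : False := by
  have hpp : p.Prime := Fact.out
  haveI : NeZero p := ⟨hpp.ne_zero⟩
  have hfrac : ∀ c : Qb, c ≠ 0 → (∀ σ ∈ GamL p ζ, σ c = c) → nrm p ξ ≠ nrm p c := by
    intro c hc0 hcfix heq
    obtain ⟨n, hn⟩ := nrm_pow_of_fixed hζ hc0 hcfix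
    exact false_of_frac hζ (by rw [heq]; exact hn) hval hj
  by_cases hsplit : ∀ σ ∈ GamL p ζ, κc σ = 0
  · exact hfrac ξ hξ0 (fun σ hσ => hfix σ hσ (hsplit σ hσ)) rfl
  rcases hpeu with h0 | ⟨t, ht⟩
  · exact hsplit h0
  obtain ⟨σ₀, hσ₀, hκ₀⟩ : ∃ σ₀ ∈ GamL p ζ, κc σ₀ ≠ 0 := by
    by_contra hno
    exact hsplit fun σ hσ => by_contra fun hne => hno ⟨σ, hσ, hne⟩
  -- `σ₁` with `κ σ₁ = 1`
  set m : ℕ := ((κc σ₀)⁻¹).val with hm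
  set σ₁ : GQ := σ₀ ^ m with hσ₁def
  have hσ₁ : σ₁ ∈ GamL p ζ := (GamL p ζ).pow_mem hσ₀ m
  have hκ₁ : κc σ₁ = 1 := by
    rw [hσ₁def, kappa_pow' hκ hσ₀, hm, ZMod.natCast_zmod_val, inv_mul_cancel₀ hκ₀]
  -- the orbit
  set xi : ZMod p → Qb := fun k => (σ₁ ^ k.val) ξ with hxi
  have hxi0 : xi 0 = ξ := by
    rw [hxi]; simp only [ZMod.val_zero, pow_zero, AlgEquiv.one_apply]
  have hxi1 : xi 1 = σ₁ ξ := by
    rw [hxi]; simp only [ZMod.val_one, pow_one]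
  refine false_of_close hζ hκ hσ₁ hκ₁ ht (xi := xi) (by rw [hxi0]; exact hξ0) ?_ ?_ ?_
  · -- permutation
    intro τ hτ k
    set a : ℕ := k.val with ha
    set b : ℕ := (k + κc τ).val with hb
    set ρ : GQ := (σ₁ ^ b)⁻¹ * τ * σ₁ ^ a with hρ
    have hσa : σ₁ ^ a ∈ GamL p ζ := (GamL p ζ).pow_mem hσ₁ a
    have hσb : σ₁ ^ b ∈ GamL p ζ := (GamL p ζ).pow_mem hσ₁ b
    have hρmem : ρ ∈ GamL p ζ :=
      (GamL p ζ).mul_mem ((GamL p ζ).mul_mem ((GamL p ζ).inv_mem hσb) hτ) hσa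
    have hκρ : κc ρ = 0 := by
      rw [hρ, hκ _ ((GamL p ζ).mul_mem ((GamL p ζ).inv_mem hσb) hτ) _ hσa,
        hκ _ ((GamL p ζ).inv_mem hσb) _ hτ, kappa_inv hκ hσb, kappa_pow hκ hσ₁ hκ₁,
        kappa_pow hκ hσ₁ hκ₁, ha, hb, ZMod.natCast_zmod_val, ZMod.natCast_zmod_val]
      ring
    have hρξ : ρ ξ = ξ := hfix ρ hρmem hκρ
    have hprod : τ * σ₁ ^ a = σ₁ ^ b * ρ := by
      rw [hρ]; group
    show τ ((σ₁ ^ a) ξ) = (σ₁ ^ b) ξ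
    rw [← AlgEquiv.mul_apply, hprod, AlgEquiv.mul_apply, hρξ]
  · rw [hxi0, hxi1]
    exact hmove σ₁ hσ₁
  · rw [hxi0]
    exact hfrac

/-- **inertia moves `ζ`** (`p ≠ 2`). -/
theorem exists_mem_Iv_zeta_ne (hp2 : p ≠ 2) {ζ : Qb} (hζ : IsPrimitiveRoot ζ p) :
    ∃ σ ∈ Iv p, σ ζ ≠ ζ := by
  have hpp : p.Prime := Fact.out
  by_contra hno
  have hall : ∀ σ ∈ Iv p, σ ζ = ζ := fun σ hσ => by_contra fun hne => hno ⟨σ, hσ, hne⟩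
  have hlam0 : ζ - 1 ≠ 0 := lam_ne_zero hζ
  have hW : ζ - 1 ∈ Wur p := by
    rw [mem_Wur_iff]
    exact ⟨(nrm_lam_lt_one hζ).le, fun σ hσ => by rw [map_sub, map_one, hall σ hσ]⟩
  obtain ⟨n, u, hu, hu', hx⟩ := Wur.exists_eq_pow_mul hW hlam0
  have hu0 : u ≠ 0 := by
    rintro rfl
    rw [mul_zero] at hx
    exact hlam0 hx
  have hu1 : nrm p u = 1 := by
    have h1 := (mem_Wur_iff.1 hu).1
    have h2 := (mem_Wur_iff.1 hu').1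
    rw [nrm_inv] at h2
    exact le_antisymm h1 ((inv_le_one₀ (nrm_pos hu0)).1 h2)
  have h3 : nrm p (ζ - 1) = (((p : ℝ))⁻¹) ^ n := by
    rw [hx, nrm_mul, nrm_pow, nrm_natCast_self, hu1, mul_one]
  have h4 := nrm_lam_pow hζ
  rw [h3, ← pow_mul] at h4
  have hp1 : (1 : ℝ) < (p : ℝ) := by exact_mod_cast hpp.one_lt
  have hinv0 : (0 : ℝ) < ((p : ℝ))⁻¹ := inv_pos.mpr (by linarith)
  have hinv1 : ((p : ℝ))⁻¹ < 1 := inv_lt_one_of_one_lt₀ hp1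
  have h5 : n * (p - 1) = 1 := by
    have h6 : (((p : ℝ))⁻¹) ^ (n * (p - 1)) = (((p : ℝ))⁻¹) ^ 1 := by rw [h4, pow_one]
    exact pow_right_injective₀ hinv0 (ne_of_lt hinv1) h6
  have h7 : p - 1 = 1 := Nat.eq_one_of_mul_eq_one_left h5
  have := hpp.two_le
  omega

variable {N : ℕ} [NeZero N]
  {κ Ft : Type} [Field κ] [Field Ft] [Algebra κ Ft] {ι E : Type}
  {𝔻 : SemiRedDatum Qb (X0.FF N) κ Ft ι E}

/-! ### the concrete setting -/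

/-- the genus of `X₀(N)`. -/
abbrev gen (N : ℕ) [NeZero N] : ℕ :=
  haveI := Fermat.Agent.X0.HasCanDivInst.hasCanonicalDivisor N
  genus Qb (X0.FF N)

/-- the action of `Γ_L` on the function field. -/
def rhoL (p : ℕ) [Fact p.Prime] (N : ℕ) [NeZero N] (ζ : Qb) :
    ↥(GamL p ζ) →* SemilinearAut Qb (X0.FF N) :=
  (rhoI p N).comp (Subgroup.inclusion (GamL_le_Iv ζ))

theorem rhoL_apply (ζ : Qb) (γ : ↥(GamL p ζ)) :
    rhoL p N ζ γ = arithmeticGalois (modularFunctionFieldFull N) γ.1 := rfl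

theorem baseAut_rhoL (ζ : Qb) (γ : ↥(GamL p ζ)) (a : Qb) :
    SemilinearAut.baseAut (rhoL p N ζ γ) a = γ.1 a := rfl

theorem rhoL_eq_rhoI (ζ : Qb) (γ : ↥(GamL p ζ)) :
    rhoL p N ζ γ = rhoI p N ⟨γ.1, GamL_le_Iv ζ γ.2⟩ := rfl

/-- **Riemann's inequality from degree `gen` on.** -/
theorem hRR_ge (h : DatumFacts p N 𝔻) (D : Divisor Qb (X0.FF N))
    (hD : (gen N : ℤ) ≤ Divisor.degree D) :
    ∃ f : X0.FF N, f ≠ 0 ∧ ∀ P, -(D P) ≤ P.ord f := by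
  obtain ⟨P0⟩ := 𝔻.HL.nonempty
  set m : ℤ := Divisor.degree D - (gen N : ℤ) with hm
  have hm0 : 0 ≤ m := by omega
  set D' : Divisor Qb (X0.FF N) := D - Finsupp.single P0 m with hD'
  have hdeg : Divisor.degree D' = (gen N : ℤ) := by
    rw [hD', map_sub, degree_single 𝔻.HL]
    omega
  obtain ⟨f, hf0, hf⟩ := h.hRR D' hdeg
  refine ⟨f, hf0, fun P => le_trans ?_ (hf P)⟩
  rw [hD', Finsupp.sub_apply, neg_sub]
  have h1 : 0 ≤ (Finsupp.single P0 m) P := by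
    classical
    rw [Finsupp.single_apply]
    split_ifs
    · exact hm0
    · exact le_rfl
  omega

/-- the finite set of smooth points without `I_p`-fixed uniformizer. -/
def bad0 (h : DatumFacts p N 𝔻) : Set (ι × Place κ Ft) := h.hunif.choose

theorem bad0_finite (h : DatumFacts p N 𝔻) : (bad0 h).Finite := h.hunif.choose_spec.1

/-- `I_p`-fixed smooth places off `bad0`. -/
theorem exists_fixedPlace (h : DatumFacts p N 𝔻) (v : ι) (Q : Place κ Ft) (hQ : 𝔻.IsSm v Q)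
    (hb : (v, Q) ∉ bad0 h) :
    ∃ P : Place Qb (X0.FF N), 𝔻.r P = Sum.inl (v, Q) ∧ ∀ γ : ↥(Iv p), rhoI p N γ • P = P := by
  obtain ⟨u, hpf, h1, hfix⟩ := h.hunif.choose_spec.2 v Q hQ hb
  have hfix' : ∀ γ : ↥(Iv p), rhoI p N γ • (u : X0.FF N) = (u : X0.FF N) :=
    fun γ => hfix γ.1 γ.2
  obtain ⟨P, hgood, hPfix⟩ := Fermat.Agent.ORD.INSTN.MainN7.exists_fixed_centre (rhoI p N)
    h.triv' hQ u hpf h1 hfix'
  exact ⟨P, (𝔻.comp_r_eq_some_iff).mp hgood.1, hPfix⟩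

/-- **the concrete setting of (T3)** : `Γ = Γ_L` acting on a semistable datum of `X₀(N)` along
`padicPlace p`, with (TH) and (R1') as hypotheses. -/
def setting [Finite ι] [Nonempty ι] [Finite E] [Infinite κ]
    (h : DatumFacts p N 𝔻) {ζ : Qb} (hζ : IsPrimitiveRoot ζ p)
    (hTH : ∀ e, absv 𝔻 (𝔻.π e) = absv 𝔻 ((p : ℕ) : Qb))
    (Φ : E → X0.FF N)
    (Φ_fix : ∀ γ ∈ GamL p ζ, ∀ e,
      arithmeticGalois (modularFunctionFieldFull N) γ • Φ e = Φ e)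
    (Φ_ann : ∀ e (P : Place Qb (X0.FF N)), 𝔻.r P = Sum.inr e → P.ord (Φ e) = 0)
    (Φ_mem : ∀ e, Φ e ∈ 𝔻.G (𝔻.src e))
    (Φ_ord : ∀ e, (𝔻.Qs e).ord (𝔻.red (𝔻.src e) ⟨Φ e, Φ_mem e⟩) = 1) :
    T3Setting 𝔻 ↥(GamL p ζ) p (gen N) where
  ρ := rhoL p N ζ
  inert γ := h.hinert γ.1 (GamL_le_Iv ζ γ.2)
  triv γ P := h.triv γ.1 (GamL_le_Iv ζ γ.2) P
  lam := ζ - 1
  lam_ne := lam_ne_zero hζ
  lam_lt := (absv_lt_one_iff h.hA _).mpr (nrm_lam_lt_one hζ)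
  lam_fix γ := by
    rw [baseAut_rhoL, map_sub, map_one, γ.2.2]
  small c hc hlt := by
    rw [absv_le_iff h.hA]
    refine nrm_le_lam_of_fixed hζ (fun σ hσ => ?_) ((absv_lt_one_iff h.hA _).mp hlt)
    exact hc ⟨σ, hσ⟩
  teich c := by
    have hp : p.Prime := Fact.out
    have hA' : 𝔻.B.A.LiesOverPrime p := by rw [h.hA]; exact liesOverPrime p
    obtain ⟨a, ha, hfix⟩ := Fermat.Agent.ORD.IFACEN.AssembleMainN9.exists_teich_base 𝔻.B hp hA' c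
    refine ⟨a, ha, fun γ => ?_⟩
    rw [baseAut_rhoL]
    refine hfix γ.1 ?_
    rw [h.hA]
    exact GamL_le_Iv ζ γ.2
  p_eq := by
    rw [absv_eq_pow_iff h.hA, nrm_lam_pow hζ]
    exact nrm_natCast_self
  thick := hTH
  Φ := Φ
  Φ_fix γ e := Φ_fix γ.1 γ.2 e
  Φ_ann := Φ_ann
  Φ_mem := Φ_mem
  Φ_ord := Φ_ord
  adm Bad hBad := by
    obtain ⟨S, h1, h2, h3⟩ := h.exists_admissible Bad hBad
    exact ⟨S, fun γ => h3 ⟨γ.1, GamL_le_Iv ζ γ.2⟩, h1, h2⟩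
  Bad0 := bad0 h
  Bad0_fin := bad0_finite h
  fixedPlace v Q hQ hb := by
    obtain ⟨P, hP, hfix⟩ := exists_fixedPlace h v Q hQ hb
    exact ⟨P, hP, fun γ => hfix ⟨γ.1, GamL_le_Iv ζ γ.2⟩⟩
  hRR := hRR_ge h

/-! ### (T3) -/

/-- the slope at the source branch computed on the side `v` when `src e = v`. -/
theorem slS_eq_of_src {e : E} {v : ι} (hv : 𝔻.src e = v) {c : Qb} {f : X0.FF N}
    (hc : (𝔻.side v).IsNorm c f) :
    slS 𝔻 e f = (𝔻.Qs e).ord ((𝔻.side v).nred c f) := by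
  subst hv
  exact slS_eq 𝔻 hc

/-- additivity of the cocycle `κ` on `Γ_L` from `σ y − y = κ(σ) ℓ₀`, `ℓ₀` fixed of order `p`. -/
theorem kappa_add_of_act {ζ : Qb} {y ℓ₀ : JZero N} (hℓ0 : ℓ₀ ≠ 0) (hpℓ : p • ℓ₀ = 0)
    (hℓfix : ∀ σ ∈ GamL p ζ, σ • ℓ₀ = ℓ₀) {κc : GQ → ZMod p}
    (hy : ∀ σ ∈ GamL p ζ, σ • y - y = (κc σ).val • ℓ₀) :
    ∀ σ ∈ GamL p ζ, ∀ τ ∈ GamL p ζ, κc (σ * τ) = κc σ + κc τ := by
  intro σ hσ τ hτ
  have h1 : (σ * τ) • y - y = σ • (τ • y - y) + (σ • y - y) := by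
    rw [mul_smul, smul_sub]; abel
  have h2 : σ • ((κc τ).val • ℓ₀) = (κc τ).val • ℓ₀ := by
    have h0 := map_nsmul (DistribSMul.toAddMonoidHom (JZero N) σ) (κc τ).val ℓ₀
    rw [DistribSMul.toAddMonoidHom_apply, DistribSMul.toAddMonoidHom_apply] at h0
    rw [h0, hℓfix σ hσ]
  rw [hy _ ((GamL p ζ).mul_mem hσ hτ), hy τ hτ, hy σ hσ, h2, ← add_smul] at h1
  have h3 := eq_natCast_of_val_smul_eq (p := p) hℓ0 hpℓ h1
  rw [h3]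
  push_cast
  rw [ZMod.natCast_zmod_val, ZMod.natCast_zmod_val, add_comm]

/-- **(T3) for `y`** : `GeoStmt 𝔻` ⟹ all the slopes of `y` are congruent mod `p`. -/
theorem tau_eq_of_geo [Finite ι] [Nonempty ι] [Finite E] [Infinite κ]
    (h : DatumFacts p N 𝔻) {v0 v1 : ι} (tc : TwoComp 𝔻 v0 v1) (hp5 : 5 ≤ p)
    {ζ : Qb} (hζ : IsPrimitiveRoot ζ p)
    (hTH : ∀ e, absv 𝔻 (𝔻.π e) = absv 𝔻 ((p : ℕ) : Qb))
    (Φ : E → X0.FF N)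
    (Φ_fix : ∀ γ ∈ GamL p ζ, ∀ e,
      arithmeticGalois (modularFunctionFieldFull N) γ • Φ e = Φ e)
    (Φ_ann : ∀ e (P : Place Qb (X0.FF N)), 𝔻.r P = Sum.inr e → P.ord (Φ e) = 0)
    (Φ_mem : ∀ e, Φ e ∈ 𝔻.G (𝔻.src e))
    (Φ_ord : ∀ e, (𝔻.Qs e).ord (𝔻.red (𝔻.src e) ⟨Φ e, Φ_mem e⟩) = 1)
    (hgeo : GeoStmt 𝔻)
    {y ℓ₀ : JZero N} (hpy : p • y = 0) (hpℓ : p • ℓ₀ = 0) (hℓ0 : ℓ₀ ≠ 0)
    (hℓK : ℓ₀ ∈ kerRed 𝔻) (hℓfix : ∀ σ ∈ GamL p ζ, σ • ℓ₀ = ℓ₀)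
    {κc : GQ → ZMod p} (hy : ∀ σ ∈ GamL p ζ, σ • y - y = (κc σ).val • ℓ₀)
    (hpeu : (∀ σ ∈ GamL p ζ, κc σ = 0) ∨ ∃ t : Qb, Break1 p ζ κc t)
    (e e0 : E) : tau 𝔻 p y e = tau 𝔻 p y e0 := by
  classical
  have hpp : p.Prime := Fact.out
  by_contra hne
  obtain ⟨K⟩ := exists_kum hpy
  obtain ⟨c, hc⟩ := (𝔻.side v0).exists_isNorm K.f_ne
  have hsl : ∀ e' : E, tau 𝔻 p y e' =
      (((𝔻.Qs e').ord ((𝔻.side v0).nred c K.f) : ℤ) : ZMod p) := fun e' => by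
    rw [tau_eq 𝔻 K, slS_eq_of_src (tc.src e') hc]
  have hne' : ¬ (p : ℤ) ∣ (𝔻.Qs e).ord ((𝔻.side v0).nred c K.f) -
      (𝔻.Qs e0).ord ((𝔻.side v0).nred c K.f) := by
    intro hd
    apply hne
    rw [hsl e, hsl e0]
    exact ((ZMod.intCast_eq_intCast_iff_dvd_sub _ _ p).mpr hd).symm
  set G : T3Setting 𝔻 ↥(GamL p ζ) p (gen N) :=
    setting h hζ hTH Φ Φ_fix Φ_ann Φ_mem Φ_ord with hG
  obtain ⟨ξ, hξ0, hξfix, hξmove, j, hj, hξval⟩ :=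
    hgeo v0 v1 tc ↥(GamL p ζ) p (gen N) hpp hp5 G y ℓ₀ hℓK (fun γ => hℓfix γ.1 γ.2)
      (fun γ => (((κc γ.1).val : ℕ) : ℤ))
      (fun γ => by
        have := hy γ.1 γ.2
        rw [natCast_zsmul]
        exact this)
      K.D K.mk_eq K.f K.f_ne (fun P => (K.div_eq P).symm) c hc e e0 hne'
  refine false_of_geo hζ (kappa_add_of_act hℓ0 hpℓ hℓfix hy) hpeu hξ0 ?_ ?_ hj
    ((absv_pow_eq_zpow_iff h.hA ξ (ζ - 1) p j).mp hξval)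
  · intro σ hσ hκσ
    have h1 := hy σ hσ
    rw [hκσ, ZMod.val_zero, zero_nsmul, sub_eq_zero] at h1
    exact hξfix ⟨σ, hσ⟩ h1
  · intro σ hσ
    exact (absv_le_iff h.hA _ _).mp (hξmove ⟨σ, hσ⟩)

/-- **(T3) on the plane `⟨ℓ₀, y⟩`** : `τ` is constant (in the edge) on every `a • ℓ₀ + b • y`. -/
theorem tau_const_of_geo [Finite ι] [Nonempty ι] [Finite E] [Infinite κ]
    (h : DatumFacts p N 𝔻) {v0 v1 : ι} (tc : TwoComp 𝔻 v0 v1) (hp5 : 5 ≤ p)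
    {ζ : Qb} (hζ : IsPrimitiveRoot ζ p)
    (hTH : ∀ e, absv 𝔻 (𝔻.π e) = absv 𝔻 ((p : ℕ) : Qb))
    (Φ : E → X0.FF N)
    (Φ_fix : ∀ γ ∈ GamL p ζ, ∀ e,
      arithmeticGalois (modularFunctionFieldFull N) γ • Φ e = Φ e)
    (Φ_ann : ∀ e (P : Place Qb (X0.FF N)), 𝔻.r P = Sum.inr e → P.ord (Φ e) = 0)
    (Φ_mem : ∀ e, Φ e ∈ 𝔻.G (𝔻.src e))
    (Φ_ord : ∀ e, (𝔻.Qs e).ord (𝔻.red (𝔻.src e) ⟨Φ e, Φ_mem e⟩) = 1)
    (hgeo : GeoStmt 𝔻)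
    {y ℓ₀ : JZero N} (hpy : p • y = 0) (hpℓ : p • ℓ₀ = 0) (hℓ0 : ℓ₀ ≠ 0)
    (hℓK : ℓ₀ ∈ kerRed 𝔻) (hℓfix : ∀ σ ∈ GamL p ζ, σ • ℓ₀ = ℓ₀)
    {κc : GQ → ZMod p} (hy : ∀ σ ∈ GamL p ζ, σ • y - y = (κc σ).val • ℓ₀)
    (hpeu : (∀ σ ∈ GamL p ζ, κc σ = 0) ∨ ∃ t : Qb, Break1 p ζ κc t)
    (a b : ℤ) : ∃ c : ZMod p, ∀ e : E, tau 𝔻 p (a • ℓ₀ + b • y) e = c := by
  obtain ⟨S, -, -⟩ := h.exists_nsSystem ∅ Set.finite_empty
  have hτℓ : tau 𝔻 p ℓ₀ = 0 := tau_eq_zero_of_mem_kerRed S hℓK hpℓ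
  have hpa : p • (a • ℓ₀) = 0 := by rw [smul_comm, hpℓ, smul_zero]
  have hpb : p • (b • y) = 0 := by rw [smul_comm, hpy, smul_zero]
  have hτ : tau 𝔻 p (a • ℓ₀ + b • y) = b • tau 𝔻 p y := by
    rw [tau_add 𝔻 hpa hpb, tau_zsmul 𝔻 hpℓ, tau_zsmul 𝔻 hpy, hτℓ, smul_zero, zero_add]
  rcases isEmpty_or_nonempty E with hE | ⟨⟨e0⟩⟩
  · exact ⟨0, fun e => (hE.false e).elim⟩
  · refine ⟨b • tau 𝔻 p y e0, fun e => ?_⟩
    rw [hτ, Pi.smul_apply,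
      tau_eq_of_geo h tc hp5 hζ hTH Φ Φ_fix Φ_ann Φ_mem Φ_ord hgeo hpy hpℓ hℓ0 hℓK hℓfix hy hpeu
        e e0]

end

end Fermat.Agent.MP.T3.T3Datum6
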