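/-
Programme MP (row 38 via S44), chapter T3 (helper6): **(T3) on `MainDatum6.datum`, in the form consumed
by `FinalMain6.false_of_tau_datum`.**

* `t3_of_peu` (abstract over a datum with `DatumFacts` and `ConnFacts`) : a subgroup `V ≤ J₀(N)(ℚ̄)` on which
  inertia acts in shape (C) of `MP/PEU/Iface4` (`PeuData`), (TH), (R1') and `GeoStmt 𝔻` give
  `∀ y ∈ V, ∃ c, ∀ e, τ(y)_e = c`  [`ℓ₀ ∈ kerRed` because some `σ ∈ I_p` moves `ζ`, hence has
  eigenvalue `χ(σ) ≢ 1` on `ℓ₀` (`Iface6.mem_kerRed_of_smul_eq`); `Γ_L` fixes `ℓ₀`; `κ|Γ_L` is additive and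
  peu ramifié; `T3Datum6.tau_const_of_geo`];
* `twoComp_datum`, `geo_datum` : `MainDatum6.datum` has two components, and `GeoStmt` holds on it as soon
  as `RigidRepStmt` does (`Rigid2.rigidity`, `GenKap2.genKap`, `Geo6.geo`);
* **`t3_datum`** : the concrete statement, with (TH), (R1') and `RigidRepStmt (datum …)` as hypotheses.
-/
import Mathlib
import Fermat.Agent.MP.T3.T3Datum6
import Fermat.Agent.MP.T3.Rigid2
import Fermat.Agent.MP.T3.GenKap2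
import Fermat.Agent.MP.FINAL.FinalMain6
import Fermat.Agent.MP.PEU.Iface4

set_option autoImplicit false
set_option linter.unusedSectionVars false
set_option linter.style.longLine false
set_option linter.style.haveILetI false
set_option synthInstance.maxHeartbeats 400000

namespace Fermat.Agent.MP.T3.T3Main6

open AlgebraicCurve ModularCurve Fermat.Agent.X0.FF Fermat.Agent.RR.LSpace
open Fermat.Agent.ORD.ANN.Side3 Fermat.Agent.ORD.ANN.Inertial3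
open Fermat.Agent.ORD.SEMIRED.SemiRedDatum9 Fermat.Agent.ORD.SEMIRED.ToSemiRed9
open Fermat.Agent.ORD.KERN.KerDefs9 Fermat.Agent.ORD.KERN.KerN9 Fermat.Agent.ORD.KERN.KerGalN9
open Fermat.Agent.FF.BASE.Place2 Fermat.Agent.FF.FINAL.Final0 GaloisRep
open Fermat.Agent.TW.FLAT.FlatModule6
open Fermat.Agent.MP.FINAL.ConnPart6 Fermat.Agent.MP.FINAL.Iface6 Fermat.Agent.MP.FINAL.MainDatum6
open Fermat.Agent.MP.FINAL.DatumFacts6 Fermat.Agent.MP.FINAL.FinalMain6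
open Fermat.Agent.MP.T3.Config2 Fermat.Agent.MP.T3.Iface2 Fermat.Agent.MP.T3.Break7
open Fermat.Agent.MP.T3.Bridge6 Fermat.Agent.MP.T3.T3Datum6 Fermat.Agent.MP.TAU.TauDefs3
open Fermat.Agent.MP.PEU.Iface4 Fermat.Agent.ES.RED.ChartIntegralA1

noncomputable section

local instance (priority := 100000) algKF6t (A : ValuationSubring Qb) (M : ℕ) [NeZero M] :
    Algebra (kA A) ↥(modularFunctionFieldFullC (kA A) M) := inferInstance

variable {p : ℕ} [Fact p.Prime]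

/-- helper4's break-1 element is helper7's. -/
theorem break1_of_break {ζ : Qb} {κc : GQ → ZMod p} {t : Qb} (h : Break p ζ κc t) :
    Break1 p ζ κc t where
  fixed σ hσ hκ := h.fixed σ hσ.1 hσ.2 hκ
  nrm_pow := h.norm_pow
  move σ hσ hκ := h.moved σ hσ.1 hσ.2 hκ

section Abstract

variable {N : ℕ} [NeZero N]
  {κ Ft : Type} [Field κ] [Field Ft] [Algebra κ Ft] {ι E : Type}
  {𝔻 : SemiRedDatum Qb (X0.FF N) κ Ft ι E}

/-- **(T3), `PeuData` form** (abstract over the datum). -/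
theorem t3_of_peu [Finite ι] [Nonempty ι] [Finite E] [Infinite κ]
    (h : DatumFacts p N 𝔻) (hcf : ConnFacts p N 1 𝔻) {v0 v1 : ι} (tc : TwoComp 𝔻 v0 v1)
    (hp5 : 5 ≤ p) {ζ : Qb} (hζ : IsPrimitiveRoot ζ p)
    (hTH : ∀ e, absv 𝔻 (𝔻.π e) = absv 𝔻 ((p : ℕ) : Qb))
    (Φ : E → X0.FF N)
    (Φ_fix : ∀ γ ∈ GamL p ζ, ∀ e,
      arithmeticGalois (modularFunctionFieldFull N) γ • Φ e = Φ e)
    (Φ_ann : ∀ e (P : Place Qb (X0.FF N)), 𝔻.r P = Sum.inr e → P.ord (Φ e) = 0)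
    (Φ_mem : ∀ e, Φ e ∈ 𝔻.G (𝔻.src e))
    (Φ_ord : ∀ e, (𝔻.Qs e).ord (𝔻.red (𝔻.src e) ⟨Φ e, Φ_mem e⟩) = 1)
    (hgeo : GeoStmt 𝔻)
    (V : AddSubgroup (JZero N)) (act : GQ → ↥V → ↥V)
    (hact : ∀ σ ∈ Iv p, ∀ x : ↥V, ((act σ x : ↥V) : JZero N) = σ • (x : JZero N))
    (ℓ₀ y : ↥V) (χ κc : GQ → ZMod p) (hpeu : PeuData p act ζ ℓ₀ y χ κc) :
    ∀ y' ∈ V, ∃ c : ZMod p, ∀ e : E, tau 𝔻 p y' e = c := by
  have hpp : p.Prime := Fact.out
  haveI : NeZero p := ⟨hpp.ne_zero⟩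
  have hp2 : p ≠ 2 := by omega
  have hpy : p • (y : JZero N) = 0 := by
    have := congrArg (fun x : ↥V => (x : JZero N)) (hpeu.killed y)
    simpa using this
  have hpℓ : p • (ℓ₀ : JZero N) = 0 := by
    have := congrArg (fun x : ↥V => (x : JZero N)) (hpeu.killed ℓ₀)
    simpa using this
  have hℓ0 : (ℓ₀ : JZero N) ≠ 0 := by
    intro h0
    have h1 : ℓ₀ = 0 := Subtype.ext h0
    have h2 := hpeu.indep 1 0 (by rw [h1, smul_zero, ZMod.val_zero, zero_nsmul, add_zero])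
    exact one_ne_zero h2.1
  have hℓfix : ∀ σ ∈ GamL p ζ, σ • (ℓ₀ : JZero N) = ℓ₀ := by
    intro σ hσ
    rw [← hact σ hσ.1, hpeu.fixed_of_zeta hζ hσ.1 hσ.2]
  have hy : ∀ σ ∈ GamL p ζ, σ • (y : JZero N) - y = (κc σ).val • (ℓ₀ : JZero N) := by
    intro σ hσ
    have := congrArg (fun x : ↥V => (x : JZero N)) (hpeu.act_y σ hσ.1)
    simp only [AddSubgroup.coe_sub, AddSubgroup.coe_nsmul, hact σ hσ.1] at this
    exact this
  have hpeu' : (∀ σ ∈ GamL p ζ, κc σ = 0) ∨ ∃ t : Qb, Break1 p ζ κc t := by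
    rcases hpeu.peu with h0 | ⟨t, ht⟩
    · exact Or.inl fun σ hσ => h0 σ hσ.1 hσ.2
    · exact Or.inr ⟨t, break1_of_break ht⟩
  -- `ℓ₀` lies in the kernel of reduction
  have hℓK : (ℓ₀ : JZero N) ∈ kerRed 𝔻 := by
    obtain ⟨σ, hσ, hσζ⟩ := exists_mem_Iv_zeta_ne hp2 hζ
    have hχ1 : χ σ ≠ 1 := by
      intro h1
      apply hσζ
      rw [hpeu.zeta σ hσ, h1, ZMod.val_one, pow_one]
    have hline : σ • (ℓ₀ : JZero N) = (((χ σ).val : ℕ) : ℤ) • (ℓ₀ : JZero N) := by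
      rw [← hact σ hσ, hpeu.act_line σ hσ, natCast_zsmul, AddSubgroup.coe_nsmul]
    have hnd : ¬ (p : ℤ) ∣ (((χ σ).val : ℕ) : ℤ) - 1 := by
      intro hd
      apply hχ1
      have h2 : ((1 : ℤ) : ZMod p) = (((χ σ).val : ℤ) : ZMod p) :=
        (ZMod.intCast_eq_intCast_iff_dvd_sub _ _ p).mpr hd
      push_cast at h2
      rw [ZMod.natCast_zmod_val] at h2
      exact h2.symm
    have hcop : IsCoprime ((((χ σ).val : ℕ) : ℤ) - 1) (p : ℤ) :=
      ((Nat.prime_iff_prime_int.mp hpp).coprime_iff_not_dvd.mpr hnd).symm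
    exact mem_kerRed_of_smul_eq hcf hσ _ (by rw [natCast_zsmul]; exact hpℓ) _ hline hcop
  intro y' hy'
  obtain ⟨a, b, hab⟩ := hpeu.spans ⟨y', hy'⟩
  have hab' : y' = ((a.val : ℕ) : ℤ) • (ℓ₀ : JZero N) + ((b.val : ℕ) : ℤ) • (y : JZero N) := by
    have := congrArg (fun x : ↥V => (x : JZero N)) hab
    simp only [AddSubgroup.coe_add, AddSubgroup.coe_nsmul] at this
    rw [natCast_zsmul, natCast_zsmul]
    exact this
  rw [hab']
  exact tau_const_of_geo h tc hp5 hζ hTH Φ Φ_fix Φ_ann Φ_mem Φ_ord hgeo hpy hpℓ hℓ0 hℓK hℓfix hy hpeu'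
    _ _

end Abstract

/-! ### the concrete datum -/

section Concrete

variable {M₀ : ℕ} [NeZero M₀] (hpM : ¬ p ∣ M₀) (h4 : 4 ∣ M₀) (hp2 : p ≠ 2)

/-- the concrete datum has two components. -/
theorem twoComp_datum : TwoComp (datum hpM h4 hp2) 0 1 where
  ne := by decide
  all v := by
    fin_cases v
    · exact Or.inl rfl
    · exact Or.inr rfl
  src _ := rfl
  tgt _ := rfl

/-- **(GEO) on the concrete datum**, from the rigid representatives. -/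
theorem geo_datum (hrep : RigidRepStmt (datum hpM h4 hp2)) : GeoStmt (datum hpM h4 hp2) :=
  Fermat.Agent.MP.T3.Geo6.geo (Fermat.Agent.MP.T3.Rigid2.rigidity _)
    (Fermat.Agent.MP.T3.GenKap2.genKap _) hrep

/-- **(T3) on the concrete datum**, in the form consumed by `FinalMain6.false_of_tau_datum`. -/
theorem t3_datum (hp5 : 5 ≤ p) {ζ : Qb} (hζ : IsPrimitiveRoot ζ p)
    (hTH : ∀ e, absv (datum hpM h4 hp2) ((datum hpM h4 hp2).π e) =
      absv (datum hpM h4 hp2) ((p : ℕ) : Qb))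
    (Φ : Nodes hpM h4 hp2 → X0.FF (M₀ * p))
    (Φ_fix : ∀ γ ∈ GamL p ζ, ∀ e,
      arithmeticGalois (modularFunctionFieldFull (M₀ * p)) γ • Φ e = Φ e)
    (Φ_ann : ∀ e (P : Place Qb (X0.FF (M₀ * p))), (datum hpM h4 hp2).r P = Sum.inr e →
      P.ord (Φ e) = 0)
    (Φ_mem : ∀ e, Φ e ∈ (datum hpM h4 hp2).G ((datum hpM h4 hp2).src e))
    (Φ_ord : ∀ e, ((datum hpM h4 hp2).Qs e).ord
      ((datum hpM h4 hp2).red ((datum hpM h4 hp2).src e) ⟨Φ e, Φ_mem e⟩) = 1)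
    (hrep : RigidRepStmt (datum hpM h4 hp2))
    (V : AddSubgroup (JZero (M₀ * p))) (act : GQ → ↥V → ↥V)
    (hact : ∀ σ ∈ Iv p, ∀ x : ↥V, ((act σ x : ↥V) : JZero (M₀ * p)) = σ • (x : JZero (M₀ * p)))
    (ℓ₀ y : ↥V) (χ κc : GQ → ZMod p) (hpeu : PeuData p act ζ ℓ₀ y χ κc) :
    ∀ y' ∈ V, ∃ c : ZMod p, ∀ e : Nodes hpM h4 hp2, tau (datum hpM h4 hp2) p y' e = c := by
  have : IsAlgClosed (kA (padicPlace p)) := isAlgClosed_kA
  have : Infinite (kA (padicPlace p)) := inferInstance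
  exact t3_of_peu (datumFacts_datum hpM h4 hp2) (connFacts_datum hpM h4 hp2 1)
    (twoComp_datum hpM h4 hp2) hp5 hζ hTH Φ Φ_fix Φ_ann Φ_mem Φ_ord (geo_datum hpM h4 hp2 hrep)
    V act hact ℓ₀ y χ κc hpeu

end Concrete

end

end Fermat.Agent.MP.T3.T3Main6
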