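/-
Programme MP (row 38 via S44), chapter T3 (helper2): **rigid representatives and (GEO) on the concrete
datum `MainDatum6.datum`, unconditionally.**

* `exists_zpow_arch` : for reals `0 < a < 1`, `0 < b` there is `m : ℤ` with `a^m < b ≤ a^(m-1)`;
* `archAbs_of_padic` : a datum over `ℚ̄` with base valuation ring `padicPlace p` is archimedean
  (`RigidRep2.ArchAbs`), via helper6's bridge `absv 𝔻 ↔ nrm p`;
* **`rigidRep_datum : RigidRepStmt (datum hpM h4 hp2)`**, **`geo_datum' : GeoStmt (datum hpM h4 hp2)`**.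
-/
import Mathlib
import Fermat.Agent.MP.T3.RigidRep2
import Fermat.Agent.MP.T3.T3Main6

set_option autoImplicit false
set_option linter.unusedSectionVars false
set_option linter.style.longLine false
set_option synthInstance.maxHeartbeats 400000

namespace Fermat.Agent.MP.T3.RepDatum2

open AlgebraicCurve Fermat.Agent.X0.FF
open Fermat.Agent.ORD.SEMIRED.SemiRedDatum9
open Fermat.Agent.FF.BASE.Place2 Fermat.Agent.TW.FLAT.FlatModule6
open Fermat.Agent.MP.FINAL.MainDatum6 Fermat.Agent.MP.FINAL.DatumFacts6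
open Fermat.Agent.MP.T3.Config2 Fermat.Agent.MP.T3.Iface2 Fermat.Agent.MP.T3.Bridge6
open Fermat.Agent.MP.T3.RigidRep2 Fermat.Agent.MP.T3.T3Main6
open ModularCurve Fermat.Agent.ES.RED.ChartIntegralA1

noncomputable section

local instance (priority := 100000) algKF2t (A : ValuationSubring Qb) (M : ℕ) [NeZero M] :
    Algebra (kA A) ↥(modularFunctionFieldFullC (kA A) M) := inferInstance

theorem exists_zpow_arch {a b : ℝ} (ha0 : 0 < a) (ha1 : a < 1) (hb : 0 < b) :
    ∃ m : ℤ, a ^ m < b ∧ b ≤ a ^ (m - 1) := by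
  have hy : 1 < a⁻¹ := (one_lt_inv₀ ha0).mpr ha1
  obtain ⟨n, hn1, hn2⟩ := exists_mem_Ioc_zpow hb hy
  refine ⟨-n, ?_, ?_⟩
  · rw [← inv_zpow']; exact hn1
  · have e : a ^ (-n - 1) = a⁻¹ ^ (n + 1) := by
      rw [inv_zpow', neg_add']
    rw [e]; exact hn2

variable {p : ℕ} [Fact p.Prime]
  {F κ Ft : Type*} [Field F] [Algebra Qb F] [Field κ] [Field Ft] [Algebra κ Ft] {ι E : Type*}
  {𝔻 : SemiRedDatum Qb F κ Ft ι E}

/-- **the `p`-adic absolute value is archimedean.** -/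
theorem archAbs_of_padic (hA : 𝔻.B.A = padicPlace p) : ArchAbs 𝔻 := by
  intro lam hlam hlt z hz
  have ha0 : 0 < nrm p lam := nrm_pos hlam
  have ha1 : nrm p lam < 1 := (absv_lt_one_iff hA lam).mp hlt
  obtain ⟨m, h1, h2⟩ := exists_zpow_arch ha0 ha1 (nrm_pos (ℓ := p) hz)
  refine ⟨m, ?_, ?_⟩
  · have e : absv 𝔻 lam ^ m = absv 𝔻 (lam ^ m) := (map_zpow₀ _ _ _).symm
    rw [e, absv_lt_iff hA, nrm_zpow]
    exact h1
  · have e : absv 𝔻 lam ^ (m - 1) = absv 𝔻 (lam ^ (m - 1)) := (map_zpow₀ _ _ _).symm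
    rw [e, absv_le_iff hA, nrm_zpow]
    exact h2

section Concrete

variable {M₀ : ℕ} [NeZero M₀] (hpM : ¬ p ∣ M₀) (h4 : 4 ∣ M₀) (hp2 : p ≠ 2)

/-- **rigid representatives on the concrete datum.** -/
theorem rigidRep_datum : RigidRepStmt (datum hpM h4 hp2) :=
  rigidRepStmt_of_archAbs (datum hpM h4 hp2) (archAbs_of_padic (datumFacts_datum hpM h4 hp2).hA)

/-- **(GEO) on the concrete datum.** -/
theorem geo_datum' : GeoStmt (datum hpM h4 hp2) :=
  geo_datum hpM h4 hp2 (rigidRep_datum hpM h4 hp2)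

end Concrete

end

end Fermat.Agent.MP.T3.RepDatum2
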