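/-
Programme MP (row 38), chapter T3 (helper2): **the generalised `kap` is onto the kernel of reduction**
(`Iface2.GenKapStmt`).

For a base configuration `C0` of an `A`-system (Riemann's inequality in degree `#I + #A`), every
`z = [Z] ∈ kerRed` is `[C'.div − C0.div]` for a configuration `C'` matched with `C0`.
-/
import Mathlib
import Fermat.Agent.MP.T3.Rigid2

set_option autoImplicit false
set_option linter.unusedSectionVars false
set_option linter.style.longLine false

namespace Fermat.Agent.MP.T3.GenKap2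

open AlgebraicCurve Fermat.Agent.X0.FF Fermat.Agent.RR.LSpace Fermat.Agent.MW.EMB.Value6
open Fermat.Agent.ORD.ANN.Side3 Fermat.Agent.ORD.ANN.Node3 Fermat.Agent.ORD.ANN.Matched3
open Fermat.Agent.ORD.SEMIRED.SemiRedDatum9 Fermat.Agent.ORD.SEMIRED.ToSemiRed9
open Fermat.Agent.ORD.REDN.DiscC9
open Fermat.Agent.ORD.KERN.KerDefs9 Fermat.Agent.ORD.KERN.KerN9
open Fermat.Agent.MP.T3.Config2 Fermat.Agent.MP.T3.Iface2 Fermat.Agent.MP.T3.Local2
open Fermat.Agent.MP.T3.Rigid2
open Fermat.Agent.FF.KER.Ker0 (mapDomain_sub' mapDomain_nonneg eq_zero_of_mapDomain_eq_zero)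

noncomputable section

variable {L F k Ft : Type*} [Field L] [Field F] [Algebra L F] [Field k] [Field Ft] [Algebra k Ft]

/-! ### node lemmas -/

section Node

variable {Ft' : Type*} [Field Ft'] [Algebra k Ft']
variable {B : Base L k} {HL : LHyp L F} {S : Side B F Ft} {S' : Side B F Ft'}
  {Hk : LHyp k Ft} {Hk' : LHyp k Ft'} (N : NodeChart B HL S S' Hk Hk')

/-- an integral function with at most a simple pole at `P0` on the annulus (and no other pole there) has
reductions regular at the two branches. -/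
theorem ann_regular_pole {P0 : Place L F} (hP0 : P0 ∈ N.ann) {H : F} (hH : H ≠ 0)
    (hord : ∀ P ∈ N.ann, P ≠ P0 → 0 ≤ P.ord H) (hord0 : -1 ≤ P0.ord H)
    (hs : H ∈ S.G) (ht : H ∈ S'.G) :
    0 ≤ N.Q.ord (S.red ⟨H, hs⟩) ∧ 0 ≤ N.Q'.ord (S'.red ⟨H, ht⟩) := by
  have ha0 : N.a P0 ≠ 0 := N.a_ne P0 hP0
  have hl0 := N.lin_ne_zero hP0
  -- `lin P0` on the two sides
  have hls : N.lin P0 ∈ S.G := by
    have := (N.isNorm_lin hP0).1.mem
    rwa [map_one, one_mul] at this
  have hlreds : S.red ⟨_, hls⟩ = N.xb := by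
    rw [← S.nred_one_of_mem hls, (N.isNorm_lin hP0).2]
  have hlt0 := (N.isNorm_lin' hP0).1.mem
  have hmA : -(N.a P0) ∈ B.A := B.A.neg_mem _ (N.a_lt P0 hP0).mem
  have hlt : N.lin P0 ∈ S'.G := by
    have e : N.lin P0 = algebraMap L F (-(N.a P0)) * (algebraMap L F (-(N.a P0))⁻¹ * N.lin P0) := by
      rw [← mul_assoc, ← map_mul, mul_inv_cancel₀ (neg_ne_zero.mpr ha0), map_one, one_mul]
    rw [e]
    exact S'.G.mul_mem (S'.const_mem ⟨_, hmA⟩) hlt0
  have hlredt : S'.red ⟨_, hlt⟩ = 0 := by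
    have e : (⟨_, hlt⟩ : S'.G) = S'.const ⟨_, hmA⟩ * ⟨_, hlt0⟩ := by
      apply Subtype.ext
      show N.lin P0 = algebraMap L F (-(N.a P0)) * (algebraMap L F (-(N.a P0))⁻¹ * N.lin P0)
      rw [← mul_assoc, ← map_mul, mul_inv_cancel₀ (neg_ne_zero.mpr ha0), map_one, one_mul]
    have h0 : B.res ⟨-(N.a P0), hmA⟩ = 0 := by
      rw [B.res_eq_zero_iff]
      have hm : B.IsM (-(N.a P0)) := by
        rw [Base.IsM, Valuation.map_neg]; exact N.a_lt P0 hP0
      exact hm.not_isUnit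
    rw [e, map_mul, S'.red_const', h0, map_zero, zero_mul]
  -- `H1 = H * lin P0`
  have hH1s : H * N.lin P0 ∈ S.G := S.G.mul_mem hs hls
  have hH1t : H * N.lin P0 ∈ S'.G := S'.G.mul_mem ht hlt
  have hH1pf : ∀ P ∈ N.ann, 0 ≤ P.ord (H * N.lin P0) := by
    intro P hP
    rw [P.ord_mul hH hl0]
    by_cases hPP : P = P0
    · subst hPP
      rw [N.ord_lin_self hP]
      omega
    · rw [N.ord_lin_of_ne hP0 hP hPP]
      have := hord P hP hPP
      omega
  obtain ⟨m1, -, m3, -⟩ := NodeChartAux.matched N _ hH1s hH1t hH1pf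
  have hH1reds : S.red ⟨_, hH1s⟩ = S.red ⟨H, hs⟩ * N.xb := by
    have e : (⟨_, hH1s⟩ : S.G) = ⟨H, hs⟩ * ⟨_, hls⟩ := Subtype.ext rfl
    rw [e, map_mul, hlreds]
  have hH1redt : S'.red ⟨_, hH1t⟩ = 0 := by
    have e : (⟨_, hH1t⟩ : S'.G) = ⟨H, ht⟩ * ⟨_, hlt⟩ := Subtype.ext rfl
    rw [e, map_mul, hlredt, mul_zero]
  rw [hH1reds] at m1 m3
  rw [hH1redt, valF_zero] at m3
  -- `y − b0` on the two sides
  set y : F := algebraMap L F N.π * N.x⁻¹ with hy
  have hb0 : B.IsM (N.π / N.a P0) := N.a_gt P0 hP0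
  set w : F := y - algebraMap L F (N.π / N.a P0) with hw
  have hwt : w ∈ S'.G := S'.G.sub_mem N.y_mem (S'.const_mem ⟨_, hb0.mem⟩)
  have hwredt : S'.red ⟨w, hwt⟩ = N.yb := by
    have e : (⟨w, hwt⟩ : S'.G) = ⟨y, N.y_mem⟩ - S'.const ⟨_, hb0.mem⟩ := Subtype.ext rfl
    rw [e, map_sub, S'.red_const', (B.res_eq_zero_iff _).mpr hb0.not_isUnit, map_zero, sub_zero]
    rfl
  have hxinv : N.x⁻¹ ∈ S.G := S.inv_mem (g := ⟨N.x, N.x_mem⟩) N.xb_ne_zero
  have hys : y ∈ S.G := S.G.mul_mem (S.const_mem ⟨N.π, N.π_lt.mem⟩) hxinv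
  have hyreds : S.red ⟨y, hys⟩ = 0 := by
    have e : (⟨y, hys⟩ : S.G) = S.const ⟨N.π, N.π_lt.mem⟩ * ⟨_, hxinv⟩ := Subtype.ext rfl
    rw [e, map_mul, S.red_const', (B.res_eq_zero_iff _).mpr N.π_lt.not_isUnit, map_zero, zero_mul]
  have hws : w ∈ S.G := S.G.sub_mem hys (S.const_mem ⟨_, hb0.mem⟩)
  have hwreds : S.red ⟨w, hws⟩ = 0 := by
    have e : (⟨w, hws⟩ : S.G) = ⟨y, hys⟩ - S.const ⟨_, hb0.mem⟩ := Subtype.ext rfl
    rw [e, map_sub, hyreds, S.red_const', (B.res_eq_zero_iff _).mpr hb0.not_isUnit, map_zero,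
      sub_zero]
  have hweq : w = -(algebraMap L F (N.π / N.a P0) * N.x⁻¹ * N.lin P0) := by
    have hx0 := N.x_ne_zero
    have haF : algebraMap L F (N.a P0) ≠ 0 := (map_ne_zero _).mpr ha0
    rw [hw, hy, NodeChart.lin, map_div₀]
    field_simp
    ring
  have hw0 : w ≠ 0 := by
    rw [hweq, neg_ne_zero]
    exact mul_ne_zero (mul_ne_zero ((map_ne_zero _).mpr (div_ne_zero N.π_ne ha0))
      (inv_ne_zero N.x_ne_zero)) hl0
  have hword : ∀ P ∈ N.ann, P.ord w = P.ord (N.lin P0) := by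
    intro P hP
    rw [hweq, ffp_ord_neg, P.ord_mul (mul_ne_zero ((map_ne_zero _).mpr (div_ne_zero N.π_ne ha0))
      (inv_ne_zero N.x_ne_zero)) hl0, P.ord_mul ((map_ne_zero _).mpr (div_ne_zero N.π_ne ha0))
      (inv_ne_zero N.x_ne_zero), ffp_ord_algebraMap, Place.ord_inv, N.ord_x_ann hP]
    ring
  have hH2s : H * w ∈ S.G := S.G.mul_mem hs hws
  have hH2t : H * w ∈ S'.G := S'.G.mul_mem ht hwt
  have hH2pf : ∀ P ∈ N.ann, 0 ≤ P.ord (H * w) := by
    intro P hP
    rw [P.ord_mul hH hw0, hword P hP]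
    by_cases hPP : P = P0
    · subst hPP
      rw [N.ord_lin_self hP]
      omega
    · rw [N.ord_lin_of_ne hP0 hP hPP]
      have := hord P hP hPP
      omega
  obtain ⟨-, n2, n3, -⟩ := NodeChartAux.matched N _ hH2s hH2t hH2pf
  have hH2reds : S.red ⟨_, hH2s⟩ = 0 := by
    have e : (⟨_, hH2s⟩ : S.G) = ⟨H, hs⟩ * ⟨w, hws⟩ := Subtype.ext rfl
    rw [e, map_mul, hwreds, mul_zero]
  have hH2redt : S'.red ⟨_, hH2t⟩ = S'.red ⟨H, ht⟩ * N.yb := by
    have e : (⟨_, hH2t⟩ : S'.G) = ⟨H, ht⟩ * ⟨w, hwt⟩ := Subtype.ext rfl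
    rw [e, map_mul, hwredt]
  rw [hH2redt] at n2 n3
  rw [hH2reds, valF_zero] at n3
  constructor
  · by_cases h0 : S.red ⟨H, hs⟩ = 0
    · rw [h0, Place.ord_zero]
    · rcases (valF_eq_zero_iff Hk N.Q (ffp_mem_of_ord_nonneg _ m1)).mp m3 with h2 | h2
      · exact absurd h2 (mul_ne_zero h0 N.xb_ne_zero)
      · rw [N.Q.ord_mul h0 N.xb_ne_zero, N.ord_xb] at h2
        omega
  · by_cases h0 : S'.red ⟨H, ht⟩ = 0
    · rw [h0, Place.ord_zero]
    · rcases (valF_eq_zero_iff Hk' N.Q' (ffp_mem_of_ord_nonneg _ n2)).mp n3.symm with h2 | h2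
      · exact absurd h2 (mul_ne_zero h0 N.yb_ne_zero)
      · rw [N.Q'.ord_mul h0 N.yb_ne_zero, N.ord_yb] at h2
        omega

open Classical in
/-- a function with one simple zero `P'` and one simple pole `P''` on the annulus, normalised by the
same constant on the two sides with the same constant reduction: `|a'| = |a''|`. -/
theorem ratio_isU {P' P'' : Place L F} (hP' : P' ∈ N.ann) (hP'' : P'' ∈ N.ann) {h : F} (hh : h ≠ 0)
    (hord : ∀ P ∈ N.ann, P.ord h = (if P = P' then 1 else 0) - (if P = P'' then 1 else 0))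
    {c : L} {a : k} (hn : S.IsNorm c h) (hnr : S.nred c h = algebraMap k Ft a)
    (hn' : S'.IsNorm c h) (hnr' : S'.nred c h = algebraMap k Ft' a) :
    B.IsU (N.a P' / N.a P'') := by
  set θ : F := theta N P' P'' with hθ
  have hθ0 : θ ≠ 0 := theta_ne_zero N hP' hP''
  set U : F := h * θ⁻¹ with hU
  have hU0 : U ≠ 0 := mul_ne_zero hh (inv_ne_zero hθ0)
  have hUord : ∀ P ∈ N.ann, P.ord U = 0 := by
    intro P hP
    rw [hU, P.ord_mul hh (inv_ne_zero hθ0), Place.ord_inv, hord P hP, hθ, ord_theta N hP' hP'' hP]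
    ring
  have hsupp : N.supp hU0 = ∅ := supp_eq_empty N hU0 hUord
  have hUn := hn.mul (theta_src N hP' hP'').1.inv.1
  rw [hnr, (theta_src N hP' hP'').1.inv.2, (theta_src N hP' hP'').2, inv_one, mul_one, inv_one,
    mul_one] at hUn
  have hUn' := hn'.mul (theta_tgt N hP' hP'').1.inv.1
  rw [hnr', (theta_tgt N hP' hP'').1.inv.2, (theta_tgt N hP' hP'').2, inv_one, mul_one,
    inv_div] at hUn'
  have hc0 := hn.c_ne_zero
  have hj := N.lead_jump hU0 hUn.1 hUn'.1
    (by rw [hUn.2, ffp_ord_algebraMap]) (by rw [hUn'.2, ffp_ord_algebraMap])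
  rw [hsupp, Finset.prod_empty, mul_one] at hj
  have e : c * (N.a P' / N.a P'') / c = N.a P' / N.a P'' := by field_simp
  rw [e] at hj
  exact hj.1

end Node

variable {ι E : Type*} {𝔻 : SemiRedDatum L F k Ft ι E} {g : ℕ}

/-! ### effective divisors reducing like a configuration -/

open Classical in
/-- An effective divisor with the reduction of a configuration is the divisor of a configuration
(`C0` supplies the irrelevant default values). -/
theorem exists_config_div_eq {S : ASystem 𝔻 g} (C0 : Config S) (E' : Divisor L F) (hE : 0 ≤ E')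
    (hEr : Finsupp.mapDomain 𝔻.r E' = Finsupp.mapDomain 𝔻.r C0.div) :
    ∃ C' : Config S, C'.div = E' := by
  rw [mapDomain_div] at hEr
  have hsum_inl : ∀ x : ι × Place k Ft,
      (∑ e ∈ S.A, Finsupp.single (Sum.inr e : Pts ι E k Ft) (1 : ℤ)) (Sum.inl x) = 0 := by
    intro x
    rw [Finsupp.finsetSum_apply]
    refine Finset.sum_eq_zero fun e _ => ?_
    rw [Finsupp.single_apply, if_neg (by simp)]
  have hsum_inr : ∀ e ∈ S.A,
      (∑ e' ∈ S.A, Finsupp.single (Sum.inr e' : Pts ι E k Ft) (1 : ℤ)) (Sum.inr e) = 1 := by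
    intro e he
    rw [Finsupp.finsetSum_apply, Finset.sum_eq_single_of_mem e he, Finsupp.single_apply, if_pos rfl]
    intro e' _ hne
    rw [Finsupp.single_apply, if_neg]
    intro h'
    exact hne (Sum.inr.inj h')
  -- the points
  have hexI : ∀ i ∈ S.I, ∃ P' : Place L F, 𝔻.r P' = Sum.inl (S.S0.c i, S.S0.Q i) ∧ 1 ≤ E' P' := by
    intro i hi
    have h1 : Finsupp.mapDomain 𝔻.r E' (Sum.inl (S.S0.c i, S.S0.Q i)) = 1 := by
      rw [hEr, Finsupp.add_apply, redDivI_apply_kept S hi, hsum_inl, add_zero]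
    rw [CompDatum.mapDomain_apply_eq_sum] at h1
    obtain ⟨P', hP', -⟩ := Finset.exists_ne_zero_of_sum_ne_zero (by rw [h1]; exact one_ne_zero)
    simp only [Finset.mem_filter, Finsupp.mem_support_iff] at hP'
    refine ⟨P', hP'.2, ?_⟩
    have := hE P'
    simp only [Finsupp.coe_zero, Pi.zero_apply] at this
    omega
  have hexA : ∀ e ∈ S.A, ∃ P' : Place L F, 𝔻.r P' = Sum.inr e ∧ 1 ≤ E' P' := by
    intro e he
    have h1 : Finsupp.mapDomain 𝔻.r E' (Sum.inr e) = 1 := by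
      rw [hEr, Finsupp.add_apply, hsum_inr e he,
        redDivI_apply_of_ne S (fun i _ h' => by simp at h'), zero_add]
    rw [CompDatum.mapDomain_apply_eq_sum] at h1
    obtain ⟨P', hP', -⟩ := Finset.exists_ne_zero_of_sum_ne_zero (by rw [h1]; exact one_ne_zero)
    simp only [Finset.mem_filter, Finsupp.mem_support_iff] at hP'
    refine ⟨P', hP'.2, ?_⟩
    have := hE P'
    simp only [Finsupp.coe_zero, Pi.zero_apply] at this
    omega
  choose PI hPIr hPIE using hexI
  choose PA hPAr hPAE using hexA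
  let C' : Config S :=
    { t := fun i => if hi : i ∈ S.I then S.S0.coord i (hPIr i hi) else 0
      Pe := fun e => if he : e ∈ S.A then PA e he else C0.Pe e
      hPe := by
        intro e he
        rw [dif_pos he]
        exact hPAr e he }
  have hCt : ∀ i (hi : i ∈ S.I), S.S0.pt i (C'.t i) = PI i hi := by
    intro i hi
    show S.S0.pt i (if hi : i ∈ S.I then S.S0.coord i (hPIr i hi) else 0) = _
    rw [dif_pos hi, S.S0.pt_coord]
  have hCe : ∀ e (he : e ∈ S.A), C'.Pe e = PA e he := by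
    intro e he
    show (if he : e ∈ S.A then PA e he else C0.Pe e) = _
    rw [dif_pos he]
  refine ⟨C', ?_⟩
  have hdiff : 0 ≤ E' - C'.div := by
    intro P
    rw [Finsupp.sub_apply]
    simp only [Finsupp.coe_zero, Pi.zero_apply]
    have hEP := hE P
    simp only [Finsupp.coe_zero, Pi.zero_apply] at hEP
    by_cases h1 : ∃ i ∈ S.I, 𝔻.r P = Sum.inl (S.S0.c i, S.S0.Q i)
    · obtain ⟨i, hi, hP⟩ := h1
      rw [div_apply_disc C' hi hP, hCt i hi]
      split_ifs with h'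
      · have := hPIE i hi
        rw [← h'] at this
        omega
      · omega
    · push Not at h1
      by_cases h2 : ∃ e ∈ S.A, 𝔻.r P = Sum.inr e
      · obtain ⟨e, he, hP⟩ := h2
        rw [div_apply_ann C' he hP, hCe e he]
        split_ifs with h'
        · have := hPAE e he
          rw [← h'] at this
          omega
        · omega
      · push Not at h2
        rw [div_apply_other C' h1 h2]
        omega
  ext P
  have h0 : Finsupp.mapDomain 𝔻.r (E' - C'.div) (𝔻.r P) = 0 := by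
    rw [mapDomain_sub', Finsupp.sub_apply, hEr, mapDomain_div, sub_self]
  have := eq_zero_of_mapDomain_eq_zero 𝔻.r hdiff h0 (a := P) rfl
  rw [Finsupp.sub_apply] at this
  omega

/-! ### the theorem -/

/-- the annulus fibre sum of a principal divisor is the sum over the support on the annulus. -/
theorem mapDomain_divOf_inr (𝔻 : SemiRedDatum L F k Ft ι E) {s : F} (hs : s ≠ 0) (e : E) :
    Finsupp.mapDomain 𝔻.r (divOf 𝔻.HL hs) (Sum.inr e) = ∑ P ∈ (𝔻.node e).supp hs, P.ord s := by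
  classical
  rw [CompDatum.mapDomain_apply_eq_sum]
  refine Finset.sum_congr ?_ fun P _ => divOf_apply 𝔻.HL hs P
  ext P
  simp only [NodeChart.supp, Finset.mem_filter, 𝔻.r_ann]

/-- **THE GENERALISED `kap` IS ONTO `kerRed`.** -/
theorem genKap (𝔻 : SemiRedDatum L F k Ft ι E) : GenKapStmt 𝔻 := by
  classical
  intro v0 v1 tc g S _ C0 hRR Z hZ
  have : Finite ι := finite_of_twoComp tc
  have : Nonempty ι := ⟨v0⟩
  have hNM := Fermat.Agent.ORD.ANN.MatchedDatum3.nodeMatched 𝔻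
  obtain ⟨D', hann, hr, hmk⟩ := hZ
  rw [Fermat.Agent.FF.KER.Ker0.NSSystem.mk_eq_mk_iff] at hmk
  obtain ⟨ψ, hψ0, hψ⟩ := hmk
  -- the section
  have hdeg : Divisor.degree ((D' : Divisor L F) + C0.div) = (S.I.card + S.A.card : ℕ) := by
    rw [map_add, Divisor.mem_degZero.mp D'.2, zero_add, Config.degree_div]
    push_cast
    ring
  obtain ⟨s, hs, hsB⟩ := hRR _ hdeg
  have hsB' : ∀ P : Place L F, -((D' : Divisor L F) P) - C0.div P ≤ P.ord s := by
    intro P
    have := hsB P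
    rw [Finsupp.add_apply] at this
    omega
  -- simultaneous normalisation
  obtain ⟨c, hc0, hall, v1', hv1'⟩ := exists_normAll 𝔻 hs
  set f : ι → Ft := fun v => (𝔻.side v).nred c s with hf
  have hfv : ∀ v, f v = 𝔻.red v ⟨_, hall v⟩ := fun v => (𝔻.side v).nred_of_mem (hall v)
  have hnorm : ∀ v, f v ≠ 0 → (𝔻.side v).IsNorm c s := fun v hv =>
    ⟨hall v, by rw [← hfv v]; exact hv⟩
  have hcs0 : algebraMap L F c * s ≠ 0 := mul_ne_zero ((map_ne_zero _).mpr hc0) hs
  -- orders of `s` on the annuli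
  have hordO : ∀ e, e ∉ S.A → ∀ P : Place L F, 𝔻.r P = Sum.inr e → 0 ≤ P.ord s := by
    intro e he P hP
    have h1 := hsB' P
    rw [hann P e hP, div_apply_other C0 (fun i _ h' => by rw [hP] at h'; exact absurd h' (by simp))
      (fun e' he' h' => by rw [hP] at h'; exact he (Sum.inr.inj h' ▸ he'))] at h1
    omega
  have hordA : ∀ e (he : e ∈ S.A) (P : Place L F), 𝔻.r P = Sum.inr e →
      -(if P = C0.Pe e then 1 else 0) ≤ P.ord s := by
    intro e he P hP
    have h1 := hsB' P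
    rw [hann P e hP, div_apply_ann C0 he hP] at h1
    omega
  -- regularity at the branches
  have hbranch : ∀ e, 0 ≤ (𝔻.Qs e).ord (f (𝔻.src e)) ∧ 0 ≤ (𝔻.Qt e).ord (f (𝔻.tgt e)) := by
    intro e
    rw [hfv, hfv]
    by_cases he : e ∈ S.A
    · refine ann_regular_pole (𝔻.node e) (C0.mem_ann he) hcs0 ?_ ?_ (hall _) (hall _)
      · intro P hP hne
        rw [ord_const_mul P hc0 hs]
        have := hordA e he P ((𝔻.r_ann e P).mp hP)
        rwa [if_neg hne, neg_zero] at this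
      · rw [ord_const_mul _ hc0 hs]
        have := hordA e he (C0.Pe e) (C0.hPe e he)
        rwa [if_pos rfl] at this
    · have hpf : 𝔻.PoleFreeAnn (algebraMap L F c * s) e := by
        intro P hP
        rw [ord_const_mul P hc0 hs]
        exact hordO e he P hP
      exact ⟨(hNM e _ (hall _) (hall _) hpf).1, (hNM e _ (hall _) (hall _) hpf).2.1⟩
  -- the effective divisor
  set Es : Divisor L F := divOf 𝔻.HL hs + (D' : Divisor L F) + C0.div with hEs
  have hE : 0 ≤ Es := by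
    intro P
    rw [hEs, Finsupp.add_apply, Finsupp.add_apply, divOf_apply]
    simp only [Finsupp.coe_zero, Pi.zero_apply]
    have := hsB' P
    omega
  have hEm := mapDomain_nonneg 𝔻.r hE
  have hpole : ∀ v, f v ≠ 0 → ∀ Q' : Place k Ft,
      -(redDivI (E := E) S.S0.c S.S0.Q S.I (Sum.inl (v, Q'))) ≤ Q'.ord (f v) := by
    intro v hv Q'
    by_cases hbr : 𝔻.IsBranch v Q'
    · rw [redDivI_apply_of_isBranch S hbr, neg_zero]
      rcases hbr with ⟨e, rfl, rfl⟩ | ⟨e, rfl, rfl⟩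
      · exact (hbranch e).1
      · exact (hbranch e).2
    · have h1 := mapDomain_divOf_of_isNorm 𝔻 hs (hnorm v hv) (Q' := Q') hbr
      have h2 := hEm (Sum.inl (v, Q'))
      rw [hEs, Finsupp.mapDomain_add, Finsupp.mapDomain_add, Finsupp.add_apply, Finsupp.add_apply,
        h1, hr, mapDomain_div, Finsupp.add_apply] at h2
      have h3 : (∑ e ∈ S.A, Finsupp.single (Sum.inr e : Pts ι E k Ft) (1 : ℤ)) (Sum.inl (v, Q')) = 0 := by
        rw [Finsupp.finsetSum_apply]
        refine Finset.sum_eq_zero fun e _ => ?_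
        rw [Finsupp.single_apply, if_neg (by simp)]
      rw [h3] at h2
      simp only [Finsupp.coe_zero, Pi.zero_apply, add_zero] at h2
      show _ ≤ Q'.ord ((𝔻.side v).nred c s)
      omega
  have hmatch : ∀ e, e ∉ S.A →
      valF 𝔻.Hk (𝔻.Qs e) (f (𝔻.src e)) = valF 𝔻.Hk (𝔻.Qt e) (f (𝔻.tgt e)) := by
    intro e he
    rw [hfv, hfv]
    have hpf : 𝔻.PoleFreeAnn (algebraMap L F c * s) e := by
      intro P hP
      rw [ord_const_mul P hc0 hs]
      exact hordO e he P hP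
    exact (hNM e _ (hall _) (hall _) hpf).2.2.1
  obtain ⟨a, ha⟩ := S.ans f hpole hmatch
  have ha0 : a ≠ 0 := by
    rintro rfl
    have := ha v1'
    rw [map_zero] at this
    exact hv1'.nred_ne_zero this
  have hne : ∀ v, f v ≠ 0 := fun v => by rw [ha v]; exact (map_ne_zero _).mpr ha0
  have hca : ∀ v, (𝔻.side v).IsNorm c s ∧ (𝔻.side v).nred c s = algebraMap k Ft a :=
    fun v => ⟨hnorm v (hne v), ha v⟩
  -- all the fibre sums of `div s` vanish
  have hdivs : Finsupp.mapDomain 𝔻.r (divOf 𝔻.HL hs) = 0 := by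
    ext x
    rw [Finsupp.coe_zero, Pi.zero_apply]
    rcases x with ⟨v, Q'⟩ | e
    · by_cases hbr : 𝔻.IsBranch v Q'
      · exact mapDomain_r_apply_of_isBranch 𝔻 _ hbr
      · rw [mapDomain_divOf_of_isNorm 𝔻 hs (hca v).1 hbr, (hca v).2, ffp_ord_algebraMap]
    · rw [mapDomain_divOf_inr, ← (𝔻.node e).slope_add hs (hca _).1 (hca _).1, (hca _).2, (hca _).2,
        ffp_ord_algebraMap, ffp_ord_algebraMap, add_zero]
  have hEr : Finsupp.mapDomain 𝔻.r Es = Finsupp.mapDomain 𝔻.r C0.div := by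
    rw [hEs, Finsupp.mapDomain_add, Finsupp.mapDomain_add, hdivs, hr, zero_add, zero_add]
  obtain ⟨C', hC'⟩ := exists_config_div_eq C0 Es hE hEr
  -- the order of `s`
  have hords : ∀ P : Place L F, P.ord s = C'.div P - C0.div P - (D' : Divisor L F) P := by
    intro P
    rw [hC', hEs, Finsupp.add_apply, Finsupp.add_apply, divOf_apply]
    ring
  refine ⟨C', s * ψ⁻¹, mul_ne_zero hs (inv_ne_zero hψ0), ?_, ?_⟩
  · -- matched radii
    intro e he
    have hU := ratio_isU (𝔻.node e) (C'.mem_ann he) (C0.mem_ann he) hs (fun P hP => by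
      have hP' := (𝔻.r_ann e P).mp hP
      rw [hords P, hann P e hP', div_apply_ann C' he hP', div_apply_ann C0 he hP', sub_zero])
      (hca _).1 (hca _).2 (hca _).1 (hca _).2
    have h0 : 𝔻.B.A.valuation ((𝔻.node e).a (C0.Pe e)) ≠ 0 :=
      (Valuation.ne_zero_iff _).mpr ((𝔻.node e).a_ne _ (C0.mem_ann he))
    have hU' : 𝔻.B.A.valuation ((𝔻.node e).a (C'.Pe e) / (𝔻.node e).a (C0.Pe e)) = 1 := hU
    rw [map_div₀] at hU'
    exact (div_eq_one_iff_eq h0).mp hU'
  · intro P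
    rw [P.ord_mul hs (inv_ne_zero hψ0), Place.ord_inv, hords P, ← hψ P, Finsupp.sub_apply]
    ring

end

end Fermat.Agent.MP.T3.GenKap2
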