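/-
Programme MP (row 38 via S44), chapter T3 (helper2): **(T3) on `MainDatum6.datum` with the rigid
representatives discharged** — `T3Main6.t3_datum` with `hrep := RepDatum2.rigidRep_datum`.

`t3_datum'` hangs only on (TH) `hTH` and (R1') `Φ, Φ_fix, Φ_ann, Φ_mem, Φ_ord` (chapter MP/TH) and on the
peu ramifié data `PeuData`.
-/
import Mathlib
import Fermat.Agent.MP.T3.RepDatum2

set_option autoImplicit false
set_option linter.unusedSectionVars false
set_option linter.style.longLine false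
set_option linter.style.haveILetI false
set_option synthInstance.maxHeartbeats 400000

namespace Fermat.Agent.MP.T3.T3Final2

open AlgebraicCurve ModularCurve Fermat.Agent.X0.FF Fermat.Agent.RR.LSpace
open Fermat.Agent.ORD.SEMIRED.SemiRedDatum9
open Fermat.Agent.FF.BASE.Place2 Fermat.Agent.FF.FINAL.Final0 GaloisRep
open Fermat.Agent.TW.FLAT.FlatModule6
open Fermat.Agent.MP.FINAL.MainDatum6
open Fermat.Agent.MP.T3.Config2 Fermat.Agent.MP.T3.Iface2 Fermat.Agent.MP.T3.Break7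
open Fermat.Agent.MP.T3.T3Main6 Fermat.Agent.MP.T3.RepDatum2 Fermat.Agent.MP.TAU.TauDefs3
open Fermat.Agent.MP.PEU.Iface4 Fermat.Agent.ES.RED.ChartIntegralA1

noncomputable section

local instance (priority := 100000) algKF2f (A : ValuationSubring Qb) (M : ℕ) [NeZero M] :
    Algebra (kA A) ↥(modularFunctionFieldFullC (kA A) M) := inferInstance

variable {p : ℕ} [Fact p.Prime]
variable {M₀ : ℕ} [NeZero M₀] (hpM : ¬ p ∣ M₀) (h4 : 4 ∣ M₀) (hp2 : p ≠ 2)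

/-- **(T3) on the concrete datum**, from (TH), (R1') and the peu ramifié data only. -/
theorem t3_datum' (hp5 : 5 ≤ p) {ζ : Qb} (hζ : IsPrimitiveRoot ζ p)
    (hTH : ∀ e, absv (datum hpM h4 hp2) ((datum hpM h4 hp2).π e) =
      absv (datum hpM h4 hp2) ((p : ℕ) : Qb))
    (Φ : Nodes hpM h4 hp2 → X0.FF (M₀ * p))
    (Φ_fix : ∀ γ ∈ GamL p ζ, ∀ e,
      arithmeticGalois (modularFunctionFieldFull (M₀ * p)) γ • Φ e = Φ e)
    (Φ_ann : ∀ e (P : Place Qb (X0.FF (M₀ * p))), (datum hpM h4 hp2).r P = Sum.inr e →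
      P.ord (Φ e) = 0)
    (Φ_mem : ∀ e, Φ e ∈ (datum hpM h4 hp2).G ((datum hpM h4 hp2).src e))
    (Φ_ord : ∀ e, ((datum hpM h4 hp2).Qs e).ord
      ((datum hpM h4 hp2).red ((datum hpM h4 hp2).src e) ⟨Φ e, Φ_mem e⟩) = 1)
    (V : AddSubgroup (JZero (M₀ * p))) (act : GQ → ↥V → ↥V)
    (hact : ∀ σ ∈ Iv p, ∀ x : ↥V, ((act σ x : ↥V) : JZero (M₀ * p)) = σ • (x : JZero (M₀ * p)))
    (ℓ₀ y : ↥V) (χ κc : GQ → ZMod p) (hpeu : PeuData p act ζ ℓ₀ y χ κc) :
    ∀ y' ∈ V, ∃ c : ZMod p, ∀ e : Nodes hpM h4 hp2, tau (datum hpM h4 hp2) p y' e = c :=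
  t3_datum hpM h4 hp2 hp5 hζ hTH Φ Φ_fix Φ_ann Φ_mem Φ_ord (rigidRep_datum hpM h4 hp2)
    V act hact ℓ₀ y χ κc hpeu

end

end Fermat.Agent.MP.T3.T3Final2
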